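import Fermat.Agent.S13.Glue
import Fermat.Agent.S05.Transfer

/-!
# S13: the final assembly, assuming the interfaces K0, K2, Kp, KM, S05
-/

set_option autoImplicit false
set_option linter.unusedSectionVars false

namespace Fermat.Agent.S13

open WeierstrassCurve WeierstrassCurve.Affine WeierstrassCurve.Affine.Point

local notation "Qb" => AlgebraicClosure ℚ
local notation "GQ" => (AlgebraicClosure ℚ ≃ₐ[ℚ] AlgebraicClosure ℚ)

/-- The `p`-torsion of the Frey curve over `ℚ̄`. -/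
abbrev FreyV (P : FreyPackage) : Type := Submodule.torsionBy ℤ (P.freyCurve⁄Qb).Point P.p

/-- The interface statements of the S13 campaign. -/
structure Interfaces (P : FreyPackage) : Prop where
  /-- K0: a point of order `p` exists. -/
  exists_ne : ∃ x : FreyV P, x ≠ 0
  /-- K0: finiteness. -/
  finite : Finite (FreyV P)
  /-- K0: at most `p²` points. -/
  card_le : Nat.card (FreyV P) ≤ P.p ^ 2
  /-- K2: inertia at `2` is unipotent. -/
  unip2 : ∀ A : ValuationSubring Qb, A.LiesOverPrime 2 → ∀ σ ∈ A.inertiaSubgroupIn ℚ,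
    ∀ x : FreyV P, σ • (σ • x - x) = σ • x - x
  /-- K2-rat: there is no rational point of order `p`. -/
  rat : ∀ x : FreyV P, (∀ σ : GQ, σ • x = x) → x = 0
  /-- Kp: at `p`, inertia acts trivially on the line or on the quotient. -/
  atp : ∀ A : ValuationSubring Qb, A.LiesOverPrime P.p →
    ∀ N : Submodule (ZMod P.p) (FreyV P), IsGaloisStable ℚ N → N ≠ ⊥ → N ≠ ⊤ →
      (∀ σ ∈ A.inertiaSubgroupIn ℚ, ∀ x ∈ N, σ • x = x) ∨
      (∀ σ ∈ A.inertiaSubgroupIn ℚ, ∀ x : FreyV P, σ • x - x ∈ N)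
  /-- S05: unramified at odd `q ≠ p`. -/
  odd : ∀ q : ℕ, q.Prime → q ≠ 2 → q ≠ P.p → P.GaloisRepUnramifiedAt q
  /-- KM: a normal open subgroup containing one inertia group at every prime is everything. -/
  km : ∀ (H : Subgroup GQ) [H.Normal],
    (∃ F : IntermediateField ℚ Qb, FiniteDimensional ℚ F ∧ F.fixingSubgroup ≤ H) →
    (∀ q : ℕ, q.Prime → ∃ A : ValuationSubring Qb, A.LiesOverPrime q ∧
      A.inertiaSubgroupIn ℚ ≤ H) →
    H = ⊤

/-- The coordinates of a point. -/
def coordSet (P : FreyPackage) : (P.freyCurve⁄Qb).Point → Set Qb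
  | .zero => ∅
  | .some x y _ => {x, y}

lemma coordSet_finite (P : FreyPackage) (R : (P.freyCurve⁄Qb).Point) :
    (coordSet P R).Finite := by
  cases R with
  | zero => exact Set.finite_empty
  | some x y h => exact (Set.finite_singleton y).insert x

/-- The action on the `p`-torsion factors through a finite extension. -/
lemma exists_open (P : FreyPackage) [Finite (FreyV P)] :
    ∃ F : IntermediateField ℚ Qb, FiniteDimensional ℚ F ∧
      ∀ σ ∈ F.fixingSubgroup, ∀ x : FreyV P, σ • x = x := by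
  let S : Set Qb := ⋃ x : FreyV P, coordSet P x.1
  have hS : S.Finite := Set.finite_iUnion fun x => coordSet_finite P x.1
  have : Finite S := hS
  have hFD : FiniteDimensional ℚ (IntermediateField.adjoin ℚ S) :=
    IntermediateField.finiteDimensional_adjoin fun x _ =>
      ((AlgebraicClosure.isAlgebraic ℚ).isAlgebraic x).isIntegral
  refine ⟨IntermediateField.adjoin ℚ S, hFD, fun σ hσ x => ?_⟩
  rw [IntermediateField.mem_fixingSubgroup_iff] at hσ
  apply Subtype.ext
  show σ • x.1 = x.1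
  have hx : coordSet P x.1 ⊆ S := Set.subset_iUnion (fun x : FreyV P => coordSet P x.1) x
  rcases hR : x.1 with _ | ⟨a, b, h⟩
  · rfl
  · rw [hR] at hx
    obtain ⟨h', e⟩ := Fermat.Agent.S05.algEquiv_smul_some (S := ℚ) (E₀ := P.freyCurve) σ h
    rw [e]
    have ha : σ a = a := hσ a (IntermediateField.subset_adjoin ℚ S (hx (by simp [coordSet])))
    have hb : σ b = b := hσ b (IntermediateField.subset_adjoin ℚ S (hx (by simp [coordSet])))
    simp only [Affine.Point.some.injEq]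
    exact ⟨ha, hb⟩

/-- **S13 modulo the interfaces.** -/
theorem s13_of_interfaces (P : FreyPackage) (I : Interfaces P)
    (hred : ¬ GaloisRepIsIrreducible (K := Qb) ℚ P.freyCurve P.p) :
    HasGaloisStableCofixedLine (K := Qb) ℚ P.freyCurve P.p := by
  have : Fact P.p.Prime := ⟨P.pp⟩
  have := I.finite
  -- the stable line
  have hN : ∃ N : Submodule (ZMod P.p) (FreyV P), IsGaloisStable ℚ N ∧ N ≠ ⊥ ∧ N ≠ ⊤ := by
    by_contra h
    push Not at h
    apply hred
    refine ⟨?_, fun N hN => ?_⟩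
    · obtain ⟨x, hx⟩ := I.exists_ne
      exact ⟨⟨x, 0, hx⟩⟩
    · by_cases h0 : N = ⊥
      · exact Or.inl h0
      · exact Or.inr (h N hN h0)
  obtain ⟨N, hNs, h0, h1⟩ := hN
  have hNs' : ∀ σ : GQ, ∀ x ∈ N, σ • x ∈ N := hNs
  obtain ⟨F, hF, hFfix⟩ := exists_open P
  -- the two subgroups
  have n1 : (fixer GQ N).Normal := fixer_normal N hNs'
  have n2 : (cofixer GQ N hNs').Normal := cofixer_normal N hNs'
  have o1 : ∃ F : IntermediateField ℚ Qb, FiniteDimensional ℚ F ∧
      F.fixingSubgroup ≤ fixer GQ N :=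
    ⟨F, hF, fun σ hσ x _ => hFfix σ hσ x⟩
  have o2 : ∃ F : IntermediateField ℚ Qb, FiniteDimensional ℚ F ∧
      F.fixingSubgroup ≤ cofixer GQ N hNs' :=
    ⟨F, hF, fun σ hσ x => by
      have e : σ • x - x = 0 := sub_eq_zero.2 (hFfix σ hσ x)
      rw [e]; exact N.zero_mem⟩
  -- inertia away from `p`
  have away : ∀ q : ℕ, q.Prime → q ≠ P.p → ∀ A : ValuationSubring Qb, A.LiesOverPrime q →
      A.inertiaSubgroupIn ℚ ≤ fixer GQ N ∧ A.inertiaSubgroupIn ℚ ≤ cofixer GQ N hNs' := by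
    intro q hq hqp A hA
    by_cases hq2 : q = 2
    · subst hq2
      refine ⟨fun σ hσ => ?_, fun σ hσ => ?_⟩
      · exact (unipotent_trivial I.card_le N h0 h1 σ (hNs' σ) (I.unip2 A hA σ hσ)).1
      · exact (unipotent_trivial I.card_le N h0 h1 σ (hNs' σ) (I.unip2 A hA σ hσ)).2
    · have hu := I.odd q hq hq2 hqp A hA
      refine ⟨fun σ hσ x _ => hu σ hσ x, fun σ hσ x => ?_⟩
      have e : σ • x - x = 0 := sub_eq_zero.2 (hu σ hσ x)
      rw [e]; exact N.zero_mem
  obtain ⟨Ap, hAp⟩ := Fermat.Agent.Lib.Frobenius.exists_liesOverPrime P.pp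
  have hyp : ∀ (H : Subgroup GQ), (∀ q : ℕ, q.Prime → q ≠ P.p → ∀ A : ValuationSubring Qb,
      A.LiesOverPrime q → A.inertiaSubgroupIn ℚ ≤ H) → Ap.inertiaSubgroupIn ℚ ≤ H →
      ∀ q : ℕ, q.Prime → ∃ A : ValuationSubring Qb, A.LiesOverPrime q ∧
        A.inertiaSubgroupIn ℚ ≤ H := by
    intro H hH hp q hq
    by_cases hqp : q = P.p
    · subst hqp; exact ⟨Ap, hAp, hp⟩
    · obtain ⟨A, hA⟩ := Fermat.Agent.Lib.Frobenius.exists_liesOverPrime hq
      exact ⟨A, hA, hH q hq hqp A hA⟩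
  rcases I.atp Ap hAp N hNs h0 h1 with hc | hc
  · -- the line is pointwise fixed: contradiction with `rat`
    exfalso
    have htop : fixer GQ N = ⊤ :=
      I.km (fixer GQ N) o1 (hyp _ (fun q hq hqp A hA => (away q hq hqp A hA).1) hc)
    obtain ⟨x₀, hx₀N, hx₀⟩ := (Submodule.ne_bot_iff N).1 h0
    apply hx₀
    apply I.rat x₀
    intro σ
    have : σ ∈ fixer GQ N := by rw [htop]; exact Subgroup.mem_top σ
    exact this x₀ hx₀N
  · have htop : cofixer GQ N hNs' = ⊤ :=
      I.km (cofixer GQ N hNs') o2 (hyp _ (fun q hq hqp A hA => (away q hq hqp A hA).2) hc)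
    refine ⟨N, hNs, h0, h1, fun σ x => ?_⟩
    have : σ ∈ cofixer GQ N hNs' := by rw [htop]; exact Subgroup.mem_top σ
    exact this x

/-- Variant of the interfaces: the alternative at `p` is uniform in the valuation ring, and the
Minkowski step assumes all inertia groups. -/
structure InterfacesU (P : FreyPackage) : Prop where
  /-- K0: a point of order `p` exists. -/
  exists_ne : ∃ x : FreyV P, x ≠ 0
  /-- K0: finiteness. -/
  finite : Finite (FreyV P)
  /-- K0: at most `p²` points. -/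
  card_le : Nat.card (FreyV P) ≤ P.p ^ 2
  /-- K2: inertia at `2` is unipotent. -/
  unip2 : ∀ A : ValuationSubring Qb, A.LiesOverPrime 2 → ∀ σ ∈ A.inertiaSubgroupIn ℚ,
    ∀ x : FreyV P, σ • (σ • x - x) = σ • x - x
  /-- K2-rat: there is no rational point of order `p`. -/
  rat : ∀ x : FreyV P, (∀ σ : GQ, σ • x = x) → x = 0
  /-- Kp: at `p`, inertia acts trivially on the line or on the quotient, uniformly. -/
  atp : ∀ N : Submodule (ZMod P.p) (FreyV P), IsGaloisStable ℚ N → N ≠ ⊥ → N ≠ ⊤ →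
      (∀ A : ValuationSubring Qb, A.LiesOverPrime P.p →
        ∀ σ ∈ A.inertiaSubgroupIn ℚ, ∀ x ∈ N, σ • x = x) ∨
      (∀ A : ValuationSubring Qb, A.LiesOverPrime P.p →
        ∀ σ ∈ A.inertiaSubgroupIn ℚ, ∀ x : FreyV P, σ • x - x ∈ N)
  /-- S05: unramified at odd `q ≠ p`. -/
  odd : ∀ q : ℕ, q.Prime → q ≠ 2 → q ≠ P.p → P.GaloisRepUnramifiedAt q
  /-- KM: a normal open subgroup containing all inertia groups is everything. -/
  km : ∀ (H : Subgroup GQ) [H.Normal],
    (∃ F : IntermediateField ℚ Qb, FiniteDimensional ℚ F ∧ F.fixingSubgroup ≤ H) →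
    (∀ q : ℕ, q.Prime → ∀ A : ValuationSubring Qb, A.LiesOverPrime q →
      A.inertiaSubgroupIn ℚ ≤ H) →
    H = ⊤

/-- **S13 modulo the interfaces** (uniform variant). -/
theorem s13_of_interfacesU (P : FreyPackage) (I : InterfacesU P)
    (hred : ¬ GaloisRepIsIrreducible (K := Qb) ℚ P.freyCurve P.p) :
    HasGaloisStableCofixedLine (K := Qb) ℚ P.freyCurve P.p := by
  have : Fact P.p.Prime := ⟨P.pp⟩
  have := I.finite
  -- the stable line
  have hN : ∃ N : Submodule (ZMod P.p) (FreyV P), IsGaloisStable ℚ N ∧ N ≠ ⊥ ∧ N ≠ ⊤ := by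
    by_contra h
    push Not at h
    apply hred
    refine ⟨?_, fun N hN => ?_⟩
    · obtain ⟨x, hx⟩ := I.exists_ne
      exact ⟨⟨x, 0, hx⟩⟩
    · by_cases h0 : N = ⊥
      · exact Or.inl h0
      · exact Or.inr (h N hN h0)
  obtain ⟨N, hNs, h0, h1⟩ := hN
  have hNs' : ∀ σ : GQ, ∀ x ∈ N, σ • x ∈ N := hNs
  obtain ⟨F, hF, hFfix⟩ := exists_open P
  -- the two subgroups
  have n1 : (fixer GQ N).Normal := fixer_normal N hNs'
  have n2 : (cofixer GQ N hNs').Normal := cofixer_normal N hNs'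
  have o1 : ∃ F : IntermediateField ℚ Qb, FiniteDimensional ℚ F ∧
      F.fixingSubgroup ≤ fixer GQ N :=
    ⟨F, hF, fun σ hσ x _ => hFfix σ hσ x⟩
  have o2 : ∃ F : IntermediateField ℚ Qb, FiniteDimensional ℚ F ∧
      F.fixingSubgroup ≤ cofixer GQ N hNs' :=
    ⟨F, hF, fun σ hσ x => by
      have e : σ • x - x = 0 := sub_eq_zero.2 (hFfix σ hσ x)
      rw [e]; exact N.zero_mem⟩
  -- inertia away from `p`
  have away : ∀ q : ℕ, q.Prime → q ≠ P.p → ∀ A : ValuationSubring Qb, A.LiesOverPrime q →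
      A.inertiaSubgroupIn ℚ ≤ fixer GQ N ∧ A.inertiaSubgroupIn ℚ ≤ cofixer GQ N hNs' := by
    intro q hq hqp A hA
    by_cases hq2 : q = 2
    · subst hq2
      refine ⟨fun σ hσ => ?_, fun σ hσ => ?_⟩
      · exact (unipotent_trivial I.card_le N h0 h1 σ (hNs' σ) (I.unip2 A hA σ hσ)).1
      · exact (unipotent_trivial I.card_le N h0 h1 σ (hNs' σ) (I.unip2 A hA σ hσ)).2
    · have hu := I.odd q hq hq2 hqp A hA
      refine ⟨fun σ hσ x _ => hu σ hσ x, fun σ hσ x => ?_⟩
      have e : σ • x - x = 0 := sub_eq_zero.2 (hu σ hσ x)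
      rw [e]; exact N.zero_mem
  rcases I.atp N hNs h0 h1 with hc | hc
  · -- the line is pointwise fixed: contradiction with `rat`
    exfalso
    have htop : fixer GQ N = ⊤ := by
      refine I.km (fixer GQ N) o1 fun q hq A hA => ?_
      by_cases hqp : q = P.p
      · subst hqp; exact fun σ hσ => hc A hA σ hσ
      · exact (away q hq hqp A hA).1
    obtain ⟨x₀, hx₀N, hx₀⟩ := (Submodule.ne_bot_iff N).1 h0
    apply hx₀
    apply I.rat x₀
    intro σ
    have : σ ∈ fixer GQ N := by rw [htop]; exact Subgroup.mem_top σ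
    exact this x₀ hx₀N
  · have htop : cofixer GQ N hNs' = ⊤ := by
      refine I.km (cofixer GQ N hNs') o2 fun q hq A hA => ?_
      by_cases hqp : q = P.p
      · subst hqp; exact fun σ hσ => hc A hA σ hσ
      · exact (away q hq hqp A hA).2
    refine ⟨N, hNs, h0, h1, fun σ x => ?_⟩
    have : σ ∈ cofixer GQ N hNs' := by rw [htop]; exact Subgroup.mem_top σ
    exact this x

end Fermat.Agent.S13
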