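import Fermat.Agent.S13.LadderCard
import Fermat.Agent.S05.Final

/-!
# S13 (K0): the `p`-torsion of the Frey curve over `ℚ̄` is finite of cardinality at most `p²`
-/

set_option autoImplicit false
set_option linter.unusedSectionVars false
set_option linter.unusedVariables false

namespace Fermat.Agent.S13

open WeierstrassCurve Polynomial Fermat.Agent.S05 WeierstrassCurve.Affine.Point

section general

variable {K : Type*} [Field K] [DecidableEq K] {E W : WeierstrassCurve K} {r : K}

lemma isTransfer_E_Δ (h : IsTransfer E W r) : 4096 * E.Δ = W.Δ := by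
  rw [h.W_model.Δ_eq, h.W_a₂, h.W_a₄]
  simp only [WeierstrassCurve.Δ, WeierstrassCurve.b₂, WeierstrassCurve.b₄, WeierstrassCurve.b₆,
    WeierstrassCurve.b₈, h.E_a₁, h.E_a₃, h.E_a₆]
  linear_combination (-(-288 * (4 * E.a₂ + 1) * (16 * E.a₄) - 432 * (4 * E.a₂ + 1) * r ^ 2 +
    64 * (4 * E.a₂ + 1) ^ 3 - 432 * (16 * E.a₄) * r - 432 * r ^ 3)) * h.hr

lemma isTransfer_E_Δ_ne (h : IsTransfer E W r) : E.Δ ≠ 0 := by
  intro e
  apply h.hΔ
  rw [← isTransfer_E_Δ h, e, mul_zero]

/-- the transfer is surjective -/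
lemma transfer_surjective (h : IsTransfer E W r) : Function.Surjective (transfer h) := by
  rintro (_ | ⟨X, Y, hXY⟩)
  · exact ⟨0, rfl⟩
  · have h4 := h.four_ne
    have h8 := h.eight_ne
    have hE : E.toAffine.Equation ((X + r) / 4) ((Y - X - r) / 8) := by
      have e := (h.W_model.equation_iff X Y).1 hXY.1
      rw [h.W_a₂, h.W_a₄] at e
      rw [Affine.equation_iff, h.E_a₁, h.E_a₃, h.E_a₆]
      field_simp
      linear_combination 64 * e - 64 * h.hr
    have hns : E.toAffine.Nonsingular ((X + r) / 4) ((Y - X - r) / 8) :=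
      (Affine.equation_iff_nonsingular_of_Δ_ne_zero (isTransfer_E_Δ_ne h)).1 hE
    refine ⟨.some _ _ hns, ?_⟩
    rw [transfer_some]
    congr 1
    · field_simp; ring
    · field_simp; ring

end general

local notation "Qb" => AlgebraicClosure ℚ

/-- the Frey curve transfers to the model `Y² = X(X - aᵖ)(X + bᵖ)` -/
theorem frey_isTransfer_zero (P : FreyPackage) :
    IsTransfer (P.freyCurve⁄Qb) ((freyModel P 0)⁄Qb) (algebraMap ℚ Qb ((0 : ℤ) : ℚ)) := by
  have hmodel : IsModel ((freyModel P 0)⁄Qb) :=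
    ⟨by simp [WeierstrassCurve.baseChange, freyModel],
     by simp [WeierstrassCurve.baseChange, freyModel],
     by simp [WeierstrassCurve.baseChange, freyModel]⟩
  have ea₂ : ((freyModel P 0)⁄Qb).a₂ = ((3 * 0 + (P.b ^ P.p - P.a ^ P.p) : ℤ) : Qb) := by
    simp [WeierstrassCurve.baseChange, freyModel]
  have ea₄' : ((freyModel P 0)⁄Qb).a₄ =
      ((3 * 0 ^ 2 + 2 * 0 * (P.b ^ P.p - P.a ^ P.p) - P.a ^ P.p * P.b ^ P.p : ℤ) : Qb) := by
    simp [WeierstrassCurve.baseChange, freyModel]
  have h4 : ((freyModel P 0)⁄Qb).a₄ ≠ 0 := by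
    rw [ea₄']
    have : (3 * 0 ^ 2 + 2 * 0 * (P.b ^ P.p - P.a ^ P.p) - P.a ^ P.p * P.b ^ P.p : ℤ) ≠ 0 := by
      simp only [ne_eq, OfNat.ofNat_ne_zero, not_false_eq_true, zero_pow, mul_zero, zero_mul,
        add_zero, zero_sub, neg_eq_zero, mul_eq_zero, not_or]
      exact ⟨pow_ne_zero _ P.ha0, pow_ne_zero _ P.hb0⟩
    exact_mod_cast this
  have hΔ : ((freyModel P 0)⁄Qb).Δ ≠ 0 := by
    rw [hmodel.Δ_eq]
    refine mul_ne_zero (mul_ne_zero (by norm_num) (pow_ne_zero _ h4)) ?_
    rw [ea₂, ea₄']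
    have : ((3 * 0 + (P.b ^ P.p - P.a ^ P.p)) ^ 2 -
        4 * (3 * 0 ^ 2 + 2 * 0 * (P.b ^ P.p - P.a ^ P.p) - P.a ^ P.p * P.b ^ P.p) : ℤ) ≠ 0 := by
      have e : ((3 * 0 + (P.b ^ P.p - P.a ^ P.p)) ^ 2 -
        4 * (3 * 0 ^ 2 + 2 * 0 * (P.b ^ P.p - P.a ^ P.p) - P.a ^ P.p * P.b ^ P.p) : ℤ) =
          (P.c ^ P.p) ^ 2 := by
        rw [← P.hFLT]; ring
      rw [e]
      exact pow_ne_zero _ (pow_ne_zero _ P.hc0)
    exact_mod_cast this
  exact
    { E_a₁ := by simp [WeierstrassCurve.baseChange, FreyPackage.freyCurve]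
      E_a₃ := by simp [WeierstrassCurve.baseChange, FreyPackage.freyCurve]
      E_a₆ := by simp [WeierstrassCurve.baseChange, FreyPackage.freyCurve]
      W_model := hmodel
      W_a₂ := by
        rw [ea₂]
        simp only [WeierstrassCurve.baseChange, WeierstrassCurve.map_a₂, FreyPackage.freyCurve]
        simp only [map_div₀, map_sub, map_pow, map_intCast, map_one, map_ofNat]
        push_cast
        field_simp
        ring
      W_a₄ := by
        rw [ea₄']
        simp only [WeierstrassCurve.baseChange, WeierstrassCurve.map_a₂, WeierstrassCurve.map_a₄,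
          FreyPackage.freyCurve]
        simp only [map_div₀, map_sub, map_mul, map_neg, map_pow, map_intCast, map_one, map_ofNat]
        push_cast
        field_simp
        ring
      hr := by simp
      hΔ := hΔ
      h2 := by norm_num }

/-- the Frey model has integral coefficients -/
lemma freyModel_int (P : FreyPackage) :
    ∃ a₂ a₄ : ℤ, ((freyModel P 0)⁄Qb).a₂ = a₂ ∧ ((freyModel P 0)⁄Qb).a₄ = a₄ :=
  ⟨P.b ^ P.p - P.a ^ P.p, -(P.a ^ P.p * P.b ^ P.p),
    by simp [WeierstrassCurve.baseChange, freyModel],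
    by simp [WeierstrassCurve.baseChange, freyModel]⟩

/-- the embedding of the `p`-torsion of the Frey curve into the `p`-torsion of the model -/
noncomputable def freyToModel (P : FreyPackage)
    (x : Submodule.torsionBy ℤ (P.freyCurve⁄Qb).toAffine.Point P.p) :
    {Q : ((freyModel P 0)⁄Qb).toAffine.Point | P.p • Q = 0} :=
  ⟨transfer (frey_isTransfer_zero P) x.1, by
    have hx : (P.p : ℤ) • x.1 = 0 := by
      have := x.2
      rwa [Submodule.mem_torsionBy_iff] at this
    have hxn : P.p • x.1 = 0 := by rwa [natCast_zsmul] at hx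
    have e : P.p • transfer (frey_isTransfer_zero P) x.1 =
        transfer (frey_isTransfer_zero P) (P.p • x.1) :=
      (map_nsmul (transferHom (frey_isTransfer_zero P)) P.p x.1).symm
    show P.p • transfer (frey_isTransfer_zero P) x.1 = 0
    rw [e, hxn]
    rfl⟩

lemma freyToModel_injective (P : FreyPackage) : Function.Injective (freyToModel P) := by
  intro x y h
  have := congrArg Subtype.val h
  exact Subtype.ext (transfer_injective (frey_isTransfer_zero P) this)

lemma frey_p_ne_two (P : FreyPackage) : P.p ≠ 2 := by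
  have := P.hp5
  omega

/-- **K0, finiteness.** -/
theorem frey_torsion_finite (P : FreyPackage) :
    Finite (Submodule.torsionBy ℤ (P.freyCurve⁄Qb).toAffine.Point P.p) := by
  have h := (card_torsion_le (frey_isTransfer_zero P).W_model P.pp (frey_p_ne_two P)).1
  have : Finite {Q : ((freyModel P 0)⁄Qb).toAffine.Point | P.p • Q = 0} := h.to_subtype
  exact Finite.of_injective _ (freyToModel_injective P)

/-- **K0, card bound.** -/
theorem frey_torsion_card_le (P : FreyPackage) :
    Nat.card (Submodule.torsionBy ℤ (P.freyCurve⁄Qb).toAffine.Point P.p) ≤ P.p ^ 2 := by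
  have h := card_torsion_le (frey_isTransfer_zero P).W_model P.pp (frey_p_ne_two P)
  have : Finite {Q : ((freyModel P 0)⁄Qb).toAffine.Point | P.p • Q = 0} := h.1.to_subtype
  refine (Nat.card_le_card_of_injective _ (freyToModel_injective P)).trans ?_
  rw [Nat.card_coe_set_eq]
  exact h.2

/-- the hypothesis `hH` of (Kp): the integral ladder polynomial -/
theorem frey_hH (P : FreyPackage) (W : WeierstrassCurve Qb) (hW : IsModel W) (hΔ : W.Δ ≠ 0)
    (h : ∃ a₂ a₄ : ℤ, W.a₂ = a₂ ∧ W.a₄ = a₄) :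
    ∃ H : Polynomial ℤ, H.leadingCoeff = (P.p : ℤ) ∧
      ∀ (x y : Qb) (h : W.toAffine.Nonsingular x y),
        P.p • (Affine.Point.some x y h : W.toAffine.Point) = 0 → Polynomial.aeval x H = 0 := by
  obtain ⟨H, h1, _, h3⟩ := exists_int_ladderH hW P.pp (frey_p_ne_two P) h
  exact ⟨H, h1, h3⟩

end Fermat.Agent.S13
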