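import Fermat.Agent.S13.LadderExist
import Fermat.Agent.S13.FreyCard

/-!
# S13 (K0): the `p`-torsion of the Frey curve over `ℚ̄` is nonzero
-/

set_option autoImplicit false
set_option linter.unusedSectionVars false
set_option linter.unusedVariables false

namespace Fermat.Agent.S13

open WeierstrassCurve Polynomial Fermat.Agent.S05 WeierstrassCurve.Affine.Point

local notation "Qb" => AlgebraicClosure ℚ

/-- **K0, existence.** -/
theorem frey_torsion_exists_ne (P : FreyPackage) :
    ∃ x : Submodule.torsionBy ℤ (P.freyCurve⁄Qb).toAffine.Point P.p, x ≠ 0 := by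
  have hT := frey_isTransfer_zero P
  obtain ⟨R, hR0, hpR⟩ := exists_torsion_point hT.W_model hT.hΔ P.pp (frey_p_ne_two P)
  obtain ⟨Q, rfl⟩ := transfer_surjective hT R
  have hQ0 : Q ≠ 0 := by
    rintro rfl
    exact hR0 rfl
  have hpQ : P.p • Q = 0 := by
    apply transfer_injective hT
    have e : transfer hT (P.p • Q) = P.p • transfer hT Q := map_nsmul (transferHom hT) P.p Q
    rw [e, hpR]
    rfl
  refine ⟨⟨Q, ?_⟩, ?_⟩
  · rw [Submodule.mem_torsionBy_iff, natCast_zsmul]
    exact hpQ
  · intro h
    exact hQ0 (congrArg Subtype.val h)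

end Fermat.Agent.S13
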