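import Fermat.Agent.S13.K2Gal
import Fermat.Agent.S05.Arith
import Fermat.Agent.Lib.Frobenius

/-!
# S13 (K2): the Frey curve at the prime `2`

* `unip2` : inertia at `2` acts unipotently on the `p`-torsion of the Frey curve;
* `rat`   : the Frey curve has no rational point of order `p`.
-/

set_option autoImplicit false
set_option linter.unusedSectionVars false
set_option linter.unusedVariables false

namespace Fermat.Agent.S13.K2

open WeierstrassCurve WeierstrassCurve.Affine.Point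

/-! ## `2`-adic valuations of rational numbers -/

section Val2

variable {K : Type*} [Field K] [CharZero K] (A : ValuationSubring K)

lemma val_two_lt (hA : A.LiesOverPrime 2) : A.valuation (2 : K) < 1 := by
  have : A.valuation ((2 : ℕ) : K) < 1 := (A.mem_nonunits_iff).1 hA
  simpa using this

lemma val_two_ne : A.valuation (2 : K) ≠ 0 :=
  (Valuation.ne_zero_iff _).2 two_ne_zero

lemma val_odd_int (hA : A.LiesOverPrime 2) {n : ℤ} (hn : ¬ (2 : ℤ) ∣ n) :
    A.valuation (n : K) = 1 :=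
  Fermat.Agent.S05.val_intCast_eq_one A Nat.prime_two hA (by exact_mod_cast hn)

lemma val_even_int (hA : A.LiesOverPrime 2) {n : ℤ} (hn : (2 : ℤ) ∣ n) :
    A.valuation (n : K) < 1 := by
  obtain ⟨c, rfl⟩ := hn
  rw [Int.cast_mul, map_mul]
  have h2 : A.valuation ((2 : ℤ) : K) < 1 := by
    have := val_two_lt A hA
    simpa using this
  exact lt_of_le_of_lt (mul_le_of_le_one_right zero_le (Fermat.Agent.S05.val_intCast_le_one A c)) h2

lemma val_nat_pow (hA : A.LiesOverPrime 2) {N : ℕ} (hN : N ≠ 0) :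
    ∃ k : ℕ, A.valuation (N : K) = A.valuation (2 : K) ^ k := by
  obtain ⟨k, m, hm, rfl⟩ := Nat.exists_eq_two_pow_mul_odd hN
  refine ⟨k, ?_⟩
  have h1 : A.valuation (m : K) = 1 :=
    Fermat.Agent.S05.val_natCast_eq_one A Nat.prime_two hA (by
      intro h2
      exact (Nat.not_even_iff_odd.2 hm) (even_iff_two_dvd.2 h2))
  rw [Nat.cast_mul, Nat.cast_pow, map_mul, map_pow, h1, mul_one]
  simp

lemma val_int_pow (hA : A.LiesOverPrime 2) {n : ℤ} (hn : n ≠ 0) :
    ∃ k : ℕ, A.valuation (n : K) = A.valuation (2 : K) ^ k := by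
  obtain ⟨k, hk⟩ := val_nat_pow A hA (N := n.natAbs) (Int.natAbs_ne_zero.2 hn)
  refine ⟨k, ?_⟩
  rw [← hk]
  rcases Int.natAbs_eq n with h | h
  · conv_lhs => rw [h]
    simp
  · conv_lhs => rw [h]
    simp

lemma val_rat_pow (hA : A.LiesOverPrime 2) {q : ℚ} (hq : q ≠ 0) :
    ∃ m : ℤ, A.valuation (q : K) = A.valuation (2 : K) ^ m := by
  obtain ⟨k, hk⟩ := val_int_pow A hA (n := q.num) (Rat.num_ne_zero.2 hq)
  obtain ⟨l, hl⟩ := val_nat_pow A hA (N := q.den) q.den_ne_zero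
  refine ⟨(k : ℤ) - l, ?_⟩
  rw [Rat.cast_def, map_div₀, hk, hl, zpow_sub₀ (val_two_ne A), zpow_natCast, zpow_natCast]

lemma val_rat_parity (hA : A.LiesOverPrime 2) {q : ℚ} (hq : A.valuation (q : K) ≤ 1) :
    A.valuation (q : K) < 1 ∨ A.valuation ((q : K) - 1) < 1 := by
  have hden0 : (q.den : K) ≠ 0 := by exact_mod_cast q.den_ne_zero
  have hden : A.valuation ((q.den : ℤ) : K) = 1 := by
    apply val_odd_int A hA
    intro h2
    have hnum : ¬ (2 : ℤ) ∣ q.num := by
      intro h2'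
      have hcop := q.reduced
      have h3 : (2 : ℕ) ∣ q.num.natAbs := by
        have := Int.natAbs_dvd_natAbs.2 h2'
        simpa using this
      have h4 : (2 : ℕ) ∣ q.den := by exact_mod_cast h2
      have := Nat.dvd_gcd h3 h4
      rw [hcop.gcd_eq_one] at this
      omega
    have h1 := val_odd_int A hA hnum
    have h2'' := val_even_int A hA h2
    rw [Rat.cast_def, map_div₀, h1] at hq
    have hd0 : A.valuation (q.den : K) ≠ 0 := (Valuation.ne_zero_iff _).2 hden0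
    have : (1 : A.ValueGroup) ≤ A.valuation (q.den : K) := by
      have := (div_le_one₀ (zero_lt_iff.2 hd0)).1 hq
      exact this
    have h5 : A.valuation (q.den : K) < 1 := by simpa using h2''
    exact absurd this (not_le.2 h5)
  have hden' : A.valuation (q.den : K) = 1 := by simpa using hden
  by_cases hnum : (2 : ℤ) ∣ q.num
  · left
    rw [Rat.cast_def, map_div₀, hden', div_one]
    exact val_even_int A hA hnum
  · right
    have e : (q : K) - 1 = ((q.num - q.den : ℤ) : K) / (q.den : K) := by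
      rw [Rat.cast_def]
      push_cast
      field_simp
    rw [e, map_div₀, hden', div_one]
    apply val_even_int A hA
    have hd : ¬ (2 : ℤ) ∣ (q.den : ℤ) := by
      intro h2
      have := val_even_int (K := K) A hA h2
      rw [hden] at this
      exact lt_irrefl _ this
    omega

end Val2

/-! ## The Frey curve -/

section Frey

local notation "Qb" => AlgebraicClosure ℚ
local notation "GQ" => (AlgebraicClosure ℚ ≃ₐ[ℚ] AlgebraicClosure ℚ)

variable (P : FreyPackage)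

lemma frey_two_dvd_b : (2 : ℤ) ∣ P.b := (ZMod.intCast_zmod_eq_zero_iff_dvd P.b 2).1 P.hb2

lemma frey_a_mod : P.a % 4 = 3 := by
  have := P.ha4
  have h3 : ((3 : ℤ) : ZMod 4) = 3 := by norm_num
  rw [← h3] at this
  have h := (ZMod.intCast_eq_intCast_iff' P.a 3 4).1 this
  simpa using h

lemma frey_not_two_dvd_a : ¬ (2 : ℤ) ∣ P.a := by
  have := frey_a_mod P
  omega

lemma frey_four_dvd_b_pow : (4 : ℤ) ∣ P.b ^ P.p := by
  obtain ⟨c, hc⟩ := frey_two_dvd_b P
  have hp := P.hp5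
  have h1 : (2 : ℤ) ^ 2 ∣ 2 ^ P.p := pow_dvd_pow 2 (by omega)
  rw [hc, mul_pow]
  exact Dvd.dvd.mul_right (by simpa using h1) _

lemma frey_four_dvd_a_pow : (4 : ℤ) ∣ P.a ^ P.p + 1 := by
  have h : P.a ≡ -1 [ZMOD 4] := by
    have := frey_a_mod P
    unfold Int.ModEq
    omega
  have h2 := h.pow P.p
  rw [P.hp_odd.neg_one_pow] at h2
  have h3 := h2.dvd
  have : P.a ^ P.p + 1 = -(-1 - P.a ^ P.p) := by ring
  rw [this]
  exact (dvd_neg).2 h3

lemma frey_four_dvd : (4 : ℤ) ∣ P.b ^ P.p - 1 - P.a ^ P.p := by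
  have : P.b ^ P.p - 1 - P.a ^ P.p = P.b ^ P.p - (P.a ^ P.p + 1) := by ring
  rw [this]
  exact dvd_sub (frey_four_dvd_b_pow P) (frey_four_dvd_a_pow P)

lemma frey_odd_disc : ¬ (2 : ℤ) ∣ P.b ^ P.p - P.a ^ P.p := by
  intro h
  have hb : (2 : ℤ) ∣ P.b ^ P.p := dvd_pow (frey_two_dvd_b P) P.hp0
  have ha : (2 : ℤ) ∣ P.a ^ P.p := by
    have := dvd_sub hb h
    simpa using this
  exact frey_not_two_dvd_a P (Int.prime_two.dvd_of_dvd_pow ha)

lemma frey_a₁ : (P.freyCurve⁄Qb).a₁ = 1 := by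
  simp [WeierstrassCurve.baseChange, FreyPackage.freyCurve]

lemma frey_a₃ : (P.freyCurve⁄Qb).a₃ = 0 := by
  simp [WeierstrassCurve.baseChange, FreyPackage.freyCurve]

lemma frey_a₆ : (P.freyCurve⁄Qb).a₆ = 0 := by
  simp [WeierstrassCurve.baseChange, FreyPackage.freyCurve]

lemma frey_a₂ : (P.freyCurve⁄Qb).a₂ = ((P.b ^ P.p - 1 - P.a ^ P.p : ℤ) : Qb) / 4 := by
  simp only [WeierstrassCurve.baseChange, WeierstrassCurve.map_a₂, FreyPackage.freyCurve]
  simp only [map_div₀, map_sub, map_pow, map_intCast, map_one, map_ofNat]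
  push_cast
  ring

lemma frey_a₄ : (P.freyCurve⁄Qb).a₄ = -(((P.a ^ P.p * P.b ^ P.p : ℤ)) : Qb) / 16 := by
  simp only [WeierstrassCurve.baseChange, WeierstrassCurve.map_a₄, FreyPackage.freyCurve]
  simp only [map_div₀, map_mul, map_neg, map_pow, map_intCast, map_ofNat]
  push_cast
  ring

/-- `a₂` is the image of an integer -/
lemma frey_a₂_int : ∃ c : ℤ, (P.freyCurve⁄Qb).a₂ = (c : Qb) := by
  obtain ⟨c, hc⟩ := frey_four_dvd P
  refine ⟨c, ?_⟩
  rw [frey_a₂, hc]
  push_cast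
  field_simp

/-- `1 + 4 a₂ = b ^ p - a ^ p` -/
lemma frey_disc : 1 + 4 * (P.freyCurve⁄Qb).a₂ = ((P.b ^ P.p - P.a ^ P.p : ℤ) : Qb) := by
  rw [frey_a₂]
  push_cast
  field_simp
  ring

/-- the two slopes at the node of the reduction at `2` -/
structure FreySlopes (s₁ s₂ : Qb) : Prop where
  sum : s₁ + s₂ = -1
  prod : s₁ * s₂ = -(P.freyCurve⁄Qb).a₂

lemma exists_freySlopes : ∃ s₁ s₂ : Qb, FreySlopes P s₁ s₂ := by
  obtain ⟨d, hd⟩ := IsAlgClosed.exists_pow_nat_eq (1 + 4 * (P.freyCurve⁄Qb).a₂)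
    (show 0 < 2 by norm_num)
  refine ⟨(d - 1) / 2, (-d - 1) / 2, by ring, ?_⟩
  have : (d - 1) / 2 * ((-d - 1) / 2) = -(d ^ 2 - 1) / 4 := by ring
  rw [this, hd]
  ring

variable {P} {s₁ s₂ : Qb}

lemma FreySlopes.symm (hS : FreySlopes P s₁ s₂) : FreySlopes P s₂ s₁ :=
  ⟨by rw [add_comm]; exact hS.sum, by rw [mul_comm]; exact hS.prod⟩

lemma FreySlopes.root (hS : FreySlopes P s₁ s₂) : s₁ ^ 2 + s₁ = (P.freyCurve⁄Qb).a₂ := by
  have h1 : s₂ = -1 - s₁ := by linear_combination hS.sum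
  have h2 := hS.prod
  rw [h1] at h2
  linear_combination -h2

lemma FreySlopes.delta_sq (hS : FreySlopes P s₁ s₂) :
    (s₁ - s₂) ^ 2 = ((P.b ^ P.p - P.a ^ P.p : ℤ) : Qb) := by
  rw [← frey_disc]
  have h1 : s₂ = -1 - s₁ := by linear_combination hS.sum
  have h2 := hS.prod
  rw [h1] at h2 ⊢
  linear_combination (-4) * h2

variable (A : ValuationSubring Qb)

lemma FreySlopes.mem (hS : FreySlopes P s₁ s₂) : s₁ ∈ A := by
  rw [← A.valuation_le_one_iff]
  by_contra hlt
  rw [not_le] at hlt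
  obtain ⟨c, hc⟩ := frey_a₂_int P
  have h1 : A.valuation (s₁ ^ 2 + s₁) ≤ 1 := by
    rw [hS.root, hc]
    exact Fermat.Agent.S05.val_intCast_le_one A c
  have h2 : A.valuation s₁ < A.valuation (s₁ ^ 2) := by
    rw [map_pow, sq]
    calc A.valuation s₁ = 1 * A.valuation s₁ := (one_mul _).symm
      _ < A.valuation s₁ * A.valuation s₁ :=
        mul_lt_mul_of_pos_right hlt (lt_trans zero_lt_one hlt)
  rw [Valuation.map_add_eq_of_lt_left _ h2] at h1
  exact absurd (lt_trans hlt h2) (not_lt.2 h1)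

lemma FreySlopes.v_delta (hS : FreySlopes P s₁ s₂) (hA : A.LiesOverPrime 2) :
    A.valuation (s₁ - s₂) = 1 := by
  have h := congrArg A.valuation hS.delta_sq
  rw [map_pow, val_odd_int A hA (frey_odd_disc P)] at h
  exact (pow_eq_one_iff_of_nonneg zero_le (by norm_num)).1 h

variable (P) in
/-- `v a₄ = v 2 ^ n` with `n + 4 = k p`, `n > 0` -/
lemma frey_val_a₄ (hA : A.LiesOverPrime 2) :
    ∃ k n : ℕ, k * P.p = n + 4 ∧ 0 < n ∧
      A.valuation (P.freyCurve⁄Qb).a₄ = A.valuation (2 : Qb) ^ n := by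
  obtain ⟨k, hk⟩ := val_int_pow (K := Qb) A hA P.hb0
  have hk1 : 1 ≤ k := by
    by_contra h0
    have : k = 0 := by omega
    rw [this, pow_zero] at hk
    have := val_even_int (K := Qb) A hA (frey_two_dvd_b P)
    rw [hk] at this
    exact lt_irrefl _ this
  have hp := P.hp5
  have hkp : 5 ≤ k * P.p := by nlinarith
  refine ⟨k, k * P.p - 4, by omega, by omega, ?_⟩
  have h2 := val_two_ne (K := Qb) A
  have ha : A.valuation ((P.a : ℤ) : Qb) = 1 := val_odd_int A hA (frey_not_two_dvd_a P)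
  have e : (P.freyCurve⁄Qb).a₄ * 2 ^ 4 = -(((P.a : ℤ) : Qb) ^ P.p * ((P.b : ℤ) : Qb) ^ P.p) := by
    rw [frey_a₄]
    push_cast
    field_simp
    ring
  have h := congrArg A.valuation e
  rw [map_mul, map_pow, Valuation.map_neg, map_mul, map_pow, map_pow, ha, one_pow, one_mul, hk,
    ← pow_mul] at h
  have h4 : A.valuation (2 : Qb) ^ (k * P.p) =
      A.valuation (2 : Qb) ^ (k * P.p - 4) * A.valuation (2 : Qb) ^ 4 := by
    rw [← pow_add]; congr 1; omega
  rw [h4] at h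
  exact mul_right_cancel₀ (pow_ne_zero 4 h2) h

lemma FreySlopes.twoHyp (hS : FreySlopes P s₁ s₂) (hA : A.LiesOverPrime 2) :
    TwoHyp A (P.freyCurve⁄Qb) s₁ s₂ := by
  obtain ⟨k, n, hkn, hn, hv⟩ := frey_val_a₄ P A hA
  have h2 := val_two_ne (K := Qb) A
  refine ⟨⟨by rw [frey_a₁, hS.sum]; ring, by rw [hS.prod]; ring, frey_a₃ P, frey_a₆ P⟩,
    hS.v_delta A hA, ?_, ?_⟩
  · rw [← Valuation.ne_zero_iff A.valuation, hv]
    exact pow_ne_zero n h2
  · rw [hv]
    exact pow_lt_one₀ zero_le (val_two_lt A hA) (by omega)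

lemma FreySlopes.fix (hS : FreySlopes P s₁ s₂) (hA : A.LiesOverPrime 2) {σ : GQ}
    (hσ : σ ∈ A.inertiaSubgroupIn ℚ) : σ s₁ = s₁ := by
  obtain ⟨c, hc⟩ := frey_a₂_int P
  have hroot := hS.root
  have h1 : (σ s₁) ^ 2 + σ s₁ = (P.freyCurve⁄Qb).a₂ := by
    have := congrArg σ hroot
    rw [map_add, map_pow, hc, map_intCast] at this
    rw [this, hc]
  have h2 : (σ s₁ - s₁) * (σ s₁ - s₂) = 0 := by
    have hs := hS.sum
    have hp := hS.prod
    linear_combination h1 - (σ s₁) * hs + hp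
  rcases mul_eq_zero.1 h2 with h | h
  · exact sub_eq_zero.1 h
  · exfalso
    have h3 := Fermat.Agent.S05.inertia_sub_mem_nonunits A hσ (hS.mem A)
    rw [sub_eq_zero.1 h] at h3
    have h4 := (A.mem_nonunits_iff).1 h3
    rw [← Valuation.map_neg, neg_sub, hS.v_delta A hA] at h4
    exact lt_irrefl _ h4

lemma frey_val_p (hA : A.LiesOverPrime 2) : A.valuation ((P.p : ℕ) : Qb) = 1 := by
  apply Fermat.Agent.S05.val_natCast_eq_one A Nat.prime_two hA
  intro h2
  have := P.hp_odd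
  exact (Nat.not_even_iff_odd.2 this) (even_iff_two_dvd.2 h2)

variable (P) in
/-- **K2 (unip2)**: inertia at `2` acts unipotently on the `p`-torsion of the Frey curve. -/
theorem unip2 (A : ValuationSubring Qb) (hA : A.LiesOverPrime 2) (σ : GQ)
    (hσ : σ ∈ A.inertiaSubgroupIn ℚ)
    (x : Submodule.torsionBy ℤ (P.freyCurve⁄Qb).toAffine.Point P.p) :
    σ • (σ • x - x) = σ • x - x := by
  obtain ⟨s₁, s₂, hS⟩ := exists_freySlopes P
  have hx : (P.p : ℤ) • x.1 = 0 := by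
    have := x.2
    rwa [Submodule.mem_torsionBy_iff] at this
  have hxn : P.p • x.1 = 0 := by
    rwa [natCast_zsmul] at hx
  have halg : Algebra.IsAlgebraic ℚ Qb := AlgebraicClosure.isAlgebraic ℚ
  apply Subtype.ext
  exact inertia_unipotent (S := ℚ) (W₀ := P.freyCurve) A hσ (hS.twoHyp A hA) (hS.fix A hA hσ)
    (hS.symm.fix A hA hσ) P.p (frey_val_p A hA) hxn

end Frey

end Fermat.Agent.S13.K2
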