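import Fermat.Agent.S13.K2Frey

/-!
# S13 (K2-rat): the Frey curve has no rational point of order `p`

Reduction at `2`: a rational `p`-torsion point lies on the identity component (component
group of order prime to `p`), injects into the nonsingular part of the reduction (the kernel of
reduction has no `p`-torsion), and the reduction has at most two affine nonsingular
`𝔽₂`-points.
-/

set_option autoImplicit false
set_option linter.unusedSectionVars false
set_option linter.unusedVariables false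

namespace Fermat.Agent.S13.K2

open WeierstrassCurve WeierstrassCurve.Affine.Point

section General

variable {K : Type*} [Field K] [DecidableEq K] {W : WeierstrassCurve K} {s₁ s₂ : K}
  {A : ValuationSubring K}

open Fermat.Agent.S05 in
/-- congruent integral points with unit abscissa differ by an element of the kernel of
reduction -/
theorem TwoHyp.sub_inE1_of_congr (h : TwoHyp A W s₁ s₂) (hs₁ : s₁ ∈ A) (hs₂ : s₂ ∈ A)
    {x y x' y' : K} (hxy : W.toAffine.Nonsingular x y) (hxy' : W.toAffine.Nonsingular x' y')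
    (hx : A.valuation x = 1) (hx' : A.valuation x' = 1)
    (hxx : A.valuation (x - x') < 1) (hyy : A.valuation (y - y') < 1) :
    InE1 A (Affine.Point.some x y hxy - Affine.Point.some x' y' hxy') := by
  have hF : Far A (Affine.Point.some x y hxy) := hx.ge
  have hF' : Far A (Affine.Point.some x' y' hxy') := hx'.ge
  refine h.sub_inE1 hF hF' ?_
  rw [wOf_some, wOf_some]
  have p := h.model.pt hxy.1
  have p' := h.model.pt hxy'.1
  obtain ⟨e, hsq⟩ := p.far h.hyp hx.ge
  obtain ⟨e', hsq'⟩ := p'.far h.hyp hx'.ge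
  rw [hx, one_pow] at hsq
  rw [hx', one_pow] at hsq'
  have hu₁ : A.valuation (y - s₁ * x) = 1 := (pow_eq_one_iff_of_nonneg zero_le (by norm_num)).1 hsq
  have hu₁' : A.valuation (y' - s₁ * x') = 1 :=
    (pow_eq_one_iff_of_nonneg zero_le (by norm_num)).1 hsq'
  have hu₂ : A.valuation (y - s₂ * x) = 1 := e ▸ hu₁
  have hu₂' : A.valuation (y' - s₂ * x') = 1 := e' ▸ hu₁'
  have n₂ : y - s₂ * x ≠ 0 := (Valuation.ne_zero_iff _).1 (by rw [hu₂]; exact one_ne_zero)
  have n₂' : y' - s₂ * x' ≠ 0 := (Valuation.ne_zero_iff _).1 (by rw [hu₂']; exact one_ne_zero)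
  have hv₁ : A.valuation s₁ ≤ 1 := (A.valuation_le_one_iff _).2 hs₁
  have hv₂ : A.valuation s₂ ≤ 1 := (A.valuation_le_one_iff _).2 hs₂
  have d₁ : A.valuation ((y - s₁ * x) - (y' - s₁ * x')) < 1 := by
    have : (y - s₁ * x) - (y' - s₁ * x') = (y - y') - s₁ * (x - x') := by ring
    rw [this]
    refine Fermat.Agent.S05.Vieta.v_sub_lt _ hyy ?_
    rw [map_mul]
    exact lt_of_le_of_lt (mul_le_of_le_one_left zero_le hv₁) hxx
  have d₂ : A.valuation ((y - s₂ * x) - (y' - s₂ * x')) < 1 := by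
    have : (y - s₂ * x) - (y' - s₂ * x') = (y - y') - s₂ * (x - x') := by ring
    rw [this]
    refine Fermat.Agent.S05.Vieta.v_sub_lt _ hyy ?_
    rw [map_mul]
    exact lt_of_le_of_lt (mul_le_of_le_one_left zero_le hv₂) hxx
  have eq : (y - s₁ * x) / (y - s₂ * x) - (y' - s₁ * x') / (y' - s₂ * x') =
      (((y - s₁ * x) - (y' - s₁ * x')) * (y' - s₂ * x') -
        (y' - s₁ * x') * ((y - s₂ * x) - (y' - s₂ * x'))) /
        ((y - s₂ * x) * (y' - s₂ * x')) := by
    rw [div_sub_div _ _ n₂ n₂']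
    congr 1
    ring
  rw [eq, map_div₀, map_mul, hu₂, hu₂', mul_one, div_one]
  refine Fermat.Agent.S05.Vieta.v_sub_lt _ ?_ ?_
  · rw [map_mul, hu₂', mul_one]; exact d₁
  · rw [map_mul, hu₁', one_mul]; exact d₂

lemma pigeon_prop (a b c : Prop) : (a ↔ b) ∨ (a ↔ c) ∨ (b ↔ c) := by
  tauto

/-- a point killed by two coprime integers is zero -/
lemma eq_zero_of_nsmul_of_lt {G : Type*} [AddGroup G] {R : G} {p i : ℕ} (hp : p.Prime)
    (hi : 0 < i) (hip : i < p) (h₁ : i • R = 0) (h₂ : p • R = 0) : R = 0 := by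
  have d₁ := addOrderOf_dvd_of_nsmul_eq_zero h₁
  have d₂ := addOrderOf_dvd_of_nsmul_eq_zero h₂
  rcases (Nat.dvd_prime hp).1 d₂ with h | h
  · exact AddMonoid.addOrderOf_eq_one_iff.1 h
  · rw [h] at d₁
    have := Nat.le_of_dvd hi d₁
    omega

end General

section Frey

local notation "Qb" => AlgebraicClosure ℚ
local notation "GQ" => (AlgebraicClosure ℚ ≃ₐ[ℚ] AlgebraicClosure ℚ)

theorem algebra_rat_Qb_eq :
    (DivisionRing.toRatAlgebra : Algebra ℚ Qb) = AlgebraicClosure.instAlgebra ℚ :=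
  Subsingleton.elim _ _

theorem isGalois_Qb : IsGalois ℚ Qb := by
  rw [algebra_rat_Qb_eq]; infer_instance

theorem isAlgebraic_Qb : Algebra.IsAlgebraic ℚ Qb := AlgebraicClosure.isAlgebraic ℚ

variable {P : FreyPackage} {s₁ s₂ : Qb} (A : ValuationSubring Qb)

/-- rational points: those fixed by the whole Galois group -/
def IsRatPt (R : (P.freyCurve⁄Qb).toAffine.Point) : Prop := ∀ σ : GQ, σ • R = R

lemma IsRatPt.nsmul {R : (P.freyCurve⁄Qb).toAffine.Point} (hR : IsRatPt R) (n : ℕ) :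
    IsRatPt (n • R) := by
  intro σ
  have := isAlgebraic_Qb
  rw [smul_nsmul_point (S := ℚ) (W₀ := P.freyCurve), hR σ]

lemma IsRatPt.coords {x y : Qb} {h : (P.freyCurve⁄Qb).toAffine.Nonsingular x y}
    (hR : IsRatPt (Affine.Point.some x y h)) : ∃ qx qy : ℚ, x = (qx : Qb) ∧ y = (qy : Qb) := by
  have hfix : ∀ σ : GQ, σ x = x ∧ σ y = y := by
    intro σ
    have := hR σ
    obtain ⟨h', e⟩ := Fermat.Agent.S05.algEquiv_smul_some (S := ℚ) (E₀ := P.freyCurve) σ h
    rw [e] at this
    simpa using this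
  have := isGalois_Qb
  obtain ⟨qx, hqx⟩ := (InfiniteGalois.mem_range_algebraMap_iff_fixed (k := ℚ) (K := Qb) x).2
    fun σ => (hfix σ).1
  obtain ⟨qy, hqy⟩ := (InfiniteGalois.mem_range_algebraMap_iff_fixed (k := ℚ) (K := Qb) y).2
    fun σ => (hfix σ).2
  exact ⟨qx, qy, by rw [← hqx, eq_ratCast], by rw [← hqy, eq_ratCast]⟩

/-- the component of a rational point is a power of `v 2` -/
lemma comp2_rat (hA : A.LiesOverPrime 2) {R : (P.freyCurve⁄Qb).toAffine.Point}
    (hR : IsRatPt R) :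
    ∃ M : ℤ, comp2 A (P.freyCurve⁄Qb) s₂ R = A.valuation (2 : Qb) ^ M := by
  rcases R with _ | ⟨x, y, h⟩
  · exact ⟨0, by rw [zpow_zero]; rfl⟩
  obtain ⟨qx, qy, rfl, rfl⟩ := hR.coords
  obtain ⟨k, n, hkn, hn, hv⟩ := frey_val_a₄ P A hA
  rw [comp2_some]
  unfold cmp2
  split_ifs with h1 h2 h3
  · exact ⟨0, by rw [zpow_zero]⟩
  · exact ⟨n, by rw [hv, zpow_natCast]⟩
  · have hq : qx ≠ 0 := by
      rintro rfl
      apply h2
      rw [Rat.cast_zero, Valuation.map_zero]
      exact zero_le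
    exact val_rat_pow A hA hq
  · have hq : qx ≠ 0 := by
      rintro rfl
      apply h2
      rw [Rat.cast_zero, Valuation.map_zero]
      exact zero_le
    obtain ⟨m, hm⟩ := val_rat_pow (K := Qb) A hA hq
    exact ⟨-m, by rw [hm, zpow_neg]⟩

/-- a rational `p`-torsion point has nonsingular reduction at `2` -/
lemma far_of_rat_torsion (hA : A.LiesOverPrime 2) (hS : FreySlopes P s₁ s₂)
    {R : (P.freyCurve⁄Qb).toAffine.Point} (hR : IsRatPt R) (hp : P.p • R = 0) : Far A R := by
  have H := hS.twoHyp A hA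
  obtain ⟨M, hM⟩ := comp2_rat (s₂ := s₂) A hA hR
  obtain ⟨j, hj⟩ := H.torsion hp
  obtain ⟨k, n, hkn, hn, hv⟩ := frey_val_a₄ P A hA
  have h2 := val_two_ne (K := Qb) A
  have h2lt := val_two_lt (K := Qb) A hA
  rw [hM, hv, ← zpow_natCast, ← zpow_natCast, ← zpow_mul, ← zpow_mul] at hj
  have hinj := zpow_right_injective₀ (zero_lt_iff.2 h2) (ne_of_lt h2lt) hj
  -- `M * p = n * (2 * j)` and `k * p = n + 4`
  have hkn' : (k : ℤ) * (P.p : ℤ) = (n : ℤ) + 4 := by exact_mod_cast hkn
  have hpZ : Prime (P.p : ℤ) := Nat.prime_iff_prime_int.1 P.pp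
  have hdvd : (P.p : ℤ) ∣ 8 * j := by
    refine ⟨2 * k * j - M, ?_⟩
    have : (n : ℤ) = k * P.p - 4 := by linarith
    rw [this] at hinj
    linear_combination hinj
  have hp8 : ¬ (P.p : ℤ) ∣ 8 := by
    intro h8
    have h8' : P.p ∣ 8 := by exact_mod_cast h8
    have h2' : P.p ∣ 2 := by
      have : (8 : ℕ) = 2 ^ 3 := by norm_num
      rw [this] at h8'
      exact P.pp.dvd_of_dvd_pow h8'
    have := Nat.le_of_dvd (by norm_num) h2'
    have := P.hp5
    omega
  obtain ⟨i, hi⟩ := (hpZ.dvd_or_dvd hdvd).resolve_left hp8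
  have hp0 : (P.p : ℤ) ≠ 0 := by exact_mod_cast P.hp0
  have hM2 : M = n * (2 * i) := by
    have : M * (P.p : ℤ) = (n * (2 * i)) * P.p := by
      rw [hinj, hi]; ring
    exact mul_right_cancel₀ hp0 this
  refine H.far_of_comp2_eq (j := i) ?_
  rw [hM, hv, hM2, ← zpow_natCast, ← zpow_mul]

open Fermat.Agent.S05 in
/-- the shape of a nonzero rational `p`-torsion point -/
lemma rat_info (hA : A.LiesOverPrime 2) (hS : FreySlopes P s₁ s₂)
    {R : (P.freyCurve⁄Qb).toAffine.Point} (hR : IsRatPt R) (hp : P.p • R = 0) (h0 : R ≠ 0) :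
    ∃ (x y : Qb) (hxy : (P.freyCurve⁄Qb).toAffine.Nonsingular x y),
      R = Affine.Point.some x y hxy ∧ A.valuation x = 1 ∧ A.valuation (x - 1) < 1 ∧
        (A.valuation y < 1 ∨ A.valuation (y - 1) < 1) := by
  have H := hS.twoHyp A hA
  have hF := far_of_rat_torsion A hA hS hR hp
  rcases R with _ | ⟨x, y, h⟩
  · exact absurd rfl h0
  have hx1 : 1 ≤ A.valuation x := hF
  have hxA : x ∈ A := by
    by_contra hx
    exact h0 (H.e1_torsion_free P.p (frey_val_p A hA) (P := Affine.Point.some x y h) hx hp)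
  have hx : A.valuation x = 1 := le_antisymm ((A.valuation_le_one_iff x).2 hxA) hx1
  obtain ⟨qx, qy, rfl, rfl⟩ := hR.coords
  refine ⟨_, _, h, rfl, hx, ?_, ?_⟩
  · rcases val_rat_parity (K := Qb) A hA hx.le with h1 | h1
    · rw [hx] at h1; exact absurd h1 (lt_irrefl _)
    · exact h1
  · apply val_rat_parity (K := Qb) A hA
    have p := H.model.pt h.1
    obtain ⟨e, hsq⟩ := p.far H.hyp hx1
    rw [hx, one_pow] at hsq
    have hu₁ : A.valuation ((qy : Qb) - s₁ * (qx : Qb)) = 1 :=
      (pow_eq_one_iff_of_nonneg zero_le (by norm_num)).1 hsq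
    have : (qy : Qb) = ((qy : Qb) - s₁ * (qx : Qb)) + s₁ * (qx : Qb) := by ring
    rw [this]
    refine Fermat.Agent.S05.Vieta.v_add_le _ hu₁.le ?_
    rw [map_mul, hx, mul_one]
    exact (A.valuation_le_one_iff _).2 (hS.mem A)

open Fermat.Agent.S05 in
/-- **K2-rat, point form**: a rational `p`-torsion point of the Frey curve is zero -/
theorem rat_point {R : (P.freyCurve⁄Qb).toAffine.Point} (hR : IsRatPt R) (hp : P.p • R = 0) :
    R = 0 := by
  by_contra h0
  obtain ⟨A, hA⟩ := Fermat.Agent.Lib.Frobenius.exists_liesOverPrime Nat.prime_two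
  obtain ⟨s₁, s₂, hS⟩ := exists_freySlopes P
  have H := hS.twoHyp A hA
  have hp5 := P.hp5
  -- the parity class of a point
  let par : (P.freyCurve⁄Qb).toAffine.Point → Prop := fun Q =>
    ∃ (x y : Qb) (hxy : (P.freyCurve⁄Qb).toAffine.Nonsingular x y),
      Q = Affine.Point.some x y hxy ∧ A.valuation y < 1
  have hne : ∀ i : ℕ, 0 < i → i < P.p → i • R ≠ 0 := fun i hi hip h =>
    h0 (eq_zero_of_nsmul_of_lt P.pp hi hip h hp)
  have htor : ∀ i : ℕ, P.p • (i • R) = 0 := fun i => by
    rw [← mul_nsmul, mul_comm, mul_nsmul, hp, nsmul_zero]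
  have key : ∀ i j : ℕ, 0 < i → i < j → j < P.p → (par (i • R) ↔ par (j • R)) → False := by
    intro i j hi hij hjp hpar
    obtain ⟨x, y, hxy, e, hx, hx1, hy⟩ :=
      rat_info A hA hS (hR.nsmul i) (htor i) (hne i hi (by omega))
    obtain ⟨x', y', hxy', e', hx', hx1', hy'⟩ :=
      rat_info A hA hS (hR.nsmul j) (htor j) (hne j (by omega) hjp)
    have hxx : A.valuation (x - x') < 1 := by
      have : x - x' = (x - 1) - (x' - 1) := by ring
      rw [this]
      exact Fermat.Agent.S05.Vieta.v_sub_lt _ hx1 hx1'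
    have hyy : A.valuation (y - y') < 1 := by
      by_cases hc : A.valuation y < 1
      · have hc' : A.valuation y' < 1 := by
          obtain ⟨x₂, y₂, hxy₂, e₂, hy₂⟩ := hpar.1 ⟨x, y, hxy, e, hc⟩
          rw [e'] at e₂
          simp only [Affine.Point.some.injEq] at e₂
          rw [e₂.2]; exact hy₂
        exact Fermat.Agent.S05.Vieta.v_sub_lt _ hc hc'
      · have hc' : ¬ A.valuation y' < 1 := by
          intro hc'
          obtain ⟨x₂, y₂, hxy₂, e₂, hy₂⟩ := hpar.2 ⟨x', y', hxy', e', hc'⟩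
          rw [e] at e₂
          simp only [Affine.Point.some.injEq] at e₂
          apply hc
          rw [e₂.2]; exact hy₂
        have h1 := hy.resolve_left hc
        have h1' := hy'.resolve_left hc'
        have : y - y' = (y - 1) - (y' - 1) := by ring
        rw [this]
        exact Fermat.Agent.S05.Vieta.v_sub_lt _ h1 h1'
    have hE := H.sub_inE1_of_congr (hS.mem A) (hS.symm.mem A) hxy' hxy hx' hx
      (by rw [← Valuation.map_neg, neg_sub]; exact hxx)
      (by rw [← Valuation.map_neg, neg_sub]; exact hyy)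
    rw [← e, ← e', sub_eq_add_neg, ← sub_nsmul R hij.le] at hE
    have h3 : P.p • ((j - i) • R) = 0 := htor (j - i)
    have h4 := H.e1_torsion_free P.p (frey_val_p A hA) hE h3
    exact hne (j - i) (by omega) (by omega) h4
  have hpig : (par (1 • R) ↔ par (2 • R)) ∨ (par (1 • R) ↔ par (3 • R)) ∨
      (par (2 • R) ↔ par (3 • R)) := pigeon_prop _ _ _
  rcases hpig with h | h | h
  · exact key 1 2 (by norm_num) (by norm_num) (by omega) h
  · exact key 1 3 (by norm_num) (by norm_num) (by omega) h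
  · exact key 2 3 (by norm_num) (by norm_num) (by omega) h

/-- **K2-rat**: the Frey curve has no rational point of order `p`. -/
theorem rat (P : FreyPackage) (x : Submodule.torsionBy ℤ (P.freyCurve⁄Qb).toAffine.Point P.p)
    (hx : ∀ σ : GQ, σ • x = x) : x = 0 := by
  have hxp : (P.p : ℤ) • x.1 = 0 := by
    have := x.2
    rwa [Submodule.mem_torsionBy_iff] at this
  have hxn : P.p • x.1 = 0 := by
    rwa [natCast_zsmul] at hxp
  have hR : IsRatPt x.1 := fun σ => congrArg Subtype.val (hx σ)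
  exact Subtype.ext (rat_point hR hxn)

end Frey

end Fermat.Agent.S13.K2
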