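import Fermat.Agent.S13.KpNorm
import Fermat.Agent.S13.KpInertia
import Fermat.Agent.S05.Congr
import Fermat.Agent.S05.CompAdd

/-!
# S13 (Kp): at `p`, inertia acts trivially on a stable line or on the quotient

For a valuation ring `A` of `ℚ̄` over `p` and a Galois-stable line `N` in the `p`-torsion `V` of
the Frey curve, the inertia group of `A` acts trivially on `N` or on `V / N`.
-/

set_option autoImplicit false
set_option linter.unusedSectionVars false

namespace Fermat.Agent.S13.Kp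

open WeierstrassCurve WeierstrassCurve.Affine.Point Fermat.Agent.S05

local notation "Qb" => AlgebraicClosure ℚ
local notation "GQ" => (AlgebraicClosure ℚ ≃ₐ[ℚ] AlgebraicClosure ℚ)

section Abstract

variable {p : ℕ} [Fact p.Prime] {V : Type*} [AddCommGroup V] [Module (ZMod p) V]

/-- A proper subspace containing a line of a space with at most `p²` elements is that line. -/
lemma le_of_le_of_ne_top [Finite V] (hcard : Nat.card V ≤ p ^ 2)
    (N : Submodule (ZMod p) V) (h0 : N ≠ ⊥) (h1 : N ≠ ⊤) (V0 : Submodule (ZMod p) V)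
    (hNV : N ≤ V0) (hV0 : V0 ≠ ⊤) : V0 ≤ N := by
  obtain ⟨x₀, hx₀N, y, hy, hx₀, hspan⟩ := exists_basis_of_card_le hcard N h0 h1
  intro x hx
  obtain ⟨a, b, e⟩ := hspan x
  have hb : b = 0 := by
    by_contra hb
    apply hV0
    have hyV : y ∈ V0 := by
      have h3 : b • y = x - a • x₀ := by rw [e]; abel
      have h4 : y = b⁻¹ • (b • y) := by rw [smul_smul, inv_mul_cancel₀ hb, one_smul]
      rw [h4, h3]
      exact V0.smul_mem _ (V0.sub_mem hx (V0.smul_mem _ (hNV hx₀N)))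
    rw [eq_top_iff]
    intro z _
    obtain ⟨a', b', e'⟩ := hspan z
    rw [e']
    exact V0.add_mem (V0.smul_mem _ (hNV hx₀N)) (V0.smul_mem _ hyV)
  rw [e, hb, zero_smul, add_zero]
  exact N.smul_mem _ hx₀N

/-- A line not contained in a subspace meets it trivially. -/
lemma eq_zero_of_mem_of_not_le [Finite V] (hcard : Nat.card V ≤ p ^ 2)
    (N : Submodule (ZMod p) V) (h0 : N ≠ ⊥) (h1 : N ≠ ⊤) (V0 : Submodule (ZMod p) V)
    (hNV : ¬ N ≤ V0) {x : V} (hxN : x ∈ N) (hxV : x ∈ V0) : x = 0 := by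
  obtain ⟨x₀, hx₀N, y, hy, hx₀, hspan⟩ := exists_basis_of_card_le hcard N h0 h1
  have hline : ∀ x ∈ N, ∃ a : ZMod p, x = a • x₀ := by
    intro x hx
    obtain ⟨a, b, e⟩ := hspan x
    have hb : b = 0 := by
      by_contra hb
      apply hy
      have h3 : b • y = x - a • x₀ := by rw [e]; abel
      have h4 : y = b⁻¹ • (b • y) := by rw [smul_smul, inv_mul_cancel₀ hb, one_smul]
      rw [h4, h3]
      exact N.smul_mem _ (N.sub_mem hx (N.smul_mem _ hx₀N))
    exact ⟨a, by rw [e, hb, zero_smul, add_zero]⟩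
  obtain ⟨a, ha⟩ := hline x hxN
  by_contra hx0
  apply hNV
  have ha0 : a ≠ 0 := by
    rintro rfl
    rw [zero_smul] at ha
    exact hx0 ha
  have hx₀V : x₀ ∈ V0 := by
    have : x₀ = a⁻¹ • x := by rw [ha, smul_smul, inv_mul_cancel₀ ha0, one_smul]
    rw [this]
    exact V0.smul_mem _ hxV
  intro z hz
  obtain ⟨c, hc⟩ := hline z hz
  rw [hc]
  exact V0.smul_mem _ hx₀V

end Abstract

section Frey

variable {P : FreyPackage} {r : ℤ}
  (hT : IsTransfer (P.freyCurve⁄Qb) ((freyModel P r)⁄Qb) (algebraMap ℚ Qb (r : ℚ)))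
  (A : ValuationSubring Qb)

lemma freyModel_a₂_mem : ((freyModel P r)⁄Qb).a₂ ∈ A := by
  have : ((freyModel P r)⁄Qb).a₂ = ((3 * r + (P.b ^ P.p - P.a ^ P.p) : ℤ) : Qb) := by
    simp [WeierstrassCurve.baseChange, freyModel]
  rw [this]; exact intCast_mem A _

lemma freyModel_a₄_mem : ((freyModel P r)⁄Qb).a₄ ∈ A := by
  have : ((freyModel P r)⁄Qb).a₄ =
      ((3 * r ^ 2 + 2 * r * (P.b ^ P.p - P.a ^ P.p) - P.a ^ P.p * P.b ^ P.p : ℤ) : Qb) := by
    simp [WeierstrassCurve.baseChange, freyModel]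
  rw [this]; exact intCast_mem A _

/-- The part of the `p`-torsion in the kernel of reduction. -/
noncomputable def torV0 : Submodule (ZMod P.p) (TorV P) where
  carrier := {x | InE1 A (transfer hT x.1)}
  zero_mem' := by
    change InE1 A (transfer hT 0)
    exact InE1_zero A
  add_mem' := fun {x y} hx hy => by
    change InE1 A (transfer hT (x.1 + y.1))
    rw [transfer_add]
    exact InE1_add A hT.W_model (freyModel_a₂_mem A) (freyModel_a₄_mem A) hx hy
  smul_mem' := fun c x hx => by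
    have : NeZero P.p := ⟨P.pp.ne_zero⟩
    obtain ⟨n, rfl⟩ : ∃ n : ℕ, (n : ZMod P.p) = c := ⟨c.val, ZMod.natCast_zmod_val c⟩
    rw [Nat.cast_smul_eq_nsmul]
    change InE1 A (transfer hT (n • x.1))
    rw [transfer_nsmul]
    exact InE1_nsmul A hT.W_model (freyModel_a₂_mem A) (freyModel_a₄_mem A) hx n

lemma mem_torV0 {x : TorV P} : x ∈ torV0 hT A ↔ InE1 A (transfer hT x.1) := Iff.rfl

/-- The dichotomy, given steps (i) and (ii). -/
theorem atp_of_sub_InE1 (hA : A.LiesOverPrime P.p)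
    (hii : ∀ σ ∈ A.inertiaSubgroupIn ℚ, ∀ x : TorV P, InE1 A (transfer hT (σ • x - x).1))
    (N : Submodule (ZMod P.p) (TorV P)) (hN : IsGaloisStable ℚ N) (hbot : N ≠ ⊥)
    (htop : N ≠ ⊤) :
    (∀ σ ∈ A.inertiaSubgroupIn ℚ, ∀ x ∈ N, σ • x = x) ∨
    (∀ σ ∈ A.inertiaSubgroupIn ℚ, ∀ x : TorV P, σ • x - x ∈ N) := by
  have : Fact P.p.Prime := ⟨P.pp⟩
  have hfin : Finite (TorV P) := frey_torsion_finite P
  have hcard : Nat.card (TorV P) ≤ P.p ^ 2 := frey_torsion_card_le P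
  have hV0 : torV0 hT A ≠ ⊤ := by
    obtain ⟨x, hx⟩ := exists_not_InE1 hT A hA N hN hbot htop
    intro h
    apply hx
    have : x ∈ torV0 hT A := by rw [h]; exact Submodule.mem_top
    exact this
  by_cases hNV : N ≤ torV0 hT A
  · right
    intro σ hσ x
    exact le_of_le_of_ne_top hcard N hbot htop _ hNV hV0 (hii σ hσ x)
  · left
    intro σ hσ x hx
    have h1 : σ • x - x ∈ N := N.sub_mem (hN σ x hx) hx
    have h2 : σ • x - x ∈ torV0 hT A := hii σ hσ x
    exact sub_eq_zero.1 (eq_zero_of_mem_of_not_le hcard N hbot htop _ hNV h1 h2)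

/-- The dichotomy for a model with `a₄ = ε ρ^p` and unit discriminant factor. -/
theorem atp_core (hA : A.LiesOverPrime P.p) (ρ ε : ℤ)
    (hr : r ^ 3 + (P.b ^ P.p - P.a ^ P.p) * r ^ 2 - P.a ^ P.p * P.b ^ P.p * r = 0)
    (hfac : 3 * r ^ 2 + 2 * r * (P.b ^ P.p - P.a ^ P.p) - P.a ^ P.p * P.b ^ P.p = ε * ρ ^ P.p)
    (hε : ¬ (P.p : ℤ) ∣ ε) (hρ0 : ρ ≠ 0)
    (hdisc : ¬ (P.p : ℤ) ∣ (3 * r + (P.b ^ P.p - P.a ^ P.p)) ^ 2 -
      4 * (3 * r ^ 2 + 2 * r * (P.b ^ P.p - P.a ^ P.p) - P.a ^ P.p * P.b ^ P.p))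
    (N : Submodule (ZMod P.p) (TorV P)) (hN : IsGaloisStable ℚ N) (hbot : N ≠ ⊥)
    (htop : N ≠ ⊤) :
    (∀ σ ∈ A.inertiaSubgroupIn ℚ, ∀ x ∈ N, σ • x = x) ∨
    (∀ σ ∈ A.inertiaSubgroupIn ℚ, ∀ x : TorV P, σ • x - x ∈ N) := by
  have hq := P.pp
  have hp2 : ¬ P.p ∣ 2 := fun h => by
    have := (Nat.prime_dvd_prime_iff_eq hq Nat.prime_two).1 h
    have := P.hp5
    omega
  have h2 : A.valuation (2 : Qb) = 1 := by
    have := val_natCast_eq_one A hq hA hp2
    simpa using this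
  have hε0 : ε ≠ 0 := by rintro rfl; exact hε (dvd_zero _)
  have hd0 : (3 * r + (P.b ^ P.p - P.a ^ P.p)) ^ 2 -
      4 * (3 * r ^ 2 + 2 * r * (P.b ^ P.p - P.a ^ P.p) - P.a ^ P.p * P.b ^ P.p) ≠ 0 := by
    intro h0; rw [h0] at hdisc; exact hdisc (dvd_zero _)
  have hmodel : IsModel ((freyModel P r)⁄Qb) :=
    ⟨by simp [WeierstrassCurve.baseChange, freyModel],
     by simp [WeierstrassCurve.baseChange, freyModel],
     by simp [WeierstrassCurve.baseChange, freyModel]⟩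
  have ea₂ : ((freyModel P r)⁄Qb).a₂ = ((3 * r + (P.b ^ P.p - P.a ^ P.p) : ℤ) : Qb) := by
    simp [WeierstrassCurve.baseChange, freyModel]
  have ea₄' : ((freyModel P r)⁄Qb).a₄ =
      ((3 * r ^ 2 + 2 * r * (P.b ^ P.p - P.a ^ P.p) - P.a ^ P.p * P.b ^ P.p : ℤ) : Qb) := by
    simp [WeierstrassCurve.baseChange, freyModel]
  have ea₄ : ((freyModel P r)⁄Qb).a₄ = ((ε * ρ ^ P.p : ℤ) : Qb) := by rw [ea₄', hfac]
  have ha₂ : ((freyModel P r)⁄Qb).a₂ ∈ A := freyModel_a₂_mem A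
  have hva₄ : A.valuation ((freyModel P r)⁄Qb).a₄ = A.valuation ((ρ : ℤ) : Qb) ^ P.p := by
    rw [ea₄, Int.cast_mul, Int.cast_pow, map_mul, map_pow, val_intCast_eq_one A hq hA hε, one_mul]
  have hd : A.valuation (((freyModel P r)⁄Qb).a₂ ^ 2 - 4 * ((freyModel P r)⁄Qb).a₄) = 1 := by
    rw [ea₂, ea₄']
    have := val_intCast_eq_one A hq hA hdisc
    rw [← this]
    congr 1
    push_cast
    ring
  have hρK : ((ρ : ℤ) : Qb) ≠ 0 := by exact_mod_cast hρ0
  have ha₄ : ((freyModel P r)⁄Qb).a₄ ∈ A := freyModel_a₄_mem A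
  have h4 : ((freyModel P r)⁄Qb).a₄ ≠ 0 := by
    rw [ea₄]; exact_mod_cast mul_ne_zero hε0 (pow_ne_zero _ hρ0)
  have hΔ : ((freyModel P r)⁄Qb).Δ ≠ 0 := by
    rw [hmodel.Δ_eq]
    refine mul_ne_zero (mul_ne_zero (by norm_num) (pow_ne_zero _ h4)) ?_
    rw [ea₂, ea₄']
    exact_mod_cast hd0
  -- the transfer
  have hT : IsTransfer (P.freyCurve⁄Qb) ((freyModel P r)⁄Qb) (algebraMap ℚ Qb (r : ℚ)) :=
    { E_a₁ := by simp [WeierstrassCurve.baseChange, FreyPackage.freyCurve]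
      E_a₃ := by simp [WeierstrassCurve.baseChange, FreyPackage.freyCurve]
      E_a₆ := by simp [WeierstrassCurve.baseChange, FreyPackage.freyCurve]
      W_model := hmodel
      W_a₂ := by
        rw [ea₂]
        simp only [WeierstrassCurve.baseChange, WeierstrassCurve.map_a₂, FreyPackage.freyCurve]
        simp only [map_div₀, map_sub, map_pow, map_intCast, map_one, map_ofNat]
        push_cast
        field_simp
        ring
      W_a₄ := by
        rw [ea₄']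
        simp only [WeierstrassCurve.baseChange, WeierstrassCurve.map_a₂, WeierstrassCurve.map_a₄,
          FreyPackage.freyCurve]
        simp only [map_div₀, map_sub, map_mul, map_neg, map_pow, map_intCast, map_one, map_ofNat]
        push_cast
        field_simp
        ring
      hr := by
        simp only [WeierstrassCurve.baseChange, WeierstrassCurve.map_a₂, WeierstrassCurve.map_a₄,
          FreyPackage.freyCurve]
        simp only [map_div₀, map_sub, map_mul, map_neg, map_pow, map_intCast, map_one, map_ofNat]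
        have := congrArg (Int.cast (R := Qb)) hr
        push_cast at this
        field_simp
        linear_combination this
      hΔ := hΔ
      h2 := by norm_num }
  have hsq : ∀ m : Qb, ∃ μ : Qb, μ ^ 2 = m :=
    fun m => IsAlgClosed.exists_pow_nat_eq m (by norm_num)
  have hK : KernelProps A ((freyModel P r)⁄Qb) :=
    ⟨fun hP hQ => InE1_add A hmodel ha₂ ha₄ hP hQ, fun hP => InE1_neg A hmodel hP,
      fun n hn _ hP hnP => InE1_torsion_free A hmodel ha₂ ha₄ n hn hP hnP⟩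
  have hC : CongrProp A ((freyModel P r)⁄Qb) := by
    intro x y x' y' h h' hx hxx hyy
    exact InE1_sub_of_congr A hmodel ha₂ ha₄ hd h2 h h' hx hxx hyy
  refine atp_of_sub_InE1 hT A hA ?_ N hN hbot htop
  intro σ hσ x
  have hσρ : σ ((ρ : ℤ) : Qb) = ((ρ : ℤ) : Qb) := map_intCast σ ρ
  have key := model_inertia_sub_InE1 A hσ hmodel hK hC
    (fun s hs hs1 hv4 => comp_add A hmodel h2 s hs hs1 h4 hv4) hsq h2 ha₂ hd P.p hq.ne_zero
    ((ρ : ℤ) : Qb) hσρ (intCast_mem A ρ) hρK hva₄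
    (transfer hT x.1) (transfer_torsion hT x)
  have e : (σ • x - x).1 = σ • x.1 - x.1 := rfl
  rw [e, transfer_sub, transfer_smul hT σ x.1]
  exact key

end Frey

/-- **(Kp).** For every valuation ring `A` of `ℚ̄` over `p` and every Galois-stable line `N` in
the `p`-torsion of the Frey curve, the inertia group of `A` acts trivially on `N` or on the
quotient by `N`. -/
theorem frey_atp (P : FreyPackage) (A : ValuationSubring Qb) (hA : A.LiesOverPrime P.p)
    (N : Submodule (ZMod P.p) (TorV P)) (hN : IsGaloisStable ℚ N) (hbot : N ≠ ⊥)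
    (htop : N ≠ ⊤) :
    (∀ σ ∈ A.inertiaSubgroupIn ℚ, ∀ x ∈ N, σ • x = x) ∨
    (∀ σ ∈ A.inertiaSubgroupIn ℚ, ∀ x : TorV P, σ • x - x ∈ N) := by
  have hq := P.pp
  have hqZ : Prime (P.p : ℤ) := Nat.prime_iff_prime_int.1 hq
  by_cases hc : (P.p : ℤ) ∣ P.c
  · have hb : ¬ (P.p : ℤ) ∣ P.b := FreyPackage_not_dvd_b_of_dvd_c P hq hc
    have hF := P.hFLT
    refine atp_core (r := P.a ^ P.p) A hA (P.a * P.c) 1 (by ring) ?_ ?_
      (mul_ne_zero P.ha0 P.hc0) ?_ N hN hbot htop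
    · rw [mul_pow, ← hF]; ring
    · exact fun h => hqZ.not_dvd_one h
    · have e : (3 * P.a ^ P.p + (P.b ^ P.p - P.a ^ P.p)) ^ 2 -
          4 * (3 * (P.a ^ P.p) ^ 2 + 2 * P.a ^ P.p * (P.b ^ P.p - P.a ^ P.p) -
            P.a ^ P.p * P.b ^ P.p) = (P.b ^ P.p) ^ 2 := by ring
      rw [e]
      exact fun h => hb (hqZ.dvd_of_dvd_pow (hqZ.dvd_of_dvd_pow h))
  · have hF := P.hFLT
    refine atp_core (r := 0) A hA (P.a * P.b) (-1) (by ring) ?_ ?_
      (mul_ne_zero P.ha0 P.hb0) ?_ N hN hbot htop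
    · rw [mul_pow]; ring
    · rw [Int.dvd_neg]; exact fun h => hqZ.not_dvd_one h
    · have e : (3 * 0 + (P.b ^ P.p - P.a ^ P.p)) ^ 2 -
          4 * (3 * (0 : ℤ) ^ 2 + 2 * 0 * (P.b ^ P.p - P.a ^ P.p) -
            P.a ^ P.p * P.b ^ P.p) = (P.c ^ P.p) ^ 2 := by rw [← hF]; ring
      rw [e]
      exact fun h => hc (hqZ.dvd_of_dvd_pow (hqZ.dvd_of_dvd_pow h))

end Fermat.Agent.S13.Kp
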