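import Mathlib
import Fermat.Prelude.Def_FLTPrelim_Ramification
import Fermat.Agent.Lib.Frobenius

/-!
# A normal open subgroup of `Gal(ℚ̄/ℚ)` containing all inertia groups is everything

This is the Galois-theoretic form of Minkowski's theorem (`ℚ` has no nontrivial extension
unramified at all primes): see `Fermat.Agent.S13.KM.eq_top_of_inertia_le`.
-/

set_option autoImplicit false
set_option linter.style.haveILetI false

namespace Fermat.Agent.S13.KM

open scoped Pointwise

section abstractLift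

variable {A B : Type*} [CommRing A] [CommRing B] [Algebra A B]
variable {G : Type*} [Group G] [MulSemiringAction G B] [SMulCommClass G A B]
variable [TopologicalSpace G] [CompactSpace G] [TotallyDisconnectedSpace G]
variable [IsTopologicalGroup G] [TopologicalSpace B] [DiscreteTopology B] [ContinuousSMul G B]

omit [TopologicalSpace G] [CompactSpace G] [TotallyDisconnectedSpace G]
  [IsTopologicalGroup G] [TopologicalSpace B] [DiscreteTopology B] [ContinuousSMul G B] in
theorem isInvariant_fixedPoints (H : Subgroup G) :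
    Algebra.IsInvariant (FixedPoints.subalgebra A B H) B H :=
  ⟨fun b hb => ⟨⟨b, hb⟩, rfl⟩⟩

omit [TopologicalSpace G] [CompactSpace G] [TotallyDisconnectedSpace G]
  [IsTopologicalGroup G] [TopologicalSpace B] [DiscreteTopology B] [ContinuousSMul G B] in
theorem quotient_smul_coe (H : Subgroup G) [H.Normal] (g : G)
    (b : FixedPoints.subalgebra A B H) :
    (((g : G ⧸ H) • b : FixedPoints.subalgebra A B H) : B) = g • (b : B) :=
  rfl

/-- Inertia elements of the finite quotient lift to elements acting trivially on the residue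
ring of any given prime of the big ring above. -/
theorem exists_inertia_lift_of_prime (H : Subgroup G) [H.Normal] (hH : IsClosed (H : Set G))
    (P₀ : Ideal (FixedPoints.subalgebra A B H)) [P₀.IsPrime] (g : G)
    (hg : (g : G ⧸ H) ∈ Ideal.inertia (G ⧸ H) P₀)
    (Q : Ideal B) [hQ : Q.IsPrime] (hQP : Q.under (FixedPoints.subalgebra A B H) = P₀) :
    ∃ σ : G, σ⁻¹ * g ∈ H ∧ ∀ b : B, σ • b - b ∈ Q := by
  haveI : CompactSpace H := isCompact_iff_compactSpace.mp hH.isCompact
  haveI : ContinuousSMul H B := ⟨by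
    have h1 : Continuous fun p : G × B => p.1 • p.2 := continuous_smul
    exact h1.comp ((continuous_subtype_val.comp continuous_fst).prodMk continuous_snd)⟩
  haveI hinv : Algebra.IsInvariant (FixedPoints.subalgebra A B H) B H :=
    isInvariant_fixedPoints H
  have hmemP : ∀ b : FixedPoints.subalgebra A B H, b ∈ P₀ ↔ (b : B) ∈ Q := fun b => by
    rw [← hQP, Ideal.mem_comap]
    rfl
  have hgP : ∀ b : FixedPoints.subalgebra A B H, g • (b : B) - (b : B) ∈ Q := fun b => by
    have h1 : (g : G ⧸ H) • b - b ∈ P₀ := hg b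
    rw [hmemP] at h1
    exact h1
  have hginvP : ∀ b : FixedPoints.subalgebra A B H, g⁻¹ • (b : B) - (b : B) ∈ Q := fun b => by
    have h0 : ((g⁻¹ : G) : G ⧸ H) ∈ Ideal.inertia (G ⧸ H) P₀ := inv_mem hg
    have h1 : ((g⁻¹ : G) : G ⧸ H) • b - b ∈ P₀ := h0 b
    rw [hmemP] at h1
    exact h1
  -- `g • Q` lies over `P₀` as well
  have hgQ : (g • Q).under (FixedPoints.subalgebra A B H) =
      Q.under (FixedPoints.subalgebra A B H) := by
    ext b
    rw [Ideal.under_def, Ideal.under_def, Ideal.mem_comap, Ideal.mem_comap,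
      Ideal.mem_pointwise_smul_iff_inv_smul_mem]
    have h1 := hginvP b
    constructor
    · intro h2
      have h3 := Q.sub_mem h2 h1
      simpa using h3
    · intro h2
      have h3 := Q.add_mem h1 h2
      simpa using h3
  haveI hgQprime : (g • Q).IsPrime := by
    rw [Ideal.pointwise_smul_def]
    exact Ideal.map_isPrime_of_equiv (MulSemiringAction.toRingEquiv G B g)
  obtain ⟨h, hh⟩ := Algebra.IsInvariant.exists_smul_of_under_eq_of_profinite
    (A := FixedPoints.subalgebra A B H) (G := H) (g • Q) Q hgQ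
  -- `σ₁ = h * g` stabilises `Q`
  have hσ₁ : ((h : G) * g) • Q = Q := by
    rw [mul_smul]
    exact hh.symm
  have hσ₁b : ∀ b : FixedPoints.subalgebra A B H,
      ((h : G) * g) • (b : B) - (b : B) ∈ Q := fun b => by
    have h1 : (h : G) • (g • (b : B)) = g • (b : B) :=
      (((g : G ⧸ H) • b : FixedPoints.subalgebra A B H)).2 h
    rw [mul_smul, h1]
    exact hgP b
  haveI hlo : Q.LiesOver P₀ := ⟨hQP.symm⟩
  let φ₀ : (B ⧸ Q) ≃+* (B ⧸ Q) :=
    (Ideal.Quotient.stabilizerHom Q (Q.under A) G ⟨(h : G) * g, hσ₁⟩).toRingEquiv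
  have hφ₀ : ∀ b : B, φ₀ (Ideal.Quotient.mk Q b) = Ideal.Quotient.mk Q (((h : G) * g) • b) :=
    fun b => Ideal.Quotient.stabilizerHom_apply Q (Q.under A) G ⟨(h : G) * g, hσ₁⟩ b
  let φ : (B ⧸ Q) ≃ₐ[FixedPoints.subalgebra A B H ⧸ P₀] (B ⧸ Q) :=
    AlgEquiv.ofRingEquiv (f := φ₀) (by
      intro x
      obtain ⟨b, rfl⟩ := Ideal.Quotient.mk_surjective x
      rw [Ideal.Quotient.algebraMap_mk_of_liesOver]
      change φ₀ (Ideal.Quotient.mk Q (b : B)) = Ideal.Quotient.mk Q (b : B)
      rw [hφ₀]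
      exact Ideal.Quotient.eq.2 (hσ₁b b))
  obtain ⟨⟨h', hh'⟩, hφ⟩ := Ideal.Quotient.stabilizerHom_surjective_of_profinite
    (G := H) P₀ Q φ
  have hkey : ∀ b : B, ((h : G) * g) • b - (h' : G) • b ∈ Q := fun b => by
    have h2 := DFunLike.congr_fun hφ (Ideal.Quotient.mk Q b)
    rw [Ideal.Quotient.stabilizerHom_apply] at h2
    have h3 : φ (Ideal.Quotient.mk Q b) = Ideal.Quotient.mk Q (((h : G) * g) • b) := hφ₀ b
    rw [h3] at h2
    exact Ideal.Quotient.eq.1 h2.symm
  have hh'Q : (h' : G)⁻¹ • Q = Q := by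
    have h1 : (h' : G) • Q = Q := hh'
    rw [inv_smul_eq_iff, h1]
  refine ⟨(h' : G)⁻¹ * ((h : G) * g), ?_, fun b => ?_⟩
  · have h1 : ((h' : G)⁻¹ * ((h : G) * g))⁻¹ * g = g⁻¹ * ((h : G)⁻¹ * (h' : G)) * g⁻¹⁻¹ := by
      group
    rw [h1]
    exact Subgroup.Normal.conj_mem inferInstance _
      (H.mul_mem (H.inv_mem h.2) h'.2) g⁻¹
  · have h1 : (h' : G)⁻¹ • (((h : G) * g) • b - (h' : G) • b) ∈ (h' : G)⁻¹ • Q :=
      Ideal.smul_mem_pointwise_smul_iff.2 (hkey b)
    rw [hh'Q] at h1
    have h2 : (h' : G)⁻¹ • (((h : G) * g) • b - (h' : G) • b) =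
        ((h' : G)⁻¹ * ((h : G) * g)) • b - b := by
      rw [smul_sub, inv_smul_smul, mul_smul (h' : G)⁻¹]
    rwa [h2] at h1

/-- Inertia elements of the finite quotient lift to elements acting trivially on the residue
ring of some prime of the big ring. -/
theorem exists_inertia_lift (H : Subgroup G) [H.Normal] (hH : IsClosed (H : Set G))
    (P₀ : Ideal (FixedPoints.subalgebra A B H)) [P₀.IsPrime] (g : G)
    (hg : (g : G ⧸ H) ∈ Ideal.inertia (G ⧸ H) P₀) :
    ∃ (Q : Ideal B) (σ : G), Q.IsPrime ∧ Q.under (FixedPoints.subalgebra A B H) = P₀ ∧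
      σ⁻¹ * g ∈ H ∧ ∀ b : B, σ • b - b ∈ Q := by
  haveI : CompactSpace H := isCompact_iff_compactSpace.mp hH.isCompact
  haveI : ContinuousSMul H B := ⟨by
    have h1 : Continuous fun p : G × B => p.1 • p.2 := continuous_smul
    exact h1.comp ((continuous_subtype_val.comp continuous_fst).prodMk continuous_snd)⟩
  haveI hinv : Algebra.IsInvariant (FixedPoints.subalgebra A B H) B H :=
    isInvariant_fixedPoints H
  haveI hint : Algebra.IsIntegral (FixedPoints.subalgebra A B H) B :=
    Algebra.IsInvariant.isIntegral_of_profinite (G := H)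
  -- a prime over `P₀`
  obtain ⟨Q, -, hQ, hQP⟩ := Ideal.exists_ideal_over_prime_of_isIntegral P₀ (⊥ : Ideal B)
    (by
      intro x hx
      rw [Ideal.mem_comap, Ideal.mem_bot] at hx
      have hx0 : x = 0 := by
        apply Subtype.ext
        simpa using hx
      rw [hx0]
      exact P₀.zero_mem)
  obtain ⟨σ, h1, h2⟩ := exists_inertia_lift_of_prime H hH P₀ g hg Q hQP
  exact ⟨Q, σ, hQ, hQP, h1, h2⟩

end abstractLift

section inertiaCriterion

open Fermat.Agent.Lib.Frobenius

/-- An automorphism congruent to the identity modulo the maximal ideal of `A` lies in the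
inertia group of `A`. -/
theorem mem_inertiaSubgroupIn_of_forall_valuation_lt {K L : Type*} [Field K] [Field L]
    [Algebra K L] (A : ValuationSubring L) (σ : L ≃ₐ[K] L)
    (h : ∀ a : L, a ∈ A → A.valuation (σ a - a) < 1) : σ ∈ A.inertiaSubgroupIn K := by
  have h' : ∀ a : L, a ∈ A → A.valuation (σ a - a ^ 1) < 1 := fun a ha => by
    rw [pow_one]
    exact h a ha
  obtain ⟨hσ, hx⟩ := isFrobeniusAt_of_forall_valuation_lt A σ 1 h'
  refine ⟨⟨σ, hσ⟩, ?_, rfl⟩
  change MulSemiringAction.toRingAut (A.decompositionSubgroup K)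
    (IsLocalRing.ResidueField A) ⟨σ, hσ⟩ = 1
  ext x
  have := hx x
  rw [pow_one] at this
  exact this

end inertiaCriterion

section concrete

open Fermat.Agent.Lib.Frobenius

local instance isAlgebraicQbarKM : Algebra.IsAlgebraic ℚ (AlgebraicClosure ℚ) :=
  AlgebraicClosure.isAlgebraic ℚ
local instance isAlgClosureQbarKM : IsAlgClosure ℚ (AlgebraicClosure ℚ) :=
  ⟨inferInstance, inferInstance⟩
local instance normalQbarKM : Normal ℚ (AlgebraicClosure ℚ) :=
  IsAlgClosure.normal ℚ (AlgebraicClosure ℚ)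

/-- The Galois action on algebraic integers. -/
noncomputable local instance zbarActionKM :
    MulSemiringAction (AlgebraicClosure ℚ ≃ₐ[ℚ] AlgebraicClosure ℚ) ZBar :=
  IsIntegralClosure.MulSemiringAction ℤ ℚ (AlgebraicClosure ℚ) ZBar

variable (A : ValuationSubring (AlgebraicClosure ℚ))

variable {A} in
/-- If `σ` acts trivially on `ZBar` modulo the prime cut out by `A`, then `σ` is congruent to the
identity modulo the maximal ideal of `A`. -/
theorem valuation_sub_lt_one_of_zbar {ℓ : ℕ} (hℓ : ℓ.Prime) (hA : A.LiesOverPrime ℓ)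
    (σ : AlgebraicClosure ℚ ≃ₐ[ℚ] AlgebraicClosure ℚ)
    (hσ : ∀ b : ZBar, σ • b - b ∈ primeOf A) :
    ∀ a : AlgebraicClosure ℚ, a ∈ A → A.valuation (σ a - a) < 1 := by
  intro a ha
  obtain ⟨b, s, hs, hsab⟩ := exists_frac hℓ hA a ha
  have hσ' : ∀ c : ZBar, A.valuation (σ (c : AlgebraicClosure ℚ) - (c : AlgebraicClosure ℚ))
      < 1 := fun c => by
    have := hσ c
    rw [mem_primeOf] at this
    simpa [zbar_smul_coe] using this
  rw [not_mem_primeOf] at hs
  have ha1 : A.valuation a ≤ 1 := (A.valuation_le_one_iff a).2 ha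
  have hσs : A.valuation (σ (s : AlgebraicClosure ℚ)) = 1 := by
    have h1 : σ (s : AlgebraicClosure ℚ) =
        (s : AlgebraicClosure ℚ) + (σ (s : AlgebraicClosure ℚ) - (s : AlgebraicClosure ℚ)) := by
      ring
    rw [h1, Valuation.map_add_eq_of_lt_left _ (by rw [hs]; exact hσ' s), hs]
  have hkey : σ (s : AlgebraicClosure ℚ) * (σ a - a) =
      (σ (b : AlgebraicClosure ℚ) - (b : AlgebraicClosure ℚ)) -
        (σ (s : AlgebraicClosure ℚ) - (s : AlgebraicClosure ℚ)) * a := by
    have h1 : σ (s : AlgebraicClosure ℚ) * σ a = σ (b : AlgebraicClosure ℚ) := by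
      rw [← map_mul, hsab]
    rw [← h1, ← hsab]
    ring
  have hlt : A.valuation (σ (s : AlgebraicClosure ℚ) * (σ a - a)) < 1 := by
    rw [hkey]
    refine lt_of_le_of_lt (A.valuation.map_sub _ _) (max_lt (hσ' b) ?_)
    rw [map_mul]
    calc A.valuation (σ (s : AlgebraicClosure ℚ) - (s : AlgebraicClosure ℚ)) * A.valuation a
        ≤ A.valuation (σ (s : AlgebraicClosure ℚ) - (s : AlgebraicClosure ℚ)) * 1 :=
          mul_le_mul_right ha1 _
      _ < 1 := by rw [mul_one]; exact hσ' s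
  rwa [map_mul, hσs, one_mul] at hlt

/-- Every prime of `ZBar` containing a rational prime `q` is cut out by a valuation subring
over `q`. -/
theorem exists_valuationSubring_of_prime (Q : Ideal ZBar) [Q.IsPrime] {q : ℕ} (hq : q.Prime)
    (hqQ : ((q : ℕ) : ZBar) ∈ Q) :
    ∃ A : ValuationSubring (AlgebraicClosure ℚ), A.LiesOverPrime q ∧ primeOf A = Q := by
  have hQtop : Q ≠ ⊤ := Ideal.IsPrime.ne_top inferInstance
  obtain ⟨A, -, hA⟩ := Ideal.image_subset_nonunits_valuationSubring
    (A := ZBar.toSubring) (Q : Ideal ZBar.toSubring) hQtop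
  have hQle : Q ≤ primeOf A := fun b hb => by
    rw [mem_primeOf]
    exact (ValuationSubring.mem_nonunits_iff A).1 (hA ⟨b, hb, rfl⟩)
  have hAq : A.LiesOverPrime q := by
    have h1 := hQle hqQ
    rw [mem_primeOf] at h1
    exact (ValuationSubring.mem_nonunits_iff A).2 (by simpa using h1)
  refine ⟨A, hAq, ?_⟩
  have hcomap : (Q.comap (algebraMap ℤ ZBar)).IsMaximal := by
    have hprime : (Q.comap (algebraMap ℤ ZBar)).IsPrime := inferInstance
    refine Ideal.IsPrime.isMaximal hprime ?_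
    intro h0
    have h1 : (q : ℤ) ∈ Q.comap (algebraMap ℤ ZBar) := by
      rw [Ideal.mem_comap]
      simpa using hqQ
    rw [h0, Ideal.mem_bot] at h1
    exact hq.ne_zero (by exact_mod_cast h1)
  have hQmax : Q.IsMaximal := Ideal.isMaximal_of_isIntegral_of_isMaximal_comap Q hcomap
  exact (hQmax.eq_of_le (Ideal.IsPrime.ne_top inferInstance) hQle).symm

section minkowski

variable (H : Subgroup (AlgebraicClosure ℚ ≃ₐ[ℚ] AlgebraicClosure ℚ))

/-- The `H`-invariant algebraic integers. -/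
noncomputable abbrev ZH : Subalgebra ℤ ZBar := FixedPoints.subalgebra ℤ ZBar H

theorem zh_mem_fixedField (b : ZH H) :
    ((b : ZBar) : AlgebraicClosure ℚ) ∈ IntermediateField.fixedField H := by
  rw [IntermediateField.mem_fixedField_iff]
  intro f hf
  have h1 : (⟨f, hf⟩ : H) • (b : ZBar) = (b : ZBar) := b.2 ⟨f, hf⟩
  have h2 := congrArg (Subtype.val) h1
  rw [Subgroup.smul_def, zbar_smul_coe] at h2
  exact h2

/-- The inclusion of the `H`-invariant algebraic integers into the fixed field of `H`. -/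
noncomputable def zhToField : ZH H →+* IntermediateField.fixedField H where
  toFun b := ⟨((b : ZBar) : AlgebraicClosure ℚ), zh_mem_fixedField H b⟩
  map_one' := rfl
  map_mul' _ _ := rfl
  map_zero' := rfl
  map_add' _ _ := rfl

noncomputable local instance zhAlgebra : Algebra (ZH H) (IntermediateField.fixedField H) :=
  (zhToField H).toAlgebra

theorem zh_algebraMap_coe (b : ZH H) :
    ((algebraMap (ZH H) (IntermediateField.fixedField H) b :
      IntermediateField.fixedField H) : AlgebraicClosure ℚ) = ((b : ZBar) : AlgebraicClosure ℚ) :=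
  rfl

theorem zh_isIntegralClosure : IsIntegralClosure (ZH H) ℤ (IntermediateField.fixedField H) := by
  refine ⟨?_, ?_⟩
  · intro a b hab
    have h1 := congrArg (Subtype.val) hab
    rw [zh_algebraMap_coe, zh_algebraMap_coe] at h1
    exact Subtype.ext (Subtype.ext h1)
  · intro x
    constructor
    · intro hx
      have hx' : IsIntegral ℤ (x : AlgebraicClosure ℚ) :=
        hx.map (IntermediateField.val (IntermediateField.fixedField H)).toIntAlgHom
      refine ⟨⟨⟨(x : AlgebraicClosure ℚ), hx'⟩, ?_⟩, ?_⟩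
      · intro h
        apply Subtype.ext
        rw [Subgroup.smul_def, zbar_smul_coe]
        exact (IntermediateField.mem_fixedField_iff H _).1 x.2 h h.2
      · exact Subtype.ext rfl
    · rintro ⟨y, rfl⟩
      have hy : IsIntegral ℤ ((y : ZBar) : AlgebraicClosure ℚ) := (y : ZBar).2
      have h2 : IsIntegral ℤ ((algebraMap (ZH H) (IntermediateField.fixedField H) y :
          IntermediateField.fixedField H) : AlgebraicClosure ℚ) := hy
      exact (isIntegral_algHom_iff
        (IntermediateField.val (IntermediateField.fixedField H)).toIntAlgHom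
        Subtype.val_injective).1 h2

theorem isOpen_of_le (hopen : ∃ F : IntermediateField ℚ (AlgebraicClosure ℚ),
    FiniteDimensional ℚ F ∧ F.fixingSubgroup ≤ H) :
    IsOpen (H : Set (AlgebraicClosure ℚ ≃ₐ[ℚ] AlgebraicClosure ℚ)) := by
  obtain ⟨F, hF, hFH⟩ := hopen
  exact Subgroup.isOpen_mono hFH (IntermediateField.fixingSubgroup_isOpen F)

theorem fixingSubgroup_fixedField_eq
    (hH : IsClosed (H : Set (AlgebraicClosure ℚ ≃ₐ[ℚ] AlgebraicClosure ℚ))) :
    (IntermediateField.fixedField H).fixingSubgroup = H :=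
  InfiniteGalois.fixingSubgroup_fixedField ⟨H, hH⟩

theorem finiteDimensional_fixedField (hopen : ∃ F : IntermediateField ℚ (AlgebraicClosure ℚ),
    FiniteDimensional ℚ F ∧ F.fixingSubgroup ≤ H) :
    FiniteDimensional ℚ (IntermediateField.fixedField H) := by
  obtain ⟨F, hF, hFH⟩ := hopen
  have h1 : IntermediateField.fixedField H ≤ F := by
    have h2 := IntermediateField.fixedField_antitone hFH
    rwa [InfiniteGalois.fixedField_fixingSubgroup] at h2
  exact Module.Finite.of_injective (IntermediateField.inclusion h1).toLinearMap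
    (IntermediateField.inclusion h1).injective

theorem finrank_fixedField_ne_one
    (hH : IsClosed (H : Set (AlgebraicClosure ℚ ≃ₐ[ℚ] AlgebraicClosure ℚ))) (hne : H ≠ ⊤) :
    Module.finrank ℚ (IntermediateField.fixedField H) ≠ 1 := by
  intro h1
  rw [IntermediateField.finrank_eq_one_iff] at h1
  apply hne
  rw [← fixingSubgroup_fixedField_eq H hH, h1, IntermediateField.fixingSubgroup_bot]

/-- An element of the Galois group fixing all `H`-invariant algebraic integers lies in `H`. -/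
theorem mem_of_forall_smul_eq (hopen : ∃ F : IntermediateField ℚ (AlgebraicClosure ℚ),
    FiniteDimensional ℚ F ∧ F.fixingSubgroup ≤ H)
    (g : AlgebraicClosure ℚ ≃ₐ[ℚ] AlgebraicClosure ℚ)
    (hg : ∀ b : ZH H, g • (b : ZBar) = (b : ZBar)) : g ∈ H := by
  have hH : IsClosed (H : Set (AlgebraicClosure ℚ ≃ₐ[ℚ] AlgebraicClosure ℚ)) :=
    Subgroup.isClosed_of_isOpen H (isOpen_of_le H hopen)
  haveI := finiteDimensional_fixedField H hopen
  haveI := zh_isIntegralClosure H
  haveI : IsFractionRing (ZH H) (IntermediateField.fixedField H) :=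
    IsIntegralClosure.isFractionRing_of_finite_extension ℤ ℚ (IntermediateField.fixedField H) (ZH H)
  rw [← fixingSubgroup_fixedField_eq H hH]
  rw [IntermediateField.mem_fixingSubgroup_iff]
  intro x hx
  obtain ⟨a, b, hb, hab⟩ := IsFractionRing.div_surjective (A := ZH H)
    (⟨x, hx⟩ : IntermediateField.fixedField H)
  have h1 := congrArg (Subtype.val) hab
  have h2 : x = ((a : ZBar) : AlgebraicClosure ℚ) / ((b : ZBar) : AlgebraicClosure ℚ) :=
    h1.symm
  have ha : g ((a : ZBar) : AlgebraicClosure ℚ) = ((a : ZBar) : AlgebraicClosure ℚ) := by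
    rw [← zbar_smul_coe, hg a]
  have hb' : g ((b : ZBar) : AlgebraicClosure ℚ) = ((b : ZBar) : AlgebraicClosure ℚ) := by
    rw [← zbar_smul_coe, hg b]
  change g x = x
  rw [h2, map_div₀, ha, hb']

variable [H.Normal]

theorem zh_isGaloisGroup (hopen : ∃ F : IntermediateField ℚ (AlgebraicClosure ℚ),
    FiniteDimensional ℚ F ∧ F.fixingSubgroup ≤ H) :
    IsGaloisGroup ((AlgebraicClosure ℚ ≃ₐ[ℚ] AlgebraicClosure ℚ) ⧸ H) ℤ (ZH H) := by
  haveI := zbar_isInvariant
  refine ⟨⟨?_⟩, inferInstance, inferInstance⟩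
  intro g₁ g₂
  induction g₁ using QuotientGroup.induction_on with
  | H g₁ =>
    induction g₂ using QuotientGroup.induction_on with
    | H g₂ =>
      intro h
      rw [QuotientGroup.eq]
      refine mem_of_forall_smul_eq H hopen _ fun b => ?_
      have h1 := congrArg (Subtype.val) (h b)
      rw [quotient_smul_coe, quotient_smul_coe] at h1
      rw [mul_smul, ← h1, inv_smul_smul]

/-- Minkowski: if `H ≠ ⊤` then some prime of the `H`-invariant integers has a nontrivial inertia
element. -/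
theorem exists_inertia_ne (hopen : ∃ F : IntermediateField ℚ (AlgebraicClosure ℚ),
    FiniteDimensional ℚ F ∧ F.fixingSubgroup ≤ H) (hne : H ≠ ⊤) :
    ∃ (P₀ : Ideal (ZH H)) (q : ℕ) (g : AlgebraicClosure ℚ ≃ₐ[ℚ] AlgebraicClosure ℚ),
      P₀.IsPrime ∧ q.Prime ∧ ((q : ℕ) : ZH H) ∈ P₀ ∧ g ∉ H ∧
        (g : (AlgebraicClosure ℚ ≃ₐ[ℚ] AlgebraicClosure ℚ) ⧸ H) ∈
          Ideal.inertia ((AlgebraicClosure ℚ ≃ₐ[ℚ] AlgebraicClosure ℚ) ⧸ H) P₀ := by
  have hHo := isOpen_of_le H hopen
  have hH : IsClosed (H : Set (AlgebraicClosure ℚ ≃ₐ[ℚ] AlgebraicClosure ℚ)) :=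
    Subgroup.isClosed_of_isOpen H hHo
  haveI := finiteDimensional_fixedField H hopen
  haveI : NumberField (IntermediateField.fixedField H) := ⟨⟩
  haveI := zh_isIntegralClosure H
  haveI := IsIntegralClosure.isDedekindDomain ℤ ℚ (IntermediateField.fixedField H) (ZH H)
  haveI := IsIntegralClosure.isFractionRing_of_finite_extension ℤ ℚ
    (IntermediateField.fixedField H) (ZH H)
  haveI := IsIntegralClosure.finite ℤ ℚ (IntermediateField.fixedField H) (ZH H)
  haveI : Finite ((AlgebraicClosure ℚ ≃ₐ[ℚ] AlgebraicClosure ℚ) ⧸ H) :=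
    Subgroup.quotient_finite_of_isOpen H hHo
  haveI := zh_isGaloisGroup H hopen
  obtain ⟨P, hPmax, hP⟩ := NumberField.exists_not_isUnramifiedAt_int
    (K := IntermediateField.fixedField H) (𝒪 := ZH H) (finrank_fixedField_ne_one H hH hne)
  haveI hPprime : P.IsPrime := hPmax.isPrime
  obtain ⟨p, hp : _ = Ideal.span _⟩ := IsPrincipalIdealRing.principal (P.under ℤ)
  have hp0 : p ≠ 0 := fun hp0 ↦ Ideal.IsMaximal.ne_bot_of_isIntegral_int _
    (Ideal.eq_bot_of_comap_eq_bot (hp.trans (by aesop)))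
  have hpprime : Prime p := by rw [← Ideal.span_singleton_prime hp0, ← hp]; infer_instance
  have hpP : ((p.natAbs : ℕ) : ZH H) ∈ P := by
    have h1 : (p.natAbs : ℤ) ∈ P.under ℤ := by
      rw [hp, Ideal.mem_span_singleton]
      exact p.associated_natAbs.dvd
    rw [Ideal.under_def, Ideal.mem_comap] at h1
    simpa using h1
  rw [← Ideal.ramificationIdx_eq_one_iff] at hP
  have hcard := Ideal.card_inertia_eq_ramificationIdxIn
      (G := (AlgebraicClosure ℚ ≃ₐ[ℚ] AlgebraicClosure ℚ) ⧸ H) (P.under ℤ) P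
  have hram := Ideal.ramificationIdxIn_eq_ramificationIdx (P.under ℤ) P
      ((AlgebraicClosure ℚ ≃ₐ[ℚ] AlgebraicClosure ℚ) ⧸ H)
  rw [hram] at hcard
  have hP' : ¬ (Ideal.inertia ((AlgebraicClosure ℚ ≃ₐ[ℚ] AlgebraicClosure ℚ) ⧸ H) P = ⊥) := by
    intro h
    rw [← Subgroup.card_eq_one, hcard] at h
    exact hP h
  rw [Subgroup.eq_bot_iff_forall] at hP'
  push Not at hP'
  replace hP := hP'
  obtain ⟨x, hx, hx1⟩ := hP
  induction x using QuotientGroup.induction_on with
  | H g =>
    refine ⟨P, p.natAbs, g, hPprime, Int.prime_iff_natAbs_prime.mp hpprime, hpP, ?_, hx⟩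
    intro hgH
    exact hx1 ((QuotientGroup.eq_one_iff g).2 hgH)

/-- Minkowski, uniform form: if `H ≠ ⊤` then there is a rational prime `q` such that every
prime of the `H`-invariant integers over `q` has a nontrivial inertia element. -/
theorem exists_prime_forall_inertia_ne (hopen : ∃ F : IntermediateField ℚ (AlgebraicClosure ℚ),
    FiniteDimensional ℚ F ∧ F.fixingSubgroup ≤ H) (hne : H ≠ ⊤) :
    ∃ q : ℕ, q.Prime ∧ ∀ (P' : Ideal (ZH H)), P'.IsPrime → ((q : ℕ) : ZH H) ∈ P' →
      ∃ g : AlgebraicClosure ℚ ≃ₐ[ℚ] AlgebraicClosure ℚ, g ∉ H ∧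
        (g : (AlgebraicClosure ℚ ≃ₐ[ℚ] AlgebraicClosure ℚ) ⧸ H) ∈
          Ideal.inertia ((AlgebraicClosure ℚ ≃ₐ[ℚ] AlgebraicClosure ℚ) ⧸ H) P' := by
  have hHo := isOpen_of_le H hopen
  have hH : IsClosed (H : Set (AlgebraicClosure ℚ ≃ₐ[ℚ] AlgebraicClosure ℚ)) :=
    Subgroup.isClosed_of_isOpen H hHo
  haveI := finiteDimensional_fixedField H hopen
  haveI : NumberField (IntermediateField.fixedField H) := ⟨⟩
  haveI := zh_isIntegralClosure H
  haveI := IsIntegralClosure.isDedekindDomain ℤ ℚ (IntermediateField.fixedField H) (ZH H)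
  haveI := IsIntegralClosure.isFractionRing_of_finite_extension ℤ ℚ
    (IntermediateField.fixedField H) (ZH H)
  haveI := IsIntegralClosure.finite ℤ ℚ (IntermediateField.fixedField H) (ZH H)
  haveI : Finite ((AlgebraicClosure ℚ ≃ₐ[ℚ] AlgebraicClosure ℚ) ⧸ H) :=
    Subgroup.quotient_finite_of_isOpen H hHo
  haveI := zh_isGaloisGroup H hopen
  obtain ⟨P, hPmax, hP⟩ := NumberField.exists_not_isUnramifiedAt_int
    (K := IntermediateField.fixedField H) (𝒪 := ZH H) (finrank_fixedField_ne_one H hH hne)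
  haveI hPprime : P.IsPrime := hPmax.isPrime
  obtain ⟨p, hp : _ = Ideal.span _⟩ := IsPrincipalIdealRing.principal (P.under ℤ)
  have hp0 : p ≠ 0 := fun hp0 ↦ Ideal.IsMaximal.ne_bot_of_isIntegral_int _
    (Ideal.eq_bot_of_comap_eq_bot (hp.trans (by aesop)))
  have hpprime : Prime p := by rw [← Ideal.span_singleton_prime hp0, ← hp]; infer_instance
  rw [← Ideal.ramificationIdx_eq_one_iff] at hP
  have hram := Ideal.ramificationIdxIn_eq_ramificationIdx (P.under ℤ) P
      ((AlgebraicClosure ℚ ≃ₐ[ℚ] AlgebraicClosure ℚ) ⧸ H)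
  refine ⟨p.natAbs, Int.prime_iff_natAbs_prime.mp hpprime, fun P' hP'prime hqP' => ?_⟩
  have hpP' : (p : ZH H) ∈ P' := P'.mem_of_dvd
    (map_dvd (algebraMap ℤ (ZH H)) p.associated_natAbs.symm.dvd) (by simpa using hqP')
  have hunder : Ideal.span {p} = Ideal.under ℤ P' :=
    ((Ideal.liesOver_span_iff Ideal.IsPrime.ne_top' hpprime).mpr hpP').1
  haveI hlo : P'.LiesOver (P.under ℤ) := ⟨by rw [hp, hunder]⟩
  have hcard := Ideal.card_inertia_eq_ramificationIdxIn
      (G := (AlgebraicClosure ℚ ≃ₐ[ℚ] AlgebraicClosure ℚ) ⧸ H) (P.under ℤ) P'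
  rw [hram] at hcard
  have hP' : ¬ (Ideal.inertia ((AlgebraicClosure ℚ ≃ₐ[ℚ] AlgebraicClosure ℚ) ⧸ H) P' = ⊥) := by
    intro h
    rw [← Subgroup.card_eq_one, hcard] at h
    exact hP h
  rw [Subgroup.eq_bot_iff_forall] at hP'
  push Not at hP'
  obtain ⟨x, hx, hx1⟩ := hP'
  induction x using QuotientGroup.induction_on with
  | H g =>
    refine ⟨g, ?_, hx⟩
    intro hgH
    exact hx1 ((QuotientGroup.eq_one_iff g).2 hgH)

end minkowski

/-- **Minkowski, Galois form, with one place per prime.** A normal open subgroup of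
`Gal(ℚ̄/ℚ)` which for every rational prime `q` contains the inertia group of SOME valuation
subring over `q` is the whole group. -/
theorem eq_top_of_exists_inertia_le
    (H : Subgroup (AlgebraicClosure ℚ ≃ₐ[ℚ] AlgebraicClosure ℚ)) [H.Normal]
    (hopen : ∃ F : IntermediateField ℚ (AlgebraicClosure ℚ),
      FiniteDimensional ℚ F ∧ F.fixingSubgroup ≤ H)
    (hunr : ∀ q : ℕ, q.Prime → ∃ A : ValuationSubring (AlgebraicClosure ℚ), A.LiesOverPrime q ∧
      A.inertiaSubgroupIn ℚ ≤ H) :
    H = ⊤ := by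
  by_contra hne
  obtain ⟨q, hq, hall⟩ := exists_prime_forall_inertia_ne H hopen hne
  obtain ⟨A, hA, hAH⟩ := hunr q hq
  have hH : IsClosed (H : Set (AlgebraicClosure ℚ ≃ₐ[ℚ] AlgebraicClosure ℚ)) :=
    Subgroup.isClosed_of_isOpen H (isOpen_of_le H hopen)
  letI : TopologicalSpace ZBar := ⊥
  haveI : DiscreteTopology ZBar := ⟨rfl⟩
  haveI : ContinuousSMul (AlgebraicClosure ℚ ≃ₐ[ℚ] AlgebraicClosure ℚ) ZBar :=
    continuousSMul_iff_stabilizer_isOpen.2 zbar_stabilizer_isOpen
  have hqQ : ((q : ℕ) : ZBar) ∈ primeOf A := by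
    rw [mem_primeOf]
    simpa using valuation_natCast_lt_one hA
  have hqP : ((q : ℕ) : ZH H) ∈ (primeOf A).under (ZH H) := by
    rw [Ideal.under_def, Ideal.mem_comap]
    simpa using hqQ
  obtain ⟨g, hgH, hg⟩ := hall ((primeOf A).under (ZH H)) inferInstance hqP
  obtain ⟨σ, hσg, hσ⟩ := exists_inertia_lift_of_prime (A := ℤ) (B := ZBar) H hH
    ((primeOf A).under (ZH H)) g hg (primeOf A) rfl
  have hσA : σ ∈ A.inertiaSubgroupIn ℚ :=
    mem_inertiaSubgroupIn_of_forall_valuation_lt A σ (valuation_sub_lt_one_of_zbar hq hA σ hσ)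
  apply hgH
  have h1 := H.mul_mem (hAH hσA) hσg
  rwa [mul_inv_cancel_left] at h1

/-- **Minkowski, Galois form.** A normal open subgroup of `Gal(ℚ̄/ℚ)` which contains the inertia
group of every valuation subring over every rational prime is the whole group. -/
theorem eq_top_of_inertia_le
    (H : Subgroup (AlgebraicClosure ℚ ≃ₐ[ℚ] AlgebraicClosure ℚ)) [H.Normal]
    (hopen : ∃ F : IntermediateField ℚ (AlgebraicClosure ℚ),
      FiniteDimensional ℚ F ∧ F.fixingSubgroup ≤ H)
    (hunr : ∀ q : ℕ, q.Prime → ∀ A : ValuationSubring (AlgebraicClosure ℚ), A.LiesOverPrime q →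
      A.inertiaSubgroupIn ℚ ≤ H) :
    H = ⊤ := by
  refine eq_top_of_exists_inertia_le H hopen fun q hq => ?_
  obtain ⟨A, hA⟩ := exists_liesOverPrime hq
  exact ⟨A, hA, hunr q hq A hA⟩

/-- Character form: a group homomorphism out of `Gal(ℚ̄/ℚ)` which is trivial on the fixing
subgroup of a finite extension and on all inertia groups is trivial. -/
theorem monoidHom_apply_eq_one_of_unramified {M : Type*} [Group M]
    (χ : (AlgebraicClosure ℚ ≃ₐ[ℚ] AlgebraicClosure ℚ) →* M)
    (hopen : ∃ F : IntermediateField ℚ (AlgebraicClosure ℚ),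
      FiniteDimensional ℚ F ∧ ∀ σ ∈ F.fixingSubgroup, χ σ = 1)
    (hunr : ∀ q : ℕ, q.Prime → ∀ A : ValuationSubring (AlgebraicClosure ℚ), A.LiesOverPrime q →
      ∀ σ ∈ A.inertiaSubgroupIn ℚ, χ σ = 1)
    (σ : AlgebraicClosure ℚ ≃ₐ[ℚ] AlgebraicClosure ℚ) : χ σ = 1 := by
  have h1 : χ.ker = ⊤ := by
    refine eq_top_of_inertia_le χ.ker ?_ ?_
    · obtain ⟨F, hF, hFχ⟩ := hopen
      exact ⟨F, hF, fun τ hτ => MonoidHom.mem_ker.2 (hFχ τ hτ)⟩
    · intro q hq A hA τ hτ
      exact MonoidHom.mem_ker.2 (hunr q hq A hA τ hτ)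
  have h2 : σ ∈ χ.ker := by
    rw [h1]
    exact Subgroup.mem_top σ
  exact MonoidHom.mem_ker.1 h2

end concrete

end Fermat.Agent.S13.KM
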