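import Mathlib
import Fermat.Prelude.Def_FLTPrelim_FreyPackage
import Fermat.Prelude.Def_FLTPrelim_GaloisRep
import Fermat.Prelude.Def_FLTPrelim_Ramification
import Fermat.Prelude.Def_FLTPrelim_CofixedLine
import Fermat.Agent.Lib.Frobenius

/-!
# S13: abstract linear algebra for the glue

`V` is a vector space over `ZMod p` with at most `p²` elements, `G` acts on `V` additively and
`N` is a `G`-stable subspace with `N ≠ ⊥`, `N ≠ ⊤`.
-/

set_option autoImplicit false
set_option linter.unusedSectionVars false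

namespace Fermat.Agent.S13

section Abstract

variable {p : ℕ} [Fact p.Prime] {V : Type*} [AddCommGroup V] [Module (ZMod p) V]
  {G : Type*} [Group G] [DistribMulAction G V]

lemma smul_zmod_smul (σ : G) (c : ZMod p) (x : V) : σ • (c • x) = c • (σ • x) := by
  obtain ⟨n, rfl⟩ : ∃ n : ℕ, (n : ZMod p) = c := ⟨c.val, ZMod.natCast_zmod_val c⟩
  rw [Nat.cast_smul_eq_nsmul, Nat.cast_smul_eq_nsmul]
  exact map_nsmul (DistribSMul.toAddMonoidHom V σ) n x

/-- A proper nonzero subspace of a space with at most `p²` elements is a line with a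
one-dimensional complement. -/
lemma exists_basis_of_card_le [Finite V] (hcard : Nat.card V ≤ p ^ 2)
    (N : Submodule (ZMod p) V) (h0 : N ≠ ⊥) (h1 : N ≠ ⊤) :
    ∃ x₀ ∈ N, ∃ y : V, y ∉ N ∧ x₀ ≠ 0 ∧ ∀ x : V, ∃ a b : ZMod p, x = a • x₀ + b • y := by
  obtain ⟨x₀, hx₀N, hx₀⟩ := (Submodule.ne_bot_iff N).1 h0
  obtain ⟨y, hy⟩ : ∃ y : V, y ∉ N := by
    by_contra h
    push Not at h
    exact h1 (eq_top_iff.2 fun x _ => h x)
  refine ⟨x₀, hx₀N, y, hy, hx₀, ?_⟩
  let f : ZMod p × ZMod p → V := fun ab => ab.1 • x₀ + ab.2 • y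
  have hinj : Function.Injective f := by
    rintro ⟨a, b⟩ ⟨a', b'⟩ h
    simp only [f] at h
    have e : (a - a') • x₀ + (b - b') • y = 0 := by
      rw [sub_smul, sub_smul]
      have : a • x₀ - a' • x₀ + (b • y - b' • y) = (a • x₀ + b • y) - (a' • x₀ + b' • y) := by abel
      rw [this, h, sub_self]
    have hb : b - b' = 0 := by
      by_contra hb
      apply hy
      have e2 : y = (-(b - b')⁻¹ * (a - a')) • x₀ := by
        have h3 : (b - b') • y = -((a - a') • x₀) := eq_neg_of_add_eq_zero_right e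
        have h4 : y = (b - b')⁻¹ • ((b - b') • y) := by
          rw [smul_smul, inv_mul_cancel₀ hb, one_smul]
        rw [h4, h3, smul_neg, smul_smul, neg_mul, neg_smul]
      rw [e2]
      exact N.smul_mem _ hx₀N
    have ha : a - a' = 0 := by
      rw [hb, zero_smul, add_zero] at e
      rcases smul_eq_zero.1 e with h | h
      · exact h
      · exact absurd h hx₀
    rw [sub_eq_zero.1 ha, sub_eq_zero.1 hb]
  have hfin : Finite (ZMod p × ZMod p) := inferInstance
  have hc : Nat.card (ZMod p × ZMod p) = p ^ 2 := by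
    rw [Nat.card_prod, Nat.card_zmod, sq]
  have hsurj : Function.Surjective f := by
    have hle : Nat.card V ≤ Nat.card (ZMod p × ZMod p) := by rw [hc]; exact hcard
    exact (Function.Injective.bijective_of_nat_card_le hinj hle).2
  intro x
  obtain ⟨⟨a, b⟩, h⟩ := hsurj x
  exact ⟨a, b, h.symm⟩

/-- A unipotent element acts trivially on a stable line and on the quotient. -/
lemma unipotent_trivial [Finite V] (hcard : Nat.card V ≤ p ^ 2)
    (N : Submodule (ZMod p) V) (h0 : N ≠ ⊥) (h1 : N ≠ ⊤)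
    (σ : G) (hN : ∀ x ∈ N, σ • x ∈ N)
    (hu : ∀ x : V, σ • (σ • x - x) = σ • x - x) :
    (∀ x ∈ N, σ • x = x) ∧ ∀ x : V, σ • x - x ∈ N := by
  obtain ⟨x₀, hx₀N, y, hy, hx₀, hspan⟩ := exists_basis_of_card_le hcard N h0 h1
  have hline : ∀ x ∈ N, ∃ a : ZMod p, x = a • x₀ := by
    intro x hx
    obtain ⟨a, b, e⟩ := hspan x
    have hb : b = 0 := by
      by_contra hb
      apply hy
      have h3 : b • y = x - a • x₀ := by rw [e]; abel
      have h4 : y = b⁻¹ • (b • y) := by rw [smul_smul, inv_mul_cancel₀ hb, one_smul]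
      rw [h4, h3]
      exact N.smul_mem _ (N.sub_mem hx (N.smul_mem _ hx₀N))
    exact ⟨a, by rw [e, hb, zero_smul, add_zero]⟩
  -- action on the line
  have hfix₀ : σ • x₀ = x₀ := by
    obtain ⟨c, hc⟩ := hline _ (hN x₀ hx₀N)
    have h := hu x₀
    rw [hc] at h
    have e : σ • (c • x₀ - x₀) = (c * c - c) • x₀ := by
      rw [smul_sub, smul_zmod_smul, hc, smul_smul, sub_smul]
    rw [e] at h
    have e2 : ((c - 1) * (c - 1)) • x₀ = 0 := by
      have : ((c - 1) * (c - 1)) • x₀ = (c * c - c) • x₀ - (c • x₀ - x₀) := by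
        have h5 : (c - 1) * (c - 1) = (c * c - c) - (c - 1) := by ring
        rw [h5, sub_smul, sub_smul (c) 1 x₀, one_smul]
      rw [this, h, sub_self]
    rcases smul_eq_zero.1 e2 with h' | h'
    · have hc1 : c - 1 = 0 := by
        rcases mul_eq_zero.1 h' with h'' | h'' <;> exact h''
      rw [hc, sub_eq_zero.1 hc1, one_smul]
    · exact absurd h' hx₀
  have hfixN : ∀ x ∈ N, σ • x = x := by
    intro x hx
    obtain ⟨a, rfl⟩ := hline x hx
    rw [smul_zmod_smul, hfix₀]
  refine ⟨hfixN, ?_⟩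
  -- action on the quotient
  obtain ⟨c, d, hcd⟩ := hspan (σ • y)
  -- `σ y = c x₀ + d y`
  have hyN : σ • y - y ∈ N := by
    have h := hu y
    have e1 : σ • y - y = c • x₀ + (d - 1) • y := by
      rw [hcd, sub_smul, one_smul]; abel
    have e2 : σ • (σ • y - y) = c • x₀ + (d - 1) • (c • x₀ + d • y) := by
      rw [e1, smul_add, smul_zmod_smul, smul_zmod_smul, hfix₀, hcd]
    rw [e2, e1] at h
    have e3 : ((d - 1) * (d - 1)) • y = (-((d - 1) * c)) • x₀ := by
      have h6 : (d - 1) • (c • x₀ + d • y) = (d - 1) • y := by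
        have := add_left_cancel h
        exact this
      have h7 : ((d - 1) * (d - 1)) • y = (d - 1) • (c • x₀ + d • y) - (d - 1) • y
          - ((d - 1) * c) • x₀ := by
        rw [smul_add, smul_smul, smul_smul]
        have h8 : (d - 1) * (d - 1) = (d - 1) * d - (d - 1) := by ring
        rw [h8, sub_smul]
        abel
      rw [h7, h6, sub_self, zero_sub, neg_smul]
    have hd : d - 1 = 0 := by
      by_contra hd
      apply hy
      have hdd : (d - 1) * (d - 1) ≠ 0 := mul_ne_zero hd hd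
      have h4 : y = ((d - 1) * (d - 1))⁻¹ • (((d - 1) * (d - 1)) • y) := by
        rw [smul_smul, inv_mul_cancel₀ hdd, one_smul]
      rw [h4, e3]
      exact N.smul_mem _ (N.smul_mem _ hx₀N)
    rw [e1, hd, zero_smul, add_zero]
    exact N.smul_mem _ hx₀N
  intro x
  obtain ⟨a, b, rfl⟩ := hspan x
  have e : σ • (a • x₀ + b • y) - (a • x₀ + b • y) = b • (σ • y - y) := by
    rw [smul_add, smul_zmod_smul, smul_zmod_smul, hfix₀, smul_sub]; abel
  rw [e]
  exact N.smul_mem _ hyN

/-- The pointwise stabiliser of a subspace. -/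
def fixer (G : Type*) [Group G] [DistribMulAction G V] (N : Submodule (ZMod p) V) :
    Subgroup G where
  carrier := {σ | ∀ x ∈ N, σ • x = x}
  one_mem' := fun x _ => one_smul _ x
  mul_mem' := fun {a b} ha hb x hx => by rw [mul_smul, hb x hx, ha x hx]
  inv_mem' := fun {a} ha x hx => by
    rw [inv_smul_eq_iff]; exact (ha x hx).symm

/-- The subgroup acting trivially on the quotient by a stable subspace. -/
def cofixer (G : Type*) [Group G] [DistribMulAction G V] (N : Submodule (ZMod p) V)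
    (hN : ∀ σ : G, ∀ x ∈ N, σ • x ∈ N) : Subgroup G where
  carrier := {σ | ∀ x : V, σ • x - x ∈ N}
  one_mem' := fun x => by rw [one_smul, sub_self]; exact N.zero_mem
  mul_mem' := fun {a b} ha hb x => by
    have : (a * b) • x - x = a • (b • x - x) + (a • x - x) := by
      rw [mul_smul, smul_sub]; abel
    rw [this]; exact N.add_mem (hN a _ (hb x)) (ha x)
  inv_mem' := fun {a} ha x => by
    have : a⁻¹ • x - x = - (a⁻¹ • (a • x - x)) := by rw [smul_sub, inv_smul_smul]; abel
    rw [this]; exact N.neg_mem (hN a⁻¹ _ (ha x))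

lemma mem_fixer {N : Submodule (ZMod p) V} {σ : G} :
    σ ∈ fixer G N ↔ ∀ x ∈ N, σ • x = x := Iff.rfl

lemma mem_cofixer {N : Submodule (ZMod p) V} {hN : ∀ σ : G, ∀ x ∈ N, σ • x ∈ N} {σ : G} :
    σ ∈ cofixer G N hN ↔ ∀ x : V, σ • x - x ∈ N := Iff.rfl

lemma fixer_normal (N : Submodule (ZMod p) V) (hN : ∀ σ : G, ∀ x ∈ N, σ • x ∈ N) :
    (fixer G N).Normal := by
  refine ⟨fun σ hσ g x hx => ?_⟩
  rw [mul_smul, mul_smul, hσ _ (hN g⁻¹ x hx), smul_inv_smul]

lemma cofixer_normal (N : Submodule (ZMod p) V) (hN : ∀ σ : G, ∀ x ∈ N, σ • x ∈ N) :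
    (cofixer G N hN).Normal := by
  refine ⟨fun σ hσ g x => ?_⟩
  have : (g * σ * g⁻¹) • x - x = g • (σ • (g⁻¹ • x) - g⁻¹ • x) := by
    rw [mul_smul, mul_smul, smul_sub, smul_inv_smul]
  rw [this]
  exact hN g _ (hσ _)

end Abstract

end Fermat.Agent.S13
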