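import Fermat.Agent.S05.CompVieta

/-!
# S13 (K2): valuation bookkeeping for the two-slope model

The curve is `(y - s₁ x)(y - s₂ x) = x³ + a₄ x` with `δ = s₁ - s₂` a unit and `v a₄ < 1`
(no hypothesis on `v 2`).  A point is recorded by `x`, `u₁ = y - s₁ x`, `u₂ = y - s₂ x`; three
collinear points on `y = ℓ x + ν` are recorded by their abscissae and `L = ℓ - s₁`, through the
Vieta relations of the cubic.  The product formulas
`∏ (L Xᵢ + ν) = ν (ν² + a₄ L²)` replace all explicit addition formulas.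
-/

set_option autoImplicit false
set_option linter.unusedSectionVars false
set_option linter.unusedVariables false

namespace Fermat.Agent.S13.K2

open Fermat.Agent.S05.Vieta

variable {K : Type*} [Field K] {Γ₀ : Type*} [LinearOrderedCommGroupWithZero Γ₀]

section point

variable (v : Valuation K Γ₀)

/-- standing hypotheses: `δ` is a unit, `a₄` is small and nonzero -/
structure Hyp2 (δ a₄ : K) : Prop where
  d1 : v δ = 1
  a4 : v a₄ < 1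
  a40 : a₄ ≠ 0

/-- a point with abscissa `x` and branch coordinates `u₁ = y - s₁ x`, `u₂ = y - s₂ x` -/
structure Pt (δ a₄ x u₁ u₂ : K) : Prop where
  prod : u₁ * u₂ = x ^ 3 + a₄ * x
  diff : u₂ = u₁ + δ * x

variable {v} {δ a₄ x u₁ u₂ : K}

lemma Hyp2.h_ne (H : Hyp2 v δ a₄) : v a₄ ≠ 0 := (Valuation.ne_zero_iff v).2 H.a40

lemma Hyp2.h_pos (H : Hyp2 v δ a₄) : 0 < v a₄ := zero_lt_iff.2 H.h_ne

lemma Hyp2.neg (H : Hyp2 v δ a₄) : Hyp2 v (-δ) a₄ :=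
  ⟨by rw [Valuation.map_neg]; exact H.d1, H.a4, H.a40⟩

lemma Pt.swap (p : Pt δ a₄ x u₁ u₂) : Pt (-δ) a₄ x u₂ u₁ :=
  ⟨by rw [mul_comm]; exact p.prod, by rw [p.diff]; ring⟩

lemma Pt.v_diff (H : Hyp2 v δ a₄) (p : Pt δ a₄ x u₁ u₂) : v (u₂ - u₁) = v x := by
  rw [p.diff, add_sub_cancel_left, map_mul, H.d1, one_mul]

/-- if the two branch coordinates have different sizes, the larger one has the size of `x` -/
lemma Pt.prod_lt_of_ne (H : Hyp2 v δ a₄) (p : Pt δ a₄ x u₁ u₂) (hne : v u₁ ≠ v u₂) :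
    v u₁ * v u₂ < v x * v x ∧
      ((v u₂ < v x ∧ v u₁ = v x) ∨ (v u₁ < v x ∧ v u₂ = v x)) := by
  have hd := p.v_diff H
  rcases lt_or_gt_of_ne hne with h | h
  · have e : v u₂ = v x := by rw [← hd, v.map_sub_eq_of_lt_left h]
    have h1 : v u₁ < v x := by rw [← e]; exact h
    have hx0 : v x ≠ 0 := fun h0 => by rw [h0] at h1; exact absurd h1 (not_lt.2 zero_le)
    exact ⟨by rw [e]; exact mul_lt_mul_sw h1 le_rfl hx0, Or.inr ⟨h1, e⟩⟩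
  · have e : v u₁ = v x := by rw [← hd, v.map_sub_eq_of_lt_right h]
    have h1 : v u₂ < v x := by rw [← e]; exact h
    have hx0 : v x ≠ 0 := fun h0 => by rw [h0] at h1; exact absurd h1 (not_lt.2 zero_le)
    exact ⟨by rw [e]; exact mul_lt_mul_ws le_rfl h1 hx0, Or.inl ⟨h1, e⟩⟩

/-- far points: `v x ≥ 1` -/
lemma Pt.far (H : Hyp2 v δ a₄) (p : Pt δ a₄ x u₁ u₂) (hx : 1 ≤ v x) :
    v u₁ = v u₂ ∧ v u₁ ^ 2 = v x ^ 3 := by
  have hx0 : v x ≠ 0 := fun h0 => by rw [h0] at hx; exact absurd hx (not_le.2 zero_lt_one)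
  have h3 : v x ≤ v x ^ 3 := by
    calc v x = v x * 1 := (mul_one _).symm
      _ ≤ v x * v x ^ 2 := mul_le_mul' le_rfl (one_le_pow₀ hx)
      _ = v x ^ 3 := by rw [pow_succ' (v x) 2]
  have hp : v u₁ * v u₂ = v x ^ 3 := by
    rw [← map_mul, p.prod, v.map_add_eq_of_lt_left, map_pow]
    rw [map_mul, map_pow]
    exact lt_of_lt_of_le (mul_lt_right_of_lt_one H.a4 hx0) h3
  have heq : v u₁ = v u₂ := by
    by_contra hne
    have h1 := (p.prod_lt_of_ne H hne).1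
    rw [hp] at h1
    have h2 : v x * v x ≤ v x ^ 3 := by
      calc v x * v x = v x * v x * 1 := (mul_one _).symm
        _ ≤ v x * v x * v x := mul_le_mul' le_rfl hx
        _ = v x ^ 3 := by rw [pow_succ, sq]
    exact absurd h1 (not_lt.2 h2)
  exact ⟨heq, by rw [sq, ← hp, ← heq]⟩

/-- the two branches at the node -/
lemma Pt.dich (H : Hyp2 v δ a₄) (p : Pt δ a₄ x u₁ u₂) (hx : v x < 1) (hx' : v a₄ < v x) :
    (v u₂ < v x ∧ v u₁ = v x) ∨ (v u₁ < v x ∧ v u₂ = v x) := by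
  have hx0 : v x ≠ 0 := fun h0 => by rw [h0] at hx'; exact absurd hx' (not_lt.2 zero_le)
  have h1 : v (x ^ 2 + a₄) < v x :=
    v_add_lt v (by rw [map_pow]; exact sq_lt_self hx hx0) hx'
  have hp : v u₁ * v u₂ < v x * v x := by
    rw [← map_mul, p.prod, show x ^ 3 + a₄ * x = x * (x ^ 2 + a₄) by ring, map_mul]
    exact mul_lt_mul_ws le_rfl h1 hx0
  have hne : v u₁ ≠ v u₂ := by
    intro he
    have hd := p.v_diff H
    have h2 : v x ≤ v u₁ := by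
      rw [← hd]
      exact v_sub_le v he.ge le_rfl
    have h3 : v x * v x ≤ v u₁ * v u₂ := by
      rw [← he]; exact mul_le_mul' h2 h2
    exact absurd hp (not_lt.2 h3)
  exact (p.prod_lt_of_ne H hne).2

/-- middle points: `v x ≤ v a₄` -/
lemma Pt.mid (H : Hyp2 v δ a₄) (p : Pt δ a₄ x u₁ u₂) (hx : v x ≤ v a₄) :
    v u₁ = v u₂ ∧ v u₁ ^ 2 = v x * v a₄ := by
  have hx1 : v x < 1 := lt_of_le_of_lt hx H.a4
  have h2 : v (x ^ 2) < v a₄ := by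
    rw [map_pow, sq]
    calc v x * v x ≤ v a₄ * v a₄ := mul_le_mul' hx hx
      _ < v a₄ := mul_lt_right_of_lt_one H.a4 H.h_ne
  have hp : v u₁ * v u₂ = v x * v a₄ := by
    rw [← map_mul, p.prod, show x ^ 3 + a₄ * x = x * (a₄ + x ^ 2) by ring, map_mul,
      v.map_add_eq_of_lt_left h2]
  have heq : v u₁ = v u₂ := by
    by_contra hne
    have h1 := (p.prod_lt_of_ne H hne).1
    rw [hp] at h1
    exact absurd h1 (not_lt.2 (mul_le_mul' le_rfl hx))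
  exact ⟨heq, by rw [sq, ← hp, ← heq]⟩

lemma Pt.mid_le (H : Hyp2 v δ a₄) (p : Pt δ a₄ x u₁ u₂) (hx : v x ≤ v a₄) :
    v u₁ ≤ v a₄ ∧ v u₂ ≤ v a₄ := by
  obtain ⟨he, hs⟩ := p.mid H hx
  have h1 : v u₁ ≤ v a₄ := by
    apply Fermat.Agent.S05.Vieta.le_of_sq_le_sq
    rw [hs, sq]
    exact mul_le_mul' hx le_rfl
  exact ⟨h1, he ▸ h1⟩

end point

/-! ## Three collinear points -/

section triple

variable (v : Valuation K Γ₀)

/-- Vieta relations for the three abscissae on the line `y = ℓ x + ν`, `L = ℓ - s₁` -/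
structure Tri (δ a₄ L ν X₁ X₂ X₃ : K) : Prop where
  V1 : X₁ + X₂ + X₃ = L * (L + δ)
  V2 : X₁ * X₂ + X₁ * X₃ + X₂ * X₃ = a₄ - (2 * L + δ) * ν
  V3 : X₁ * X₂ * X₃ = ν ^ 2

variable {v} {δ a₄ L ν X₁ X₂ X₃ : K}

lemma Tri.swap12 (T : Tri δ a₄ L ν X₁ X₂ X₃) : Tri δ a₄ L ν X₂ X₁ X₃ :=
  ⟨by rw [← T.V1]; ring, by rw [← T.V2]; ring, by rw [← T.V3]; ring⟩

lemma Tri.swap23 (T : Tri δ a₄ L ν X₁ X₂ X₃) : Tri δ a₄ L ν X₁ X₃ X₂ :=
  ⟨by rw [← T.V1]; ring, by rw [← T.V2]; ring, by rw [← T.V3]; ring⟩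

lemma Tri.swap13 (T : Tri δ a₄ L ν X₁ X₂ X₃) : Tri δ a₄ L ν X₃ X₂ X₁ :=
  ⟨by rw [← T.V1]; ring, by rw [← T.V2]; ring, by rw [← T.V3]; ring⟩

/-- exchanging the two slopes -/
lemma Tri.flip (T : Tri δ a₄ L ν X₁ X₂ X₃) : Tri (-δ) a₄ (L + δ) ν X₁ X₂ X₃ :=
  ⟨by rw [T.V1]; ring, by rw [T.V2]; ring, T.V3⟩

lemma Tri.pt₁ (T : Tri δ a₄ L ν X₁ X₂ X₃) : Pt δ a₄ X₁ (L * X₁ + ν) ((L + δ) * X₁ + ν) :=
  ⟨by linear_combination (-X₁ ^ 2) * T.V1 + X₁ * T.V2 - T.V3, by ring⟩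

lemma Tri.pt₂ (T : Tri δ a₄ L ν X₁ X₂ X₃) : Pt δ a₄ X₂ (L * X₂ + ν) ((L + δ) * X₂ + ν) :=
  T.swap12.pt₁

lemma Tri.pt₃ (T : Tri δ a₄ L ν X₁ X₂ X₃) : Pt δ a₄ X₃ (L * X₃ + ν) ((L + δ) * X₃ + ν) :=
  T.swap13.pt₁

/-- product formula for the first branch coordinate -/
lemma Tri.P1 (T : Tri δ a₄ L ν X₁ X₂ X₃) :
    (L * X₁ + ν) * (L * X₂ + ν) * (L * X₃ + ν) = ν * (ν ^ 2 + a₄ * L ^ 2) := by
  linear_combination L ^ 3 * T.V3 + L ^ 2 * ν * T.V2 + L * ν ^ 2 * T.V1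

/-- product formula for the second branch coordinate -/
lemma Tri.P2 (T : Tri δ a₄ L ν X₁ X₂ X₃) :
    ((L + δ) * X₁ + ν) * ((L + δ) * X₂ + ν) * ((L + δ) * X₃ + ν) =
      ν * (ν ^ 2 + a₄ * (L + δ) ^ 2) := by
  have := T.flip.P1
  simpa using this

/-- the defect formula, numerator -/
lemma Tri.Pdiff (T : Tri δ a₄ L ν X₁ X₂ X₃) :
    (L * X₁ + ν) * (L * X₂ + ν) * (L * X₃ + ν) -
      ((L + δ) * X₁ + ν) * ((L + δ) * X₂ + ν) * ((L + δ) * X₃ + ν) =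
      -(ν * a₄ * δ * (2 * L + δ)) := by
  rw [T.P1, T.P2]; ring

/-- the sizes of the two slopes `L`, `L + δ` -/
lemma lam_cases (H : Hyp2 v δ a₄) (L : K) :
    (v L = v (L + δ) ∧ 1 ≤ v L) ∨ (v L < 1 ∧ v (L + δ) = 1) ∨ (v (L + δ) < 1 ∧ v L = 1) := by
  rcases lt_trichotomy (v L) 1 with h | h | h
  · right; left
    refine ⟨h, ?_⟩
    rw [v.map_add_eq_of_lt_right (by rw [H.d1]; exact h), H.d1]
  · rcases lt_or_eq_of_le (v_add_le v h.le H.d1.le : v (L + δ) ≤ 1) with h' | h'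
    · right; right; exact ⟨h', h⟩
    · left; exact ⟨by rw [h, h'], h.ge⟩
  · left
    refine ⟨?_, h.le⟩
    rw [v.map_add_eq_of_lt_left (by rw [H.d1]; exact h)]

lemma v_two_L_le (H : Hyp2 v δ a₄) (L : K) : v (2 * L + δ) ≤ max (v L) (v (L + δ)) := by
  rw [show 2 * L + δ = L + (L + δ) by ring]
  exact v.map_add _ _

/-- **Lemma A**: exactly one of the three points reducing to the node is impossible. -/
lemma no_single (H : Hyp2 v δ a₄) (T : Tri δ a₄ L ν X₁ X₂ X₃)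
    (h₁ : v X₁ < 1) (h₂ : 1 ≤ v X₂) (h₃ : 1 ≤ v X₃) : False := by
  set M := max (v X₂) (v X₃) with hM
  have hM1 : 1 ≤ M := le_max_of_le_left h₂
  have hM0 : M ≠ 0 := fun h0 => by rw [h0] at hM1; exact absurd hM1 (not_le.2 zero_lt_one)
  have h23 : M ≤ v X₂ * v X₃ := max_le (le_mul_left_of_one_le h₃) (le_mul_right_of_one_le h₂)
  have hsum : v (X₂ + X₃) ≤ M := v.map_add X₂ X₃
  have h1 : v (X₁ * (X₂ + X₃)) < v (X₂ * X₃) := by
    rw [map_mul, map_mul]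
    calc v X₁ * v (X₂ + X₃) ≤ v X₁ * M := mul_le_mul' le_rfl hsum
      _ < M := mul_lt_right_of_lt_one h₁ hM0
      _ ≤ v X₂ * v X₃ := h23
  have he2 : v (a₄ - (2 * L + δ) * ν) = v X₂ * v X₃ := by
    rw [← T.V2, show X₁ * X₂ + X₁ * X₃ + X₂ * X₃ = X₂ * X₃ + X₁ * (X₂ + X₃) by ring,
      v.map_add_eq_of_lt_left h1, map_mul]
  have h231 : 1 ≤ v X₂ * v X₃ := hM1.trans h23
  have hPi0 : v X₂ * v X₃ ≠ 0 := fun h0 => by
    rw [h0] at h231; exact absurd h231 (not_le.2 zero_lt_one)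
  have hlν : v (2 * L + δ) * v ν = v X₂ * v X₃ := by
    have hlt : v a₄ < v (a₄ - (2 * L + δ) * ν) := by rw [he2]; exact lt_of_lt_of_le H.a4 h231
    have : v (-((2 * L + δ) * ν)) = v (a₄ - (2 * L + δ) * ν) :=
      v_eq_of_add_eq v (by ring) hlt
    rw [← he2, ← this, Valuation.map_neg, map_mul]
  have hν2 : v ν * v ν = v X₁ * (v X₂ * v X₃) := by
    rw [← map_mul, ← map_mul, ← map_mul, ← mul_assoc, T.V3, sq]
  -- key product relation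
  have hkey : v (2 * L + δ) ^ 2 * v X₁ = v X₂ * v X₃ := by
    have e : (v (2 * L + δ) ^ 2 * v X₁) * (v X₂ * v X₃) = (v X₂ * v X₃) * (v X₂ * v X₃) := by
      calc (v (2 * L + δ) ^ 2 * v X₁) * (v X₂ * v X₃)
          = (v (2 * L + δ) * v (2 * L + δ)) * (v X₁ * (v X₂ * v X₃)) := by rw [sq]; ac_rfl
        _ = (v (2 * L + δ) * v (2 * L + δ)) * (v ν * v ν) := by rw [hν2]
        _ = (v (2 * L + δ) * v ν) * (v (2 * L + δ) * v ν) := by ac_rfl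
        _ = (v X₂ * v X₃) * (v X₂ * v X₃) := by rw [hlν]
    exact (mul_left_inj' hPi0).1 e
  set Λ := max (v L) (v (L + δ)) with hΛ
  have hΛle : v (2 * L + δ) ≤ Λ := v_two_L_le H L
  -- `Λ > 1`
  have hΛ1 : 1 < Λ := by
    by_contra hle
    rw [not_lt] at hle
    have : v (2 * L + δ) ^ 2 * v X₁ < 1 := by
      calc v (2 * L + δ) ^ 2 * v X₁ ≤ 1 * v X₁ :=
            mul_le_mul' (pow_le_one₀ zero_le (hΛle.trans hle)) le_rfl
        _ = v X₁ := one_mul _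
        _ < 1 := h₁
    rw [hkey] at this
    exact absurd h231 (not_le.2 this)
  have hΛ0 : Λ ≠ 0 := fun h0 => by rw [h0] at hΛ1; exact absurd hΛ1 (not_lt.2 zero_le)
  -- both slopes have size `Λ`
  have hboth : v L = Λ ∧ v (L + δ) = Λ := by
    rcases lam_cases H L with ⟨e, -⟩ | ⟨a, b⟩ | ⟨a, b⟩
    · exact ⟨by rw [hΛ, ← e, max_self], by rw [hΛ, ← e, max_self]⟩
    · exfalso
      have : Λ ≤ 1 := max_le a.le b.le
      exact absurd hΛ1 (not_lt.2 this)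
    · exfalso
      have : Λ ≤ 1 := max_le b.le a.le
      exact absurd hΛ1 (not_lt.2 this)
  have hV1 : Λ * Λ ≤ M := by
    have e : v (X₁ + X₂ + X₃) = Λ * Λ := by
      rw [T.V1, map_mul, hboth.1, hboth.2]
    rw [← e, show X₁ + X₂ + X₃ = X₁ + (X₂ + X₃) by ring]
    exact v_add_le v (h₁.le.trans hM1) hsum
  have : Λ * Λ < Λ * Λ := by
    calc Λ * Λ ≤ M := hV1
      _ ≤ v X₂ * v X₃ := h23
      _ = v (2 * L + δ) ^ 2 * v X₁ := hkey.symm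
      _ ≤ Λ ^ 2 * v X₁ := mul_le_mul' (pow_le_pow_left₀ zero_le hΛle 2) le_rfl
      _ < Λ ^ 2 := mul_lt_left_of_lt_one h₁ (pow_ne_zero 2 hΛ0)
      _ = Λ * Λ := sq Λ
  exact lt_irrefl _ this


/-! ### Two points at the node -/

/-- two points at the node force both slopes to have the same size `Λ ≥ 1` -/
lemma slopes_of_two (H : Hyp2 v δ a₄) (T : Tri δ a₄ L ν X₁ X₂ X₃)
    (h₁ : v X₁ < 1) (h₂ : v X₂ < 1) (h₃ : 1 ≤ v X₃) :
    v L = v (L + δ) ∧ 1 ≤ v L ∧ v L * v L = v X₃ := by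
  have hS1 : v (X₁ + X₂) < 1 := v_add_lt v h₁ h₂
  have hV : v L * v (L + δ) = v X₃ := by
    rw [← map_mul, ← T.V1, show X₁ + X₂ + X₃ = X₃ + (X₁ + X₂) by ring]
    exact v.map_add_eq_of_lt_left (lt_of_lt_of_le hS1 h₃)
  rcases lam_cases H L with ⟨e, h1⟩ | ⟨a, b⟩ | ⟨a, b⟩
  · exact ⟨e, h1, by rw [← hV, ← e]⟩
  · exfalso
    rw [b, mul_one] at hV
    rw [hV] at a
    exact absurd h₃ (not_le.2 a)
  · exfalso
    rw [b, one_mul] at hV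
    rw [hV] at a
    exact absurd h₃ (not_le.2 a)

/-- a non-middle nodal point on a line whose slopes have size `Λ ≥ 1` -/
lemma nu_of_nonmid (H : Hyp2 v δ a₄) {x : K} (p : Pt δ a₄ x (L * x + ν) ((L + δ) * x + ν))
    (he : v L = v (L + δ)) (hL1 : 1 ≤ v L) (hx : v x < 1) (kx : v a₄ < v x) :
    v ν = v L * v x := by
  have hx0 : v x ≠ 0 := fun h0 => by rw [h0] at kx; exact absurd kx (not_lt.2 zero_le)
  rcases p.dich H hx kx with ⟨hs, -⟩ | ⟨hs, -⟩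
  · have e : ν = -((L + δ) * x) + ((L + δ) * x + ν) := by ring
    have hdom : v ((L + δ) * x + ν) < v (-((L + δ) * x)) := by
      rw [Valuation.map_neg, map_mul, ← he]
      exact lt_of_lt_of_le hs (le_mul_right_of_one_le hL1)
    rw [e, v.map_add_eq_of_lt_left hdom, Valuation.map_neg, map_mul, ← he]
  · have e : ν = -(L * x) + (L * x + ν) := by ring
    have hdom : v (L * x + ν) < v (-(L * x)) := by
      rw [Valuation.map_neg, map_mul]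
      exact lt_of_lt_of_le hs (le_mul_right_of_one_le hL1)
    rw [e, v.map_add_eq_of_lt_left hdom, Valuation.map_neg, map_mul]

/-- a middle point on a line whose first slope has size `≥ 1` -/
lemma nu_of_mid (H : Hyp2 v δ a₄) {x : K} (p : Pt δ a₄ x (L * x + ν) ((L + δ) * x + ν))
    (hL1 : 1 ≤ v L) (hx : v x ≤ v a₄) : v ν ≤ v L * v a₄ := by
  have e : ν = (L * x + ν) - L * x := by ring
  rw [e]
  refine v_sub_le v ?_ ?_
  · exact (p.mid_le H hx).1.trans (le_mul_right_of_one_le hL1)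
  · rw [map_mul]; exact mul_le_mul' le_rfl hx

/-- core of the same-sign exclusion, for one slope `M` -/
lemma same_sign_aux (H : Hyp2 v δ a₄) {M : K} (hM1 : 1 ≤ v M)
    (hP : (M * X₁ + ν) * (M * X₂ + ν) * (M * X₃ + ν) = ν * (ν ^ 2 + a₄ * M ^ 2))
    (hν : v ν = v M * v X₁) (e₁ : v (M * X₁ + ν) = v X₁) (e₂ : v (M * X₂ + ν) = v X₁)
    (e₃ : v (M * X₃ + ν) ^ 2 = (v M * v M) ^ 3) (hξ1 : v X₁ < 1) (hξh : v a₄ < v X₁) :
    False := by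
  have hx0 : v X₁ ≠ 0 := fun h0 => by rw [h0] at hξh; exact absurd hξh (not_lt.2 zero_le)
  have hM0 : v M ≠ 0 := fun h0 => by rw [h0] at hM1; exact absurd hM1 (not_le.2 zero_lt_one)
  have h3 : v (M * X₃ + ν) = v M ^ 3 := by
    apply eq_of_sq_eq_sq
    rw [e₃, ← sq, ← pow_mul, ← pow_mul]
  have hL : v ((M * X₁ + ν) * (M * X₂ + ν) * (M * X₃ + ν)) = v X₁ * v X₁ * v M ^ 3 := by
    rw [map_mul, map_mul, e₁, e₂, h3]
  have hsmall : v (ν ^ 2 + a₄ * M ^ 2) < v M ^ 2 * v X₁ := by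
    refine v_add_lt v ?_ ?_
    · rw [map_pow, hν, mul_pow]
      exact mul_lt_mul_ws le_rfl (sq_lt_self hξ1 hx0) (pow_ne_zero 2 hM0)
    · rw [map_mul, map_pow, mul_comm]
      exact mul_lt_mul_ws le_rfl hξh (pow_ne_zero 2 hM0)
  have hR : v (ν * (ν ^ 2 + a₄ * M ^ 2)) < v X₁ * v X₁ * v M ^ 3 := by
    rw [map_mul, hν]
    calc v M * v X₁ * v (ν ^ 2 + a₄ * M ^ 2) < v M * v X₁ * (v M ^ 2 * v X₁) :=
          mul_lt_mul_ws le_rfl hsmall (mul_ne_zero hM0 hx0)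
      _ = v X₁ * v X₁ * v M ^ 3 := by rw [pow_succ' (v M) 2]; ac_rfl
  rw [hP] at hL
  rw [hL] at hR
  exact lt_irrefl _ hR

/-- **Lemma B**: exactly two points at the node. -/
lemma two_nodal (H : Hyp2 v δ a₄) (T : Tri δ a₄ L ν X₁ X₂ X₃)
    (h₁ : v X₁ < 1) (h₂ : v X₂ < 1) (h₃ : 1 ≤ v X₃) :
    (v X₁ ≤ v a₄ ∧ v X₂ ≤ v a₄) ∨
    (v a₄ < v X₁ ∧ v a₄ < v X₂ ∧ v X₁ = v X₂ ∧
      ((v ((L + δ) * X₁ + ν) < v X₁ ∧ v (L * X₂ + ν) < v X₂) ∨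
       (v (L * X₁ + ν) < v X₁ ∧ v ((L + δ) * X₂ + ν) < v X₂))) := by
  obtain ⟨he, hL1, hLL⟩ := slopes_of_two H T h₁ h₂ h₃
  have hL0 : v L ≠ 0 := fun h0 => by rw [h0] at hL1; exact absurd hL1 (not_le.2 zero_lt_one)
  have cancel : ∀ {a b : Γ₀}, v L * a ≤ v L * b → a ≤ b := by
    intro a b hab
    by_contra hlt
    rw [not_le] at hlt
    exact absurd hab (not_le.2 (mul_lt_mul_ws le_rfl hlt hL0))
  have f₃ := T.pt₃.far H h₃
  rcases le_or_gt (v X₁) (v a₄) with m₁ | k₁ <;> rcases le_or_gt (v X₂) (v a₄) with m₂ | k₂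
  · exact Or.inl ⟨m₁, m₂⟩
  · exfalso
    have a := nu_of_nonmid H T.pt₂ he hL1 h₂ k₂
    have b := nu_of_mid H T.pt₁ hL1 m₁
    rw [a] at b
    exact absurd (cancel b) (not_le.2 k₂)
  · exfalso
    have a := nu_of_nonmid H T.pt₁ he hL1 h₁ k₁
    have b := nu_of_mid H T.pt₂ hL1 m₂
    rw [a] at b
    exact absurd (cancel b) (not_le.2 k₁)
  · right
    have a := nu_of_nonmid H T.pt₁ he hL1 h₁ k₁
    have b := nu_of_nonmid H T.pt₂ he hL1 h₂ k₂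
    have heq : v X₁ = v X₂ := by
      rw [a] at b
      exact le_antisymm (cancel b.le) (cancel b.ge)
    refine ⟨k₁, k₂, heq, ?_⟩
    rcases T.pt₁.dich H h₁ k₁ with ⟨hs₁, hb₁⟩ | ⟨hs₁, hb₁⟩ <;>
      rcases T.pt₂.dich H h₂ k₂ with ⟨hs₂, hb₂⟩ | ⟨hs₂, hb₂⟩
    · -- both have the second branch small: use the first product formula
      exfalso
      refine same_sign_aux H hL1 T.P1 a hb₁ (by rw [hb₂, heq]) ?_ h₁ k₁
      rw [f₃.2, hLL]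
    · exact Or.inl ⟨hs₁, hs₂⟩
    · exact Or.inr ⟨hs₁, hs₂⟩
    · -- both have the first branch small: use the second product formula
      exfalso
      have hL1' : 1 ≤ v (L + δ) := he ▸ hL1
      refine same_sign_aux H hL1' T.P2 (by rw [← he]; exact a) hb₁ (by rw [hb₂, heq]) ?_ h₁ k₁
      rw [← f₃.1, f₃.2, ← he, hLL]


/-! ### The component representative -/

variable (v) in
/-- the component representative of a point with abscissa `x` and second branch coordinate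
`u₂` -/
noncomputable def cmp2 (a₄ x u₂ : K) : Γ₀ :=
  if 1 ≤ v x then 1
  else if v x ≤ v a₄ then v a₄
  else if v u₂ < v x then v x
  else (v x)⁻¹

variable {x u₁ u₂ : K}

lemma cmp2_far (hx : 1 ≤ v x) : cmp2 v a₄ x u₂ = 1 := by
  rw [cmp2, if_pos hx]

lemma cmp2_mid (H : Hyp2 v δ a₄) (hx : v x ≤ v a₄) : cmp2 v a₄ x u₂ = v a₄ := by
  rw [cmp2, if_neg (not_le.2 (lt_of_le_of_lt hx H.a4)), if_pos hx]

lemma cmp2_plus (hx : v x < 1) (kx : v a₄ < v x) (hs : v u₂ < v x) :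
    cmp2 v a₄ x u₂ = v x := by
  rw [cmp2, if_neg (not_le.2 hx), if_neg (not_le.2 kx), if_pos hs]

lemma cmp2_minus (hx : v x < 1) (kx : v a₄ < v x) (hs : v u₂ = v x) :
    cmp2 v a₄ x u₂ = (v x)⁻¹ := by
  rw [cmp2, if_neg (not_le.2 hx), if_neg (not_le.2 kx), if_neg (by rw [hs]; exact lt_irrefl _)]

lemma cmp2_ne_zero (H : Hyp2 v δ a₄) : cmp2 v a₄ x u₂ ≠ 0 := by
  unfold cmp2
  split_ifs with h1 h2 h3
  · exact one_ne_zero
  · exact H.h_ne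
  · rw [not_le] at h2
    exact fun h0 => by rw [h0] at h2; exact absurd h2 (not_lt.2 zero_le)
  · rw [not_le] at h2
    exact inv_ne_zero fun h0 => by rw [h0] at h2; exact absurd h2 (not_lt.2 zero_le)

/-- exchanging the two branches inverts the component, up to `h²` -/
lemma cmp2_swap (H : Hyp2 v δ a₄) (p : Pt δ a₄ x u₁ u₂) :
    ∃ j : ℤ, cmp2 v a₄ x u₁ = (cmp2 v a₄ x u₂)⁻¹ * v a₄ ^ (2 * j) := by
  rcases le_or_gt 1 (v x) with hx | hx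
  · exact ⟨0, by rw [cmp2_far hx, cmp2_far hx]; simp⟩
  rcases le_or_gt (v x) (v a₄) with mx | kx
  · refine ⟨1, ?_⟩
    rw [cmp2_mid H mx, cmp2_mid H mx, mul_one, zpow_ofNat, sq, ← mul_assoc,
      inv_mul_cancel₀ H.h_ne, one_mul]
  · refine ⟨0, ?_⟩
    rw [mul_zero, zpow_zero, mul_one]
    rcases p.dich H hx kx with ⟨h1, h2⟩ | ⟨h1, h2⟩
    · rw [cmp2_plus hx kx h1, cmp2_minus hx kx h2]
    · rw [cmp2_minus hx kx h2, inv_inv, cmp2_plus hx kx h1]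

/-! ### Three points at the node, standard position `v L = 1`, `v (L + δ) < 1` -/

variable (v) in
/-- class `A`: non-middle, second branch small -/
def IsA (δ a₄ L ν x : K) : Prop :=
  v a₄ < v x ∧ v ν < v x ∧ v ((L + δ) * x + ν) < v x ∧ v (L * x + ν) = v x

variable (v) in
/-- class `B`: non-middle, first branch small -/
def IsB (δ a₄ L ν x : K) : Prop :=
  v a₄ < v x ∧ v ν = v x ∧ v (L * x + ν) < v x ∧ v ((L + δ) * x + ν) = v x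

variable (v) in
/-- class `C`: middle -/
def IsC (a₄ ν x : K) : Prop := v x ≤ v a₄ ∧ v ν ≤ v a₄

lemma classify (H : Hyp2 v δ a₄) (p : Pt δ a₄ x (L * x + ν) ((L + δ) * x + ν))
    (hx : v x < 1) (hL' : v (L + δ) < 1) :
    IsA v δ a₄ L ν x ∨ IsB v δ a₄ L ν x ∨ IsC v a₄ ν x := by
  have e : ν = ((L + δ) * x + ν) - (L + δ) * x := by ring
  rcases le_or_gt (v x) (v a₄) with mx | kx
  · right; right
    refine ⟨mx, ?_⟩
    rw [e]
    refine v_sub_le v (p.mid_le H mx).2 ?_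
    rw [map_mul]
    exact (mul_le_right_of_le_one hL'.le).trans mx
  · have hx0 : v x ≠ 0 := fun h0 => by rw [h0] at kx; exact absurd kx (not_lt.2 zero_le)
    have hsm : v ((L + δ) * x) < v x := by
      rw [map_mul]; exact mul_lt_right_of_lt_one hL' hx0
    rcases p.dich H hx kx with ⟨h1, h2⟩ | ⟨h1, h2⟩
    · left
      refine ⟨kx, ?_, h1, h2⟩
      rw [e]
      exact v_sub_lt v h1 hsm
    · right; left
      refine ⟨kx, ?_, h1, h2⟩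
      rw [e, v.map_sub_eq_of_lt_left (by rw [h2]; exact hsm), h2]

lemma cmp2_A (hx : v x < 1) (a : IsA v δ a₄ L ν x) :
    cmp2 v a₄ x ((L + δ) * x + ν) = v x := cmp2_plus hx a.1 a.2.2.1

lemma cmp2_B (hx : v x < 1) (b : IsB v δ a₄ L ν x) :
    cmp2 v a₄ x ((L + δ) * x + ν) = (v x)⁻¹ := cmp2_minus hx b.1 b.2.2.2

lemma cmp2_C (H : Hyp2 v δ a₄) (c : IsC v a₄ ν x) :
    cmp2 v a₄ x ((L + δ) * x + ν) = v a₄ := cmp2_mid H c.1

variable (v) in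
lemma v_nu_sq (T : Tri δ a₄ L ν X₁ X₂ X₃) : v ν * v ν = v X₁ * v X₂ * v X₃ := by
  rw [← map_mul, ← map_mul, ← map_mul, T.V3, sq]

/-- a point of class `B` forces the other two to be of class `A` -/
lemma shape_B (H : Hyp2 v δ a₄) (T : Tri δ a₄ L ν X₁ X₂ X₃)
    (h₁ : v X₁ < 1) (h₂ : v X₂ < 1) (h₃ : v X₃ < 1) (hL' : v (L + δ) < 1)
    (b₁ : IsB v δ a₄ L ν X₁) :
    IsA v δ a₄ L ν X₂ ∧ IsA v δ a₄ L ν X₃ ∧ v X₂ * v X₃ = v X₁ := by
  have hx0 : v X₁ ≠ 0 := fun h0 => by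
    have := b₁.1; rw [h0] at this; exact absurd this (not_lt.2 zero_le)
  have hV := v_nu_sq v T
  rw [b₁.2.1] at hV
  have hprod : v X₂ * v X₃ = v X₁ := by
    have : v X₁ * (v X₂ * v X₃) = v X₁ * v X₁ := by rw [hV]; ac_rfl
    exact (mul_right_inj' hx0).1 this
  have key : ∀ {x y : K}, v x * v y = v X₁ → v x < 1 → v y < 1 →
      (IsA v δ a₄ L ν x ∨ IsB v δ a₄ L ν x ∨ IsC v a₄ ν x) → IsA v δ a₄ L ν x := by
    intro x y hxy hx hy hcl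
    rcases hcl with a | b | c
    · exact a
    · exfalso
      have : v x = v X₁ := by rw [← b.2.1, b₁.2.1]
      rw [this] at hxy
      have hy1 : v y = 1 := by
        have : v X₁ * v y = v X₁ * 1 := by rw [hxy, mul_one]
        exact (mul_right_inj' hx0).1 this
      rw [hy1] at hy
      exact lt_irrefl _ hy
    · exfalso
      have : v X₁ ≤ v a₄ := by
        rw [← hxy]
        exact (mul_le_left_of_le_one hy.le).trans c.1
      exact absurd b₁.1 (not_lt.2 this)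
  exact ⟨key hprod h₂ h₃ (classify H T.pt₂ h₂ hL'),
    key (by rw [mul_comm]; exact hprod) h₃ h₂ (classify H T.pt₃ h₃ hL'), hprod⟩

lemma v_two_L_std (hL : v L = 1) (hL' : v (L + δ) < 1) : v (2 * L + δ) = 1 := by
  rw [show 2 * L + δ = L + (L + δ) by ring, v.map_add_eq_of_lt_left (by rw [hL]; exact hL'), hL]

/-- three points of class `A` -/
lemma shape_AAA (H : Hyp2 v δ a₄) (T : Tri δ a₄ L ν X₁ X₂ X₃)
    (h₁ : v X₁ < 1) (hL : v L = 1)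
    (a₁ : IsA v δ a₄ L ν X₁) (a₂ : IsA v δ a₄ L ν X₂) (a₃ : IsA v δ a₄ L ν X₃) :
    v X₁ * v X₂ * v X₃ = v a₄ ^ 2 := by
  have hV := v_nu_sq v T
  have ne0 : ∀ {x : K}, v a₄ < v x → v x ≠ 0 := fun {x} k h0 => by
    rw [h0] at k; exact absurd k (not_lt.2 zero_le)
  have hν0 : v ν ≠ 0 := by
    intro h0
    rw [h0, mul_zero] at hV
    exact mul_ne_zero (mul_ne_zero (ne0 a₁.1) (ne0 a₂.1)) (ne0 a₃.1) hV.symm
  have hν1 : v ν < 1 := a₁.2.1.trans h₁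
  have hP : v X₁ * v X₂ * v X₃ = v ν * v (ν ^ 2 + a₄ * L ^ 2) := by
    have := congrArg v T.P1
    rw [map_mul, map_mul, a₁.2.2.2, a₂.2.2.2, a₃.2.2.2, map_mul] at this
    exact this
  rw [← hV] at hP
  have h1 : v (ν ^ 2 + a₄ * L ^ 2) = v ν := ((mul_right_inj' hν0).1 hP).symm
  have h2 : v (ν ^ 2) < v (ν ^ 2 + a₄ * L ^ 2) := by
    rw [h1, map_pow]; exact sq_lt_self hν1 hν0
  have h3 : v (a₄ * L ^ 2) = v ν := by
    have : a₄ * L ^ 2 = (ν ^ 2 + a₄ * L ^ 2) - ν ^ 2 := by ring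
    rw [this, v.map_sub_eq_of_lt_left h2, h1]
  rw [map_mul, map_pow, hL, one_pow, mul_one] at h3
  rw [← hV, ← h3, sq]

/-- two points of class `A` and one of class `C` -/
lemma shape_AAC (H : Hyp2 v δ a₄) (T : Tri δ a₄ L ν X₁ X₂ X₃)
    (h₁ : v X₁ < 1) (h₂ : v X₂ < 1) (hL : v L = 1) (hL' : v (L + δ) < 1)
    (c₃ : IsC v a₄ ν X₃) : v X₁ * v X₂ = v a₄ := by
  have h2L := v_two_L_std hL hL'
  have hsmall : v (X₃ * (X₁ + X₂)) < v a₄ := by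
    rw [map_mul]
    calc v X₃ * v (X₁ + X₂) ≤ v a₄ * v (X₁ + X₂) := mul_le_mul' c₃.1 le_rfl
      _ < v a₄ := mul_lt_left_of_lt_one (v_add_lt v h₁ h₂) H.h_ne
  have e : X₁ * X₂ = (a₄ - (2 * L + δ) * ν) - X₃ * (X₁ + X₂) := by
    rw [← T.V2]; ring
  have hνL : v ((2 * L + δ) * ν) = v ν := by rw [map_mul, h2L, one_mul]
  rcases lt_or_eq_of_le c₃.2 with hlt | heq
  · have h1 : v (a₄ - (2 * L + δ) * ν) = v a₄ :=
      v.map_sub_eq_of_lt_left (by rw [hνL]; exact hlt)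
    rw [← map_mul, e, v.map_sub_eq_of_lt_left (by rw [h1]; exact hsmall), h1]
  · have hle : v (X₁ * X₂) ≤ v a₄ := by
      rw [e]
      exact v_sub_le v (v_sub_le v le_rfl (by rw [hνL]; exact heq.le)) hsmall.le
    rw [map_mul] at hle
    refine le_antisymm hle ?_
    by_contra hlt
    rw [not_le] at hlt
    have hV := v_nu_sq v T
    rw [heq] at hV
    have : v X₁ * v X₂ * v X₃ < v a₄ * v a₄ := by
      calc v X₁ * v X₂ * v X₃ ≤ v X₁ * v X₂ * v a₄ := mul_le_mul' le_rfl c₃.1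
        _ < v a₄ * v a₄ := mul_lt_mul_sw hlt le_rfl H.h_ne
    rw [hV] at this
    exact lt_irrefl _ this

/-- the sum of pairwise products is small as soon as two of the points are middle points -/
lemma shape_CC (H : Hyp2 v δ a₄) (T : Tri δ a₄ L ν X₁ X₂ X₃)
    (h₁ : v X₁ < 1) (hL : v L = 1) (hL' : v (L + δ) < 1)
    (c₂ : IsC v a₄ ν X₂) (c₃ : IsC v a₄ ν X₃) : False := by
  have h2L := v_two_L_std hL hL'
  have hh := H.h_ne
  have t12 : v (X₁ * X₂) < v a₄ := by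
    rw [map_mul]
    calc v X₁ * v X₂ ≤ v X₁ * v a₄ := mul_le_mul' le_rfl c₂.1
      _ < v a₄ := mul_lt_right_of_lt_one h₁ hh
  have t13 : v (X₁ * X₃) < v a₄ := by
    rw [map_mul]
    calc v X₁ * v X₃ ≤ v X₁ * v a₄ := mul_le_mul' le_rfl c₃.1
      _ < v a₄ := mul_lt_right_of_lt_one h₁ hh
  have t23 : v (X₂ * X₃) < v a₄ := by
    rw [map_mul]
    calc v X₂ * v X₃ ≤ v a₄ * v a₄ := mul_le_mul' c₂.1 c₃.1
      _ < v a₄ := mul_lt_right_of_lt_one H.a4 hh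
  have hlhs : v (a₄ - (2 * L + δ) * ν) < v a₄ := by
    rw [← T.V2]
    exact v_add_lt v (v_add_lt v t12 t13) t23
  have hν : v ν = v a₄ := by
    have e : (2 * L + δ) * ν + (a₄ - (2 * L + δ) * ν) = a₄ := by ring
    have := v_eq_of_add_eq v e hlhs
    rwa [map_mul, h2L, one_mul] at this
  have hV := v_nu_sq v T
  rw [hν] at hV
  have : v X₁ * v X₂ * v X₃ < v a₄ * v a₄ := by
    calc v X₁ * v X₂ * v X₃ = v X₁ * (v X₂ * v X₃) := mul_assoc _ _ _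
      _ ≤ v X₁ * (v a₄ * v a₄) := mul_le_mul' le_rfl (mul_le_mul' c₂.1 c₃.1)
      _ < v a₄ * v a₄ := mul_lt_right_of_lt_one h₁ (mul_ne_zero hh hh)
  rw [hV] at this
  exact lt_irrefl _ this


lemma A_not_C {x : K} (a : IsA v δ a₄ L ν x) (c : IsC v a₄ ν x) : False :=
  absurd a.1 (not_lt.2 c.1)

/-- a point of class `B` in first position -/
lemma three_B (H : Hyp2 v δ a₄) (T : Tri δ a₄ L ν X₁ X₂ X₃)
    (h₁ : v X₁ < 1) (h₂ : v X₂ < 1) (h₃ : v X₃ < 1) (hL' : v (L + δ) < 1)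
    (b₁ : IsB v δ a₄ L ν X₁) :
    cmp2 v a₄ X₁ ((L + δ) * X₁ + ν) * cmp2 v a₄ X₂ ((L + δ) * X₂ + ν) *
      cmp2 v a₄ X₃ ((L + δ) * X₃ + ν) = 1 := by
  obtain ⟨a₂, a₃, e⟩ := shape_B H T h₁ h₂ h₃ hL' b₁
  have hx0 : v X₁ ≠ 0 := fun h0 => by
    have := b₁.1; rw [h0] at this; exact absurd this (not_lt.2 zero_le)
  rw [cmp2_B h₁ b₁, cmp2_A h₂ a₂, cmp2_A h₃ a₃, mul_assoc, e, inv_mul_cancel₀ hx0]

/-- three nodal points, standard position -/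
lemma three_std (H : Hyp2 v δ a₄) (T : Tri δ a₄ L ν X₁ X₂ X₃)
    (h₁ : v X₁ < 1) (h₂ : v X₂ < 1) (h₃ : v X₃ < 1) (hL : v L = 1) (hL' : v (L + δ) < 1) :
    ∃ j : ℤ, cmp2 v a₄ X₁ ((L + δ) * X₁ + ν) * cmp2 v a₄ X₂ ((L + δ) * X₂ + ν) *
      cmp2 v a₄ X₃ ((L + δ) * X₃ + ν) = v a₄ ^ (2 * j) := by
  have hsq : v a₄ ^ (2 * (1 : ℤ)) = v a₄ * v a₄ := by
    rw [mul_one, show (2 : ℤ) = ((2 : ℕ) : ℤ) from rfl, zpow_natCast, sq]
  rcases classify H T.pt₁ h₁ hL' with a₁ | b₁ | c₁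
  · rcases classify H T.pt₂ h₂ hL' with a₂ | b₂ | c₂
    · rcases classify H T.pt₃ h₃ hL' with a₃ | b₃ | c₃
      · refine ⟨1, ?_⟩
        rw [cmp2_A h₁ a₁, cmp2_A h₂ a₂, cmp2_A h₃ a₃, shape_AAA H T h₁ hL a₁ a₂ a₃, hsq, sq]
      · refine ⟨0, ?_⟩
        have := three_B H T.swap13 h₃ h₂ h₁ hL' b₃
        rw [mul_zero, zpow_zero, ← this]; ac_rfl
      · refine ⟨1, ?_⟩
        rw [cmp2_A h₁ a₁, cmp2_A h₂ a₂, cmp2_C H c₃, shape_AAC H T h₁ h₂ hL hL' c₃, hsq]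
    · refine ⟨0, ?_⟩
      have := three_B H T.swap12 h₂ h₁ h₃ hL' b₂
      rw [mul_zero, zpow_zero, ← this]; ac_rfl
    · rcases classify H T.pt₃ h₃ hL' with a₃ | b₃ | c₃
      · refine ⟨1, ?_⟩
        rw [cmp2_A h₁ a₁, cmp2_C H c₂, cmp2_A h₃ a₃, hsq,
          ← shape_AAC H T.swap23 h₁ h₃ hL hL' c₂]
        ac_rfl
      · refine ⟨0, ?_⟩
        have := three_B H T.swap13 h₃ h₂ h₁ hL' b₃
        rw [mul_zero, zpow_zero, ← this]; ac_rfl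
      · exact (shape_CC H T h₁ hL hL' c₂ c₃).elim
  · exact ⟨0, by rw [mul_zero, zpow_zero]; exact three_B H T h₁ h₂ h₃ hL' b₁⟩
  · rcases classify H T.pt₂ h₂ hL' with a₂ | b₂ | c₂
    · rcases classify H T.pt₃ h₃ hL' with a₃ | b₃ | c₃
      · refine ⟨1, ?_⟩
        rw [cmp2_C H c₁, cmp2_A h₂ a₂, cmp2_A h₃ a₃, hsq,
          ← shape_AAC H T.swap13 h₃ h₂ hL hL' c₁]
        ac_rfl
      · refine ⟨0, ?_⟩
        have := three_B H T.swap13 h₃ h₂ h₁ hL' b₃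
        rw [mul_zero, zpow_zero, ← this]; ac_rfl
      · exact (shape_CC H T.swap12 h₂ hL hL' c₁ c₃).elim
    · refine ⟨0, ?_⟩
      have := three_B H T.swap12 h₂ h₁ h₃ hL' b₂
      rw [mul_zero, zpow_zero, ← this]; ac_rfl
    · exact (shape_CC H T.swap13 h₃ hL hL' c₂ c₁).elim

/-- three nodal points -/
lemma three_nodal (H : Hyp2 v δ a₄) (T : Tri δ a₄ L ν X₁ X₂ X₃)
    (h₁ : v X₁ < 1) (h₂ : v X₂ < 1) (h₃ : v X₃ < 1) :
    ∃ j : ℤ, cmp2 v a₄ X₁ ((L + δ) * X₁ + ν) * cmp2 v a₄ X₂ ((L + δ) * X₂ + ν) *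
      cmp2 v a₄ X₃ ((L + δ) * X₃ + ν) = v a₄ ^ (2 * j) := by
  have hV : v L * v (L + δ) < 1 := by
    rw [← map_mul, ← T.V1]
    exact v_add_lt v (v_add_lt v h₁ h₂) h₃
  rcases lam_cases H L with ⟨e, h1⟩ | ⟨a, b⟩ | ⟨a, b⟩
  · exfalso
    have : 1 ≤ v L * v (L + δ) := by
      rw [← e]
      calc (1 : Γ₀) = 1 * 1 := (one_mul _).symm
        _ ≤ v L * v L := mul_le_mul' h1 h1
    exact absurd hV (not_lt.2 this)
  · -- flipped position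
    have hflip := three_std H.neg T.flip h₁ h₂ h₃ b (by rw [add_neg_cancel_right]; exact a)
    simp only [add_neg_cancel_right] at hflip
    obtain ⟨j, e⟩ := hflip
    obtain ⟨j₁, e₁⟩ := cmp2_swap H T.pt₁
    obtain ⟨j₂, e₂⟩ := cmp2_swap H T.pt₂
    obtain ⟨j₃, e₃⟩ := cmp2_swap H T.pt₃
    rw [e₁, e₂, e₃] at e
    refine ⟨j₁ + j₂ + j₃ - j, ?_⟩
    have hh := H.h_ne
    have n₁ := cmp2_ne_zero H (x := X₁) (u₂ := (L + δ) * X₁ + ν)
    have n₂ := cmp2_ne_zero H (x := X₂) (u₂ := (L + δ) * X₂ + ν)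
    have n₃ := cmp2_ne_zero H (x := X₃) (u₂ := (L + δ) * X₃ + ν)
    have ez : v a₄ ^ (2 * (j₁ + j₂ + j₃ - j)) =
        v a₄ ^ (2 * j₁) * v a₄ ^ (2 * j₂) * v a₄ ^ (2 * j₃) * (v a₄ ^ (2 * j))⁻¹ := by
      rw [← zpow_neg, ← zpow_add₀ hh, ← zpow_add₀ hh, ← zpow_add₀ hh]; congr 1; ring
    rw [ez, ← e]
    have m₁ : v a₄ ^ (2 * j₁) ≠ 0 := zpow_ne_zero _ hh
    have m₂ : v a₄ ^ (2 * j₂) ≠ 0 := zpow_ne_zero _ hh
    have m₃ : v a₄ ^ (2 * j₃) ≠ 0 := zpow_ne_zero _ hh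
    field_simp
  · exact three_std H T h₁ h₂ h₃ b a

/-- **T3, core**: the components of three collinear points multiply to an even power of
`v a₄`. -/
theorem cmp2_triple (H : Hyp2 v δ a₄) (T : Tri δ a₄ L ν X₁ X₂ X₃) :
    ∃ j : ℤ, cmp2 v a₄ X₁ ((L + δ) * X₁ + ν) * cmp2 v a₄ X₂ ((L + δ) * X₂ + ν) *
      cmp2 v a₄ X₃ ((L + δ) * X₃ + ν) = v a₄ ^ (2 * j) := by
  have hh := H.h_ne
  have hsq : v a₄ ^ (2 * (1 : ℤ)) = v a₄ * v a₄ := by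
    rw [mul_one, show (2 : ℤ) = ((2 : ℕ) : ℤ) from rfl, zpow_natCast, sq]
  -- two nodal points in positions 1, 2
  have two : ∀ {Y₁ Y₂ Y₃ : K}, Tri δ a₄ L ν Y₁ Y₂ Y₃ → v Y₁ < 1 → v Y₂ < 1 → 1 ≤ v Y₃ →
      ∃ j : ℤ, cmp2 v a₄ Y₁ ((L + δ) * Y₁ + ν) * cmp2 v a₄ Y₂ ((L + δ) * Y₂ + ν) *
        cmp2 v a₄ Y₃ ((L + δ) * Y₃ + ν) = v a₄ ^ (2 * j) := by
    intro Y₁ Y₂ Y₃ T' k₁ k₂ k₃
    rcases two_nodal H T' k₁ k₂ k₃ with ⟨m₁, m₂⟩ | ⟨n₁, n₂, heq, hsg⟩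
    · exact ⟨1, by rw [cmp2_mid H m₁, cmp2_mid H m₂, cmp2_far k₃, mul_one, hsq]⟩
    · have hx0 : v Y₂ ≠ 0 := fun h0 => by rw [h0] at n₂; exact absurd n₂ (not_lt.2 zero_le)
      refine ⟨0, ?_⟩
      rw [mul_zero, zpow_zero, cmp2_far k₃, mul_one]
      rcases hsg with ⟨s₁, s₂⟩ | ⟨s₁, s₂⟩
      · have b₂ : v ((L + δ) * Y₂ + ν) = v Y₂ := by
          rcases T'.pt₂.dich H k₂ n₂ with ⟨-, d⟩ | ⟨-, c⟩
          · rw [d] at s₂; exact absurd s₂ (lt_irrefl _)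
          · exact c
        rw [cmp2_plus k₁ n₁ s₁, cmp2_minus k₂ n₂ b₂, heq, mul_inv_cancel₀ hx0]
      · have b₁ : v ((L + δ) * Y₁ + ν) = v Y₁ := by
          rcases T'.pt₁.dich H k₁ n₁ with ⟨c, d⟩ | ⟨-, c⟩
          · rw [d] at s₁; exact absurd s₁ (lt_irrefl _)
          · exact c
        rw [cmp2_minus k₁ n₁ b₁, cmp2_plus k₂ n₂ s₂, heq, inv_mul_cancel₀ hx0]
  rcases lt_or_ge (v X₁) 1 with h₁ | h₁ <;> rcases lt_or_ge (v X₂) 1 with h₂ | h₂ <;>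
    rcases lt_or_ge (v X₃) 1 with h₃ | h₃
  · exact three_nodal H T h₁ h₂ h₃
  · exact two T h₁ h₂ h₃
  · obtain ⟨j, e⟩ := two T.swap23 h₁ h₃ h₂
    exact ⟨j, by rw [← e]; ac_rfl⟩
  · exact (no_single H T h₁ h₂ h₃).elim
  · obtain ⟨j, e⟩ := two T.swap13 h₃ h₂ h₁
    exact ⟨j, by rw [← e]; ac_rfl⟩
  · exact (no_single H T.swap12 h₂ h₁ h₃).elim
  · exact (no_single H T.swap13 h₃ h₂ h₁).elim
  · exact ⟨0, by rw [cmp2_far h₁, cmp2_far h₂, cmp2_far h₃]; simp⟩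


/-! ### Three far points: the defect estimate -/

/-- the square of the larger slope size is bounded by the product of the abscissae -/
lemma lam_sq_le (H : Hyp2 v δ a₄) (T : Tri δ a₄ L ν X₁ X₂ X₃)
    (h₁ : 1 ≤ v X₁) (h₂ : 1 ≤ v X₂) (h₃ : 1 ≤ v X₃) :
    v (2 * L + δ) ^ 2 ≤ v X₁ * v X₂ * v X₃ := by
  have hP1 : 1 ≤ v X₁ * v X₂ * v X₃ := by
    calc (1 : Γ₀) = 1 * 1 * 1 := by rw [one_mul, one_mul]
      _ ≤ v X₁ * v X₂ * v X₃ := mul_le_mul' (mul_le_mul' h₁ h₂) h₃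
  have b₁ : v X₁ ≤ v X₁ * v X₂ * v X₃ := by
    rw [mul_assoc]
    exact le_mul_left_of_one_le (by
      calc (1 : Γ₀) = 1 * 1 := (one_mul _).symm
        _ ≤ v X₂ * v X₃ := mul_le_mul' h₂ h₃)
  have b₂ : v X₂ ≤ v X₁ * v X₂ * v X₃ := by
    calc v X₂ = 1 * v X₂ * 1 := by rw [one_mul, mul_one]
      _ ≤ v X₁ * v X₂ * v X₃ := mul_le_mul' (mul_le_mul' h₁ le_rfl) h₃
  have b₃ : v X₃ ≤ v X₁ * v X₂ * v X₃ :=
    le_mul_right_of_one_le (by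
      calc (1 : Γ₀) = 1 * 1 := (one_mul _).symm
        _ ≤ v X₁ * v X₂ := mul_le_mul' h₁ h₂)
  have hle := v_two_L_le H L
  rcases lam_cases H L with ⟨e, h1⟩ | ⟨a, b⟩ | ⟨a, b⟩
  · rw [← e, max_self] at hle
    calc v (2 * L + δ) ^ 2 ≤ v L ^ 2 := pow_le_pow_left₀ zero_le hle 2
      _ = v L * v (L + δ) := by rw [sq, ← e]
      _ = v (X₁ + X₂ + X₃) := by rw [← map_mul, T.V1]
      _ ≤ v X₁ * v X₂ * v X₃ := v_add_le v (v_add_le v b₁ b₂) b₃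
  · rw [b, max_eq_right a.le] at hle
    exact (pow_le_one₀ zero_le hle).trans hP1
  · rw [b, max_eq_left a.le] at hle
    exact (pow_le_one₀ zero_le hle).trans hP1

/-- **defect estimate** for three far points (numerator and denominator of `w₁w₂w₃ - 1`) -/
theorem deep_w (H : Hyp2 v δ a₄) (T : Tri δ a₄ L ν X₁ X₂ X₃)
    (h₁ : 1 ≤ v X₁) (h₂ : 1 ≤ v X₂) (h₃ : 1 ≤ v X₃) :
    v ((L * X₁ + ν) * (L * X₂ + ν) * (L * X₃ + ν) -
        ((L + δ) * X₁ + ν) * ((L + δ) * X₂ + ν) * ((L + δ) * X₃ + ν)) ^ 2 * v X₁ <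
      v (((L + δ) * X₁ + ν) * ((L + δ) * X₂ + ν) * ((L + δ) * X₃ + ν)) ^ 2 := by
  have hV := v_nu_sq v T
  set Pd := v X₁ * v X₂ * v X₃ with hPd
  have hP1 : 1 ≤ Pd := by
    calc (1 : Γ₀) = 1 * 1 * 1 := by rw [one_mul, one_mul]
      _ ≤ v X₁ * v X₂ * v X₃ := mul_le_mul' (mul_le_mul' h₁ h₂) h₃
  have hP0 : Pd ≠ 0 := fun h0 => by rw [h0] at hP1; exact absurd hP1 (not_le.2 zero_lt_one)
  have hν0 : v ν ≠ 0 := fun h0 => by rw [h0, mul_zero] at hV; exact hP0 hV.symm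
  have b₁ : v X₁ ≤ Pd := by
    rw [hPd, mul_assoc]
    exact le_mul_left_of_one_le (by
      calc (1 : Γ₀) = 1 * 1 := (one_mul _).symm
        _ ≤ v X₂ * v X₃ := mul_le_mul' h₂ h₃)
  -- the denominator
  have f₁ := T.pt₁.far H h₁
  have f₂ := T.pt₂.far H h₂
  have f₃ := T.pt₃.far H h₃
  have hD : v (((L + δ) * X₁ + ν) * ((L + δ) * X₂ + ν) * ((L + δ) * X₃ + ν)) ^ 2 =
      (v ν * v ν) * (Pd * Pd) := by
    rw [map_mul, map_mul, mul_pow, mul_pow, ← f₁.1, ← f₂.1, ← f₃.1, f₁.2, f₂.2, f₃.2,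
      ← mul_pow, ← mul_pow, ← hPd, ← hV, pow_succ, sq, mul_assoc]
  -- the numerator
  have hN : v ((L * X₁ + ν) * (L * X₂ + ν) * (L * X₃ + ν) -
        ((L + δ) * X₁ + ν) * ((L + δ) * X₂ + ν) * ((L + δ) * X₃ + ν)) =
      v ν * v a₄ * v (2 * L + δ) := by
    rw [T.Pdiff, Valuation.map_neg, map_mul, map_mul, map_mul, H.d1, mul_one]
  rw [hD, hN]
  have hl := lam_sq_le H T h₁ h₂ h₃
  rw [← hPd] at hl
  have hh2 : v a₄ * v a₄ < 1 := by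
    calc v a₄ * v a₄ < 1 * 1 := mul_lt_mul_ss H.a4 H.a4
      _ = 1 := one_mul _
  calc (v ν * v a₄ * v (2 * L + δ)) ^ 2 * v X₁
      = (v ν * v ν) * ((v a₄ * v a₄) * (v (2 * L + δ) ^ 2 * v X₁)) := by
        rw [mul_pow, mul_pow, sq (v ν), sq (v a₄)]; ac_rfl
    _ ≤ (v ν * v ν) * ((v a₄ * v a₄) * (Pd * Pd)) :=
        mul_le_mul' le_rfl (mul_le_mul' le_rfl (mul_le_mul' hl b₁))
    _ < (v ν * v ν) * (Pd * Pd) := by
        refine mul_lt_mul_ws le_rfl ?_ (mul_ne_zero hν0 hν0)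
        exact mul_lt_right_of_lt_one hh2 (mul_ne_zero hP0 hP0)

/-- for three far points the product of the `w`'s is `≡ 1` -/
theorem far_w (H : Hyp2 v δ a₄) (T : Tri δ a₄ L ν X₁ X₂ X₃)
    (h₁ : 1 ≤ v X₁) (h₂ : 1 ≤ v X₂) (h₃ : 1 ≤ v X₃) :
    v ((L * X₁ + ν) * (L * X₂ + ν) * (L * X₃ + ν) -
        ((L + δ) * X₁ + ν) * ((L + δ) * X₂ + ν) * ((L + δ) * X₃ + ν)) <
      v (((L + δ) * X₁ + ν) * ((L + δ) * X₂ + ν) * ((L + δ) * X₃ + ν)) := by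
  apply lt_of_sq_lt_sq
  refine lt_of_le_of_lt ?_ (deep_w H T h₁ h₂ h₃)
  exact le_mul_left_of_one_le h₁

end triple

end Fermat.Agent.S13.K2
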