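import Fermat.Agent.S05.CompAdd
import Fermat.Agent.S13.K2Val

/-!
# S13 (K2): the two-slope model and the group law

`W : y² + a₁ x y = x³ + a₂ x² + a₄ x` with `a₁ = -(s₁ + s₂)`, `a₂ = -s₁ s₂`, that is
`(y - s₁ x)(y - s₂ x) = x³ + a₄ x`.
-/

set_option autoImplicit false
set_option linter.unusedSectionVars false
set_option linter.unusedVariables false

namespace Fermat.Agent.S13.K2

open WeierstrassCurve Polynomial

variable {K : Type*} [Field K] [DecidableEq K] {W : WeierstrassCurve K}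

/-- the two-slope form of a Weierstrass curve -/
structure IsTwoSlope (W : WeierstrassCurve K) (s₁ s₂ : K) : Prop where
  a₁ : W.a₁ = -(s₁ + s₂)
  a₂ : W.a₂ = -(s₁ * s₂)
  a₃ : W.a₃ = 0
  a₆ : W.a₆ = 0

variable {s₁ s₂ : K}

lemma IsTwoSlope.equation_iff (hW : IsTwoSlope W s₁ s₂) (x y : K) :
    W.toAffine.Equation x y ↔ (y - s₁ * x) * (y - s₂ * x) = x ^ 3 + W.a₄ * x := by
  rw [Affine.equation_iff, hW.a₁, hW.a₂, hW.a₃, hW.a₆]
  constructor <;> intro h <;> linear_combination h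

lemma IsTwoSlope.negY_eq (hW : IsTwoSlope W s₁ s₂) (x y : K) :
    W.toAffine.negY x y = -y + (s₁ + s₂) * x := by
  simp only [Affine.negY, hW.a₁, hW.a₃]; ring

lemma IsTwoSlope.pt (hW : IsTwoSlope W s₁ s₂) {x y : K} (h : W.toAffine.Equation x y) :
    Pt (s₁ - s₂) W.a₄ x (y - s₁ * x) (y - s₂ * x) :=
  ⟨(hW.equation_iff x y).1 h, by ring⟩

/-- the Vieta relations for the chord/tangent through two points -/
lemma IsTwoSlope.triple (hW : IsTwoSlope W s₁ s₂) {x₁ y₁ x₂ y₂ : K}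
    (h₁ : W.toAffine.Equation x₁ y₁) (h₂ : W.toAffine.Equation x₂ y₂)
    (hxy : ¬(x₁ = x₂ ∧ y₁ = W.toAffine.negY x₂ y₂)) :
    Tri (s₁ - s₂) W.a₄ (W.toAffine.slope x₁ x₂ y₁ y₂ - s₁)
      (y₁ - W.toAffine.slope x₁ x₂ y₁ y₂ * x₁) x₁ x₂
      (W.toAffine.addX x₁ x₂ (W.toAffine.slope x₁ x₂ y₁ y₂)) ∧
    y₂ = W.toAffine.slope x₁ x₂ y₁ y₂ * x₂ + (y₁ - W.toAffine.slope x₁ x₂ y₁ y₂ * x₁) := by
  set ℓ := W.toAffine.slope x₁ x₂ y₁ y₂ with hℓ
  have hline₂ : y₂ = ℓ * x₂ + (y₁ - ℓ * x₁) := by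
    by_cases hx : x₁ = x₂
    · have hy : y₁ ≠ W.toAffine.negY x₂ y₂ := fun h => hxy ⟨hx, h⟩
      have := Affine.Y_eq_of_Y_ne h₁ h₂ hx hy
      rw [← hx, ← this]; ring
    · have hx' : x₁ - x₂ ≠ 0 := sub_ne_zero.2 hx
      rw [hℓ, Affine.slope_of_X_ne hx]
      field_simp
      ring
  have hpoly := Affine.addPolynomial_slope h₁ h₂ hxy
  rw [Affine.addPolynomial_eq, neg_inj, Cubic.prod_X_sub_C_eq, Cubic.toPoly_injective] at hpoly
  have hb := congrArg Cubic.b hpoly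
  have hc := congrArg Cubic.c hpoly
  have hd := congrArg Cubic.d hpoly
  simp only [hW.a₁, hW.a₂, hW.a₃, hW.a₆] at hb hc hd
  rw [← hℓ] at hb hc hd
  refine ⟨⟨?_, ?_, ?_⟩, hline₂⟩
  · linear_combination hb
  · linear_combination -hc
  · linear_combination hd

/-! ## The component function -/

/-- the component function of the two-slope model -/
noncomputable def comp2 (A : ValuationSubring K) (W : WeierstrassCurve K) (s₂ : K) :
    W.toAffine.Point → A.ValueGroup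
  | .zero => 1
  | .some x y _ => cmp2 A.valuation W.a₄ x (y - s₂ * x)

@[simp] lemma comp2_zero (A : ValuationSubring K) (W : WeierstrassCurve K) (s₂ : K) :
    comp2 A W s₂ (0 : W.toAffine.Point) = 1 := rfl

lemma comp2_some (A : ValuationSubring K) (s₂ : K) {x y : K}
    (h : W.toAffine.Nonsingular x y) :
    comp2 A W s₂ (Affine.Point.some x y h) = cmp2 A.valuation W.a₄ x (y - s₂ * x) := rfl

lemma cmp2_neg {Γ₀ : Type*} [LinearOrderedCommGroupWithZero Γ₀] (v : Valuation K Γ₀)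
    (a₄ x u : K) : cmp2 v a₄ x (-u) = cmp2 v a₄ x u := by
  unfold cmp2
  rw [Valuation.map_neg]

/-- standing hypotheses, bundled -/
structure TwoHyp (A : ValuationSubring K) (W : WeierstrassCurve K) (s₁ s₂ : K) : Prop where
  model : IsTwoSlope W s₁ s₂
  d1 : A.valuation (s₁ - s₂) = 1
  a40 : W.a₄ ≠ 0
  a4 : A.valuation W.a₄ < 1

variable {A : ValuationSubring K}

lemma TwoHyp.hyp (h : TwoHyp A W s₁ s₂) : Hyp2 A.valuation (s₁ - s₂) W.a₄ :=
  ⟨h.d1, h.a4, h.a40⟩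

lemma TwoHyp.h_ne (h : TwoHyp A W s₁ s₂) : A.valuation W.a₄ ≠ 0 := h.hyp.h_ne

lemma TwoHyp.comp2_ne_zero (h : TwoHyp A W s₁ s₂) (P : W.toAffine.Point) :
    comp2 A W s₂ P ≠ 0 := by
  rcases P with _ | ⟨x, y, hxy⟩
  · exact one_ne_zero
  · rw [comp2_some]; exact cmp2_ne_zero h.hyp

/-- the component of the negative of a point -/
lemma TwoHyp.comp2_negY (h : TwoHyp A W s₁ s₂) {x y : K} (hxy : W.toAffine.Equation x y) :
    ∃ j : ℤ, cmp2 A.valuation W.a₄ x (W.toAffine.negY x y - s₂ * x) =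
      (cmp2 A.valuation W.a₄ x (y - s₂ * x))⁻¹ * A.valuation W.a₄ ^ (2 * j) := by
  have e : W.toAffine.negY x y - s₂ * x = -(y - s₁ * x) := by
    rw [h.model.negY_eq]; ring
  rw [e, cmp2_neg]
  exact cmp2_swap h.hyp (h.model.pt hxy)

theorem TwoHyp.add (h : TwoHyp A W s₁ s₂) (P Q : W.toAffine.Point) :
    ∃ j : ℤ, comp2 A W s₂ (P + Q) =
      comp2 A W s₂ P * comp2 A W s₂ Q * (A.valuation W.a₄) ^ (2 * j) := by
  have H := h.hyp
  have hh0 : A.valuation W.a₄ ≠ 0 := H.h_ne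
  rcases P with _ | ⟨x₁, y₁, h₁⟩
  · exact ⟨0, by
      rw [show (Affine.Point.zero : W.toAffine.Point) = 0 from rfl, zero_add, comp2_zero]; simp⟩
  rcases Q with _ | ⟨x₂, y₂, h₂⟩
  · exact ⟨0, by
      rw [show (Affine.Point.zero : W.toAffine.Point) = 0 from rfl, add_zero, comp2_zero]; simp⟩
  by_cases hxy : x₁ = x₂ ∧ y₁ = W.toAffine.negY x₂ y₂
  · obtain ⟨hx, hy⟩ := hxy
    rw [Affine.Point.add_of_Y_eq hx hy, comp2_zero, comp2_some, comp2_some]
    subst hx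
    subst hy
    obtain ⟨j, e⟩ := h.comp2_negY h₂.1
    refine ⟨-j, ?_⟩
    rw [e, mul_neg, zpow_neg]
    have n := cmp2_ne_zero H (x := x₁) (u₂ := y₂ - s₂ * x₁)
    have n' : A.valuation W.a₄ ^ (2 * j) ≠ 0 := zpow_ne_zero _ hh0
    field_simp
  · rw [Affine.Point.add_some hxy, comp2_some, comp2_some, comp2_some]
    obtain ⟨T, hl⟩ := h.model.triple h₁.1 h₂.1 hxy
    set ℓ := W.toAffine.slope x₁ x₂ y₁ y₂ with hℓ
    set x₃ := W.toAffine.addX x₁ x₂ ℓ with hx₃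
    obtain ⟨j, e⟩ := cmp2_triple H T
    have e₁ : (ℓ - s₁ + (s₁ - s₂)) * x₁ + (y₁ - ℓ * x₁) = y₁ - s₂ * x₁ := by ring
    have e₂ : (ℓ - s₁ + (s₁ - s₂)) * x₂ + (y₁ - ℓ * x₁) = y₂ - s₂ * x₂ := by
      rw [hl]; ring
    rw [e₁, e₂] at e
    have e₃ : W.toAffine.addY x₁ x₂ y₁ ℓ - s₂ * x₃ = -((ℓ - s₁) * x₃ + (y₁ - ℓ * x₁)) := by
      rw [Affine.addY, h.model.negY_eq, Affine.negAddY, ← hx₃]; ring
    obtain ⟨j', e'⟩ := cmp2_swap H T.pt₃
    rw [e₃, cmp2_neg, e']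
    refine ⟨j' - j, ?_⟩
    have n₁ := cmp2_ne_zero H (x := x₁) (u₂ := y₁ - s₂ * x₁)
    have n₂ := cmp2_ne_zero H (x := x₂) (u₂ := y₂ - s₂ * x₂)
    have n₃ := cmp2_ne_zero H (x := x₃) (u₂ := (ℓ - s₁ + (s₁ - s₂)) * x₃ + (y₁ - ℓ * x₁))
    have ez : A.valuation W.a₄ ^ (2 * (j' - j)) =
        A.valuation W.a₄ ^ (2 * j') * (A.valuation W.a₄ ^ (2 * j))⁻¹ := by
      rw [← zpow_neg, ← zpow_add₀ hh0]; congr 1; ring
    rw [ez, ← e]
    field_simp

lemma TwoHyp.neg (h : TwoHyp A W s₁ s₂) (P : W.toAffine.Point) :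
    ∃ j : ℤ, comp2 A W s₂ (-P) = (comp2 A W s₂ P)⁻¹ * (A.valuation W.a₄) ^ (2 * j) := by
  obtain ⟨j, e⟩ := h.add (-P) P
  rw [neg_add_cancel, comp2_zero] at e
  refine ⟨-j, ?_⟩
  have n := h.comp2_ne_zero P
  have n' : A.valuation W.a₄ ^ (2 * j) ≠ 0 := zpow_ne_zero _ h.h_ne
  rw [mul_neg, zpow_neg]
  field_simp
  rw [e]

/-- the component of a multiple -/
lemma TwoHyp.nsmul (h : TwoHyp A W s₁ s₂) (P : W.toAffine.Point) (n : ℕ) :
    ∃ j : ℤ, comp2 A W s₂ (n • P) = comp2 A W s₂ P ^ n * (A.valuation W.a₄) ^ (2 * j) := by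
  induction n with
  | zero => exact ⟨0, by simp⟩
  | succ n ih =>
    obtain ⟨j, e⟩ := ih
    obtain ⟨j', e'⟩ := h.add (n • P) P
    refine ⟨j + j', ?_⟩
    rw [succ_nsmul, e', e, pow_succ, mul_add, zpow_add₀ h.h_ne]
    ac_rfl

/-- the component of a torsion point is torsion modulo `v a₄ ^ 2` -/
lemma TwoHyp.torsion (h : TwoHyp A W s₁ s₂) {P : W.toAffine.Point} {n : ℕ} (hn : n • P = 0) :
    ∃ j : ℤ, comp2 A W s₂ P ^ n = (A.valuation W.a₄) ^ (2 * j) := by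
  obtain ⟨j, e⟩ := h.nsmul P n
  rw [hn, comp2_zero] at e
  refine ⟨-j, ?_⟩
  rw [mul_neg, zpow_neg]
  exact eq_inv_of_mul_eq_one_left e.symm

/-! ## Far points -/

/-- far points: `0` and the points with `1 ≤ v x` (those with nonsingular reduction) -/
def Far (A : ValuationSubring K) {W : WeierstrassCurve K} : W.toAffine.Point → Prop
  | .zero => True
  | .some x _ _ => 1 ≤ A.valuation x

@[simp] lemma far_zero : Far A (0 : W.toAffine.Point) := trivial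

lemma far_some {x y : K} (hxy : W.toAffine.Nonsingular x y) :
    Far A (Affine.Point.some x y hxy) ↔ 1 ≤ A.valuation x := Iff.rfl

lemma TwoHyp.comp2_of_far (h : TwoHyp A W s₁ s₂) {P : W.toAffine.Point} (hP : Far A P) :
    comp2 A W s₂ P = 1 := by
  rcases P with _ | ⟨x, y, hxy⟩
  · rfl
  · rw [comp2_some]; exact cmp2_far hP

/-- a point whose component is an even power of `v a₄` is far -/
lemma TwoHyp.far_of_comp2_eq (h : TwoHyp A W s₁ s₂) {P : W.toAffine.Point} {j : ℤ}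
    (e : comp2 A W s₂ P = (A.valuation W.a₄) ^ (2 * j)) : Far A P := by
  rcases P with _ | ⟨x, y, hxy⟩
  · trivial
  have h0 : 0 < A.valuation W.a₄ := zero_lt_iff.2 h.h_ne
  have h1 := h.a4
  show 1 ≤ A.valuation x
  by_contra hx
  rw [not_le] at hx
  rw [comp2_some] at e
  rcases le_or_gt (A.valuation x) (A.valuation W.a₄) with mx | kx
  · rw [cmp2_mid h.hyp mx] at e
    have := zpow_right_injective₀ h0 (ne_of_lt h1) ((zpow_one _).trans e)
    omega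
  · rcases (h.model.pt hxy.1).dich h.hyp hx kx with ⟨hs, -⟩ | ⟨-, hs⟩
    · rw [cmp2_plus hx kx hs] at e
      rw [e] at hx kx
      have a := Fermat.Agent.S05.lt_of_zpow_lt_zpow h0 h1 (m := 0) (n := 2 * j)
        (by rw [zpow_zero]; exact hx)
      have b := Fermat.Agent.S05.lt_of_zpow_lt_zpow h0 h1 (m := 2 * j) (n := 1)
        (by rw [zpow_one]; exact kx)
      omega
    · rw [cmp2_minus hx kx hs] at e
      have e2 : A.valuation x = (A.valuation W.a₄) ^ (-(2 * j)) := by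
        rw [zpow_neg, ← e, inv_inv]
      rw [e2] at hx kx
      have a := Fermat.Agent.S05.lt_of_zpow_lt_zpow h0 h1 (m := 0) (n := -(2 * j))
        (by rw [zpow_zero]; exact hx)
      have b := Fermat.Agent.S05.lt_of_zpow_lt_zpow h0 h1 (m := -(2 * j)) (n := 1)
        (by rw [zpow_one]; exact kx)
      omega

lemma TwoHyp.far_add (h : TwoHyp A W s₁ s₂) {P Q : W.toAffine.Point} (hP : Far A P)
    (hQ : Far A Q) : Far A (P + Q) := by
  obtain ⟨j, e⟩ := h.add P Q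
  rw [h.comp2_of_far hP, h.comp2_of_far hQ, one_mul, one_mul] at e
  exact h.far_of_comp2_eq e

lemma TwoHyp.far_neg (h : TwoHyp A W s₁ s₂) {P : W.toAffine.Point} (hP : Far A P) :
    Far A (-P) := by
  rcases P with _ | ⟨x, y, hxy⟩
  · exact hP
  · exact hP

lemma TwoHyp.far_sub (h : TwoHyp A W s₁ s₂) {P Q : W.toAffine.Point} (hP : Far A P)
    (hQ : Far A Q) : Far A (P - Q) := by
  rw [sub_eq_add_neg]; exact h.far_add hP (h.far_neg hQ)

lemma TwoHyp.far_nsmul (h : TwoHyp A W s₁ s₂) {P : W.toAffine.Point} (hP : Far A P) (n : ℕ) :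
    Far A (n • P) := by
  induction n with
  | zero => rw [zero_nsmul]; exact far_zero
  | succ n ih => rw [succ_nsmul]; exact h.far_add ih hP

/-- two points with the same component differ by a far point -/
lemma TwoHyp.far_sub_of_comp2_eq (h : TwoHyp A W s₁ s₂) {P Q : W.toAffine.Point}
    (e : comp2 A W s₂ P = comp2 A W s₂ Q) : Far A (P - Q) := by
  obtain ⟨j₁, e₁⟩ := h.add P (-Q)
  obtain ⟨j₂, e₂⟩ := h.neg Q
  have n := h.comp2_ne_zero Q
  refine h.far_of_comp2_eq (j := j₂ + j₁) ?_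
  rw [sub_eq_add_neg, e₁, e₂, e, mul_add, zpow_add₀ h.h_ne]
  field_simp

/-! ## The function `w = u₁ / u₂` on far points -/

section defect

variable {Γ₀ : Type*} [LinearOrderedCommGroupWithZero Γ₀] {v : Valuation K Γ₀}
  {δ a₄ L ν X₁ X₂ X₃ x u₁ u₂ : K}

lemma Pt.far_ne (H : Hyp2 v δ a₄) (p : Pt δ a₄ x u₁ u₂) (hx : 1 ≤ v x) :
    v u₁ ≠ 0 ∧ v u₂ ≠ 0 := by
  obtain ⟨he, hs⟩ := p.far H hx
  have hx0 : v x ≠ 0 := fun h0 => by rw [h0] at hx; exact absurd hx (not_le.2 zero_lt_one)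
  have h1 : v u₁ ≠ 0 := by
    intro h0
    rw [h0] at hs
    exact pow_ne_zero 3 hx0 (by rw [← hs]; simp)
  exact ⟨h1, he ▸ h1⟩

lemma Pt.far_w (H : Hyp2 v δ a₄) (p : Pt δ a₄ x u₁ u₂) (hx : 1 ≤ v x) : v (u₁ / u₂) = 1 := by
  obtain ⟨he, -⟩ := p.far H hx
  rw [map_div₀, he, div_self (p.far_ne H hx).2]

lemma Pt.far_t (H : Hyp2 v δ a₄) (p : Pt δ a₄ x u₁ u₂) (hx : 1 ≤ v x) :
    v (u₁ / u₂ - 1) ^ 2 * v x = 1 := by
  obtain ⟨he, hs⟩ := p.far H hx
  obtain ⟨n₁, n₂⟩ := p.far_ne H hx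
  have hu₂ : u₂ ≠ 0 := (Valuation.ne_zero_iff v).1 n₂
  have hx0 : v x ≠ 0 := fun h0 => by rw [h0] at hx; exact absurd hx (not_le.2 zero_lt_one)
  have e : u₁ / u₂ - 1 = -(δ * x) / u₂ := by
    rw [p.diff]
    rw [p.diff] at hu₂
    field_simp
    ring
  rw [e, map_div₀, Valuation.map_neg, map_mul, H.d1, one_mul, div_pow, ← he, hs]
  field_simp

/-- the defect of the `w`-function on three far collinear points is smaller than `w - 1` -/
theorem defect_lt (H : Hyp2 v δ a₄) (T : Tri δ a₄ L ν X₁ X₂ X₃)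
    (h₁ : 1 ≤ v X₁) (h₂ : 1 ≤ v X₂) (h₃ : 1 ≤ v X₃) :
    v (((L + δ) * X₃ + ν) / (L * X₃ + ν) -
        (L * X₁ + ν) / ((L + δ) * X₁ + ν) * ((L * X₂ + ν) / ((L + δ) * X₂ + ν))) <
      v ((L * X₁ + ν) / ((L + δ) * X₁ + ν) - 1) := by
  have hd := deep_w H T h₁ h₂ h₃
  have ht := T.pt₁.far_t H h₁
  obtain ⟨a₁, b₁⟩ := T.pt₁.far_ne H h₁
  obtain ⟨a₂, b₂⟩ := T.pt₂.far_ne H h₂
  obtain ⟨a₃, b₃⟩ := T.pt₃.far_ne H h₃
  have e₃ := (T.pt₃.far H h₃).1
  set p₁ := L * X₁ + ν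
  set q₁ := (L + δ) * X₁ + ν
  set p₂ := L * X₂ + ν
  set q₂ := (L + δ) * X₂ + ν
  set p₃ := L * X₃ + ν
  set q₃ := (L + δ) * X₃ + ν
  have hp₃ : p₃ ≠ 0 := (Valuation.ne_zero_iff v).1 a₃
  have hq₁ : q₁ ≠ 0 := (Valuation.ne_zero_iff v).1 b₁
  have hq₂ : q₂ ≠ 0 := (Valuation.ne_zero_iff v).1 b₂
  have hx0 : v X₁ ≠ 0 := fun h0 => by rw [h0] at h₁; exact absurd h₁ (not_le.2 zero_lt_one)
  have hE : (q₃ / p₃ - p₁ / q₁ * (p₂ / q₂)) * (q₁ * q₂ * p₃) = -(p₁ * p₂ * p₃ - q₁ * q₂ * q₃) := by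
    field_simp
    ring
  have hvE : v (q₃ / p₃ - p₁ / q₁ * (p₂ / q₂)) * v (q₁ * q₂ * q₃) =
      v (p₁ * p₂ * p₃ - q₁ * q₂ * q₃) := by
    have := congrArg v hE
    rw [map_mul, Valuation.map_neg] at this
    rw [← this, map_mul, map_mul, map_mul, map_mul, e₃]
  have hD0 : v (q₁ * q₂ * q₃) ≠ 0 := by
    rw [map_mul, map_mul]
    exact mul_ne_zero (mul_ne_zero b₁ b₂) b₃
  apply Fermat.Agent.S05.Vieta.lt_of_sq_lt_sq
  have key : v (q₃ / p₃ - p₁ / q₁ * (p₂ / q₂)) ^ 2 * v X₁ < v (p₁ / q₁ - 1) ^ 2 * v X₁ := by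
    rw [ht]
    have h2 : v (q₃ / p₃ - p₁ / q₁ * (p₂ / q₂)) ^ 2 * v X₁ * v (q₁ * q₂ * q₃) ^ 2 <
        1 * v (q₁ * q₂ * q₃) ^ 2 := by
      rw [one_mul]
      calc v (q₃ / p₃ - p₁ / q₁ * (p₂ / q₂)) ^ 2 * v X₁ * v (q₁ * q₂ * q₃) ^ 2
          = (v (q₃ / p₃ - p₁ / q₁ * (p₂ / q₂)) * v (q₁ * q₂ * q₃)) ^ 2 * v X₁ := by
            rw [mul_pow]; ac_rfl
        _ < v (q₁ * q₂ * q₃) ^ 2 := by rw [hvE]; exact hd
    exact lt_of_mul_lt_mul_right' h2
  exact lt_of_mul_lt_mul_right' key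

/-- powers of an element `≡ 1` are `≡ 1` -/
lemma v_pow_sub_one_lt {z : K} (hz : v (z - 1) < 1) (i : ℕ) : v (z ^ i - 1) < 1 := by
  have hz1 : v z ≤ 1 := by
    have : z = (z - 1) + 1 := by ring
    rw [this]
    exact Fermat.Agent.S05.Vieta.v_add_le v hz.le (by rw [Valuation.map_one])
  induction i with
  | zero => simp
  | succ i ih =>
    have e : z ^ (i + 1) - 1 = z * (z ^ i - 1) + (z - 1) := by ring
    rw [e]
    refine Fermat.Agent.S05.Vieta.v_add_lt v ?_ hz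
    rw [map_mul]
    exact lt_of_le_of_lt (mul_le_of_le_one_left zero_le hz1) ih

/-- the geometric sum of an element `≡ 1` is `≡ n` -/
lemma v_geom_sum_sub_lt {z : K} (hz : v (z - 1) < 1) (n : ℕ) :
    v ((∑ i ∈ Finset.range n, z ^ i) - (n : K)) < 1 := by
  induction n with
  | zero => simp
  | succ n ih =>
    have e : (∑ i ∈ Finset.range (n + 1), z ^ i) - ((n + 1 : ℕ) : K) =
        ((∑ i ∈ Finset.range n, z ^ i) - (n : K)) + (z ^ n - 1) := by
      rw [Finset.sum_range_succ]; push_cast; ring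
    rw [e]
    exact Fermat.Agent.S05.Vieta.v_add_lt v ih (v_pow_sub_one_lt hz n)

/-- if `z ≡ 1` and `n` is a unit then `v (z ^ n - 1) = v (z - 1)` -/
lemma v_pow_sub_one_eq {z : K} (hz : v (z - 1) < 1) {n : ℕ} (hn : v (n : K) = 1) :
    v (z ^ n - 1) = v (z - 1) := by
  rw [← mul_geom_sum, map_mul]
  have h1 : v (∑ i ∈ Finset.range n, z ^ i) = 1 := by
    have e : (∑ i ∈ Finset.range n, z ^ i) = (n : K) + ((∑ i ∈ Finset.range n, z ^ i) - (n : K)) := by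
      ring
    rw [e, v.map_add_eq_of_lt_left (by rw [hn]; exact v_geom_sum_sub_lt hz n), hn]
  rw [h1, mul_one]

end defect

/-- the function `w = u₁ / u₂` -/
noncomputable def wOf (W : WeierstrassCurve K) (s₁ s₂ : K) : W.toAffine.Point → K
  | .zero => 1
  | .some x y _ => (y - s₁ * x) / (y - s₂ * x)

@[simp] lemma wOf_zero : wOf W s₁ s₂ (0 : W.toAffine.Point) = 1 := rfl

lemma wOf_some {x y : K} (hxy : W.toAffine.Nonsingular x y) :
    wOf W s₁ s₂ (Affine.Point.some x y hxy) = (y - s₁ * x) / (y - s₂ * x) := rfl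

lemma TwoHyp.v_wOf (h : TwoHyp A W s₁ s₂) {P : W.toAffine.Point} (hP : Far A P) :
    A.valuation (wOf W s₁ s₂ P) = 1 := by
  rcases P with _ | ⟨x, y, hxy⟩
  · exact Valuation.map_one _
  · exact (h.model.pt hxy.1).far_w h.hyp hP

lemma TwoHyp.v_wOf_sub_one (h : TwoHyp A W s₁ s₂) {x y : K} (hxy : W.toAffine.Nonsingular x y)
    (hx : 1 ≤ A.valuation x) :
    A.valuation (wOf W s₁ s₂ (Affine.Point.some x y hxy) - 1) ^ 2 * A.valuation x = 1 :=
  (h.model.pt hxy.1).far_t h.hyp hx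

lemma TwoHyp.v_wOf_sub_one_le (h : TwoHyp A W s₁ s₂) {P : W.toAffine.Point} (hP : Far A P) :
    A.valuation (wOf W s₁ s₂ P - 1) ≤ 1 := by
  have := h.v_wOf hP
  exact Fermat.Agent.S05.Vieta.v_sub_le _ this.le (by rw [Valuation.map_one])

lemma TwoHyp.wOf_neg (h : TwoHyp A W s₁ s₂) {P : W.toAffine.Point} (hP : Far A P) :
    wOf W s₁ s₂ (-P) * wOf W s₁ s₂ P = 1 := by
  rcases P with _ | ⟨x, y, hxy⟩
  · show (1 : K) * 1 = 1
    rw [one_mul]
  · obtain ⟨n₁, n₂⟩ := (h.model.pt hxy.1).far_ne h.hyp hP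
    have hu₁ : y - s₁ * x ≠ 0 := (Valuation.ne_zero_iff _).1 n₁
    have hu₂ : y - s₂ * x ≠ 0 := (Valuation.ne_zero_iff _).1 n₂
    rw [Affine.Point.neg_some, wOf_some, wOf_some, h.model.negY_eq]
    have e₁ : -y + (s₁ + s₂) * x - s₁ * x = -(y - s₂ * x) := by ring
    have e₂ : -y + (s₁ + s₂) * x - s₂ * x = -(y - s₁ * x) := by ring
    rw [e₁, e₂, neg_div_neg_eq, div_mul_div_comm, mul_comm (y - s₂ * x),
      div_self (mul_ne_zero hu₁ hu₂)]

/-- **the defect estimate** on points -/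
theorem TwoHyp.wOf_add_lt (h : TwoHyp A W s₁ s₂) {x y : K} (hxy : W.toAffine.Nonsingular x y)
    (hx : 1 ≤ A.valuation x) {Q : W.toAffine.Point} (hQ : Far A Q) :
    A.valuation (wOf W s₁ s₂ (Affine.Point.some x y hxy + Q) -
        wOf W s₁ s₂ (Affine.Point.some x y hxy) * wOf W s₁ s₂ Q) <
      A.valuation (wOf W s₁ s₂ (Affine.Point.some x y hxy) - 1) := by
  have H := h.hyp
  have ht := h.v_wOf_sub_one hxy hx
  have ht0 : 0 < A.valuation (wOf W s₁ s₂ (Affine.Point.some x y hxy) - 1) := by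
    rw [zero_lt_iff]
    intro h0
    rw [h0] at ht
    simp at ht
  rcases Q with _ | ⟨x₂, y₂, h₂⟩
  · have e : wOf W s₁ s₂ (Affine.Point.some x y hxy + Affine.Point.zero) -
        wOf W s₁ s₂ (Affine.Point.some x y hxy) * wOf W s₁ s₂ Affine.Point.zero = 0 := by
      rw [show (Affine.Point.zero : W.toAffine.Point) = 0 from rfl, add_zero, wOf_zero, mul_one,
        sub_self]
    rw [e, Valuation.map_zero]
    exact ht0
  by_cases hneg : x = x₂ ∧ y = W.toAffine.negY x₂ y₂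
  · obtain ⟨hx', hy'⟩ := hneg
    have e : wOf W s₁ s₂ (Affine.Point.some x y hxy + Affine.Point.some x₂ y₂ h₂) -
        wOf W s₁ s₂ (Affine.Point.some x y hxy) * wOf W s₁ s₂ (Affine.Point.some x₂ y₂ h₂) = 0 := by
      rw [Affine.Point.add_of_Y_eq hx' hy', wOf_zero]
      have hP : Affine.Point.some x y hxy = -Affine.Point.some x₂ y₂ h₂ := by
        rw [Affine.Point.neg_some]
        subst hx' hy'
        rfl
      rw [hP, h.wOf_neg hQ, sub_self]
    rw [e, Valuation.map_zero]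
    exact ht0
  · obtain ⟨T, hl⟩ := h.model.triple hxy.1 h₂.1 hneg
    have h₃ : 1 ≤ A.valuation (W.toAffine.addX x x₂ (W.toAffine.slope x x₂ y y₂)) := by
      have := h.far_add (P := Affine.Point.some x y hxy) (Q := Affine.Point.some x₂ y₂ h₂) hx hQ
      rw [Affine.Point.add_some hneg] at this
      exact this
    have hd := defect_lt H T hx hQ h₃
    rw [Affine.Point.add_some hneg, wOf_some, wOf_some, wOf_some]
    set ℓ := W.toAffine.slope x x₂ y y₂ with hℓ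
    set x₃ := W.toAffine.addX x x₂ ℓ with hx₃
    have e₁ : (ℓ - s₁ + (s₁ - s₂)) * x + (y - ℓ * x) = y - s₂ * x := by ring
    have e₁' : (ℓ - s₁) * x + (y - ℓ * x) = y - s₁ * x := by ring
    have e₂ : (ℓ - s₁ + (s₁ - s₂)) * x₂ + (y - ℓ * x) = y₂ - s₂ * x₂ := by
      rw [hl]; ring
    have e₂' : (ℓ - s₁) * x₂ + (y - ℓ * x) = y₂ - s₁ * x₂ := by
      rw [hl]; ring
    have e₃ : W.toAffine.addY x x₂ y ℓ - s₂ * x₃ = -((ℓ - s₁) * x₃ + (y - ℓ * x)) := by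
      rw [Affine.addY, h.model.negY_eq, Affine.negAddY, ← hx₃]; ring
    have e₃' : W.toAffine.addY x x₂ y ℓ - s₁ * x₃ =
        -((ℓ - s₁ + (s₁ - s₂)) * x₃ + (y - ℓ * x)) := by
      rw [Affine.addY, h.model.negY_eq, Affine.negAddY, ← hx₃]; ring
    rw [e₁, e₁', e₂, e₂'] at hd
    rw [e₃, e₃', neg_div_neg_eq]
    exact hd

lemma TwoHyp.wOf_add_lt_one (h : TwoHyp A W s₁ s₂) {P Q : W.toAffine.Point} (hP : Far A P)
    (hQ : Far A Q) :
    A.valuation (wOf W s₁ s₂ (P + Q) - wOf W s₁ s₂ P * wOf W s₁ s₂ Q) < 1 := by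
  rcases P with _ | ⟨x, y, hxy⟩
  · rw [show (Affine.Point.zero : W.toAffine.Point) = 0 from rfl, zero_add, wOf_zero, one_mul,
      sub_self, Valuation.map_zero]
    exact zero_lt_one
  · exact lt_of_lt_of_le (h.wOf_add_lt hxy hP hQ) (h.v_wOf_sub_one_le hP)

open Fermat.Agent.S05 in
/-- a far point with `w ≡ 1` lies in the kernel of reduction -/
theorem TwoHyp.inE1_of_wOf (h : TwoHyp A W s₁ s₂) {P : W.toAffine.Point} (hP : Far A P)
    (hw : A.valuation (wOf W s₁ s₂ P - 1) < 1) : InE1 A P := by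
  rcases P with _ | ⟨x, y, hxy⟩
  · trivial
  · show x ∉ A
    rw [← A.valuation_le_one_iff]
    intro hx1
    have ht := h.v_wOf_sub_one hxy hP
    have : A.valuation (wOf W s₁ s₂ (Affine.Point.some x y hxy) - 1) ^ 2 * A.valuation x < 1 := by
      calc A.valuation (wOf W s₁ s₂ (Affine.Point.some x y hxy) - 1) ^ 2 * A.valuation x
          ≤ A.valuation (wOf W s₁ s₂ (Affine.Point.some x y hxy) - 1) ^ 2 * 1 :=
            mul_le_mul' le_rfl hx1
        _ = A.valuation (wOf W s₁ s₂ (Affine.Point.some x y hxy) - 1) ^ 2 := mul_one _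
        _ < 1 := pow_lt_one₀ zero_le hw (by norm_num)
    rw [ht] at this
    exact lt_irrefl _ this

open Fermat.Agent.S05 in
lemma far_of_inE1 {P : W.toAffine.Point} (hP : InE1 A P) : Far A P := by
  rcases P with _ | ⟨x, y, hxy⟩
  · trivial
  · show 1 ≤ A.valuation x
    have : ¬ A.valuation x ≤ 1 := fun hle => hP ((A.valuation_le_one_iff x).1 hle)
    exact (not_le.1 this).le

open Fermat.Agent.S05 in
/-- **T2**: far points with congruent `w` differ by an element of the kernel of reduction -/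
theorem TwoHyp.sub_inE1 (h : TwoHyp A W s₁ s₂) {P Q : W.toAffine.Point} (hP : Far A P)
    (hQ : Far A Q) (hw : A.valuation (wOf W s₁ s₂ P - wOf W s₁ s₂ Q) < 1) : InE1 A (P - Q) := by
  refine h.inE1_of_wOf (h.far_sub hP hQ) ?_
  have hQ' := h.far_neg hQ
  have h1 := h.wOf_add_lt_one hP hQ'
  have h2 : wOf W s₁ s₂ P * wOf W s₁ s₂ (-Q) - 1 =
      (wOf W s₁ s₂ P - wOf W s₁ s₂ Q) * wOf W s₁ s₂ (-Q) := by
    rw [sub_mul, mul_comm (wOf W s₁ s₂ Q), h.wOf_neg hQ]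
  have h3 : A.valuation (wOf W s₁ s₂ P * wOf W s₁ s₂ (-Q) - 1) < 1 := by
    rw [h2, map_mul, h.v_wOf hQ', mul_one]
    exact hw
  have e : wOf W s₁ s₂ (P - Q) - 1 = (wOf W s₁ s₂ (P + -Q) - wOf W s₁ s₂ P * wOf W s₁ s₂ (-Q)) +
      (wOf W s₁ s₂ P * wOf W s₁ s₂ (-Q) - 1) := by
    rw [sub_eq_add_neg P Q]; ring
  rw [e]
  exact Fermat.Agent.S05.Vieta.v_add_lt _ h1 h3

open Fermat.Agent.S05 in
/-- **T1**: the kernel of reduction has no `n`-torsion for `n` a unit -/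
theorem TwoHyp.e1_torsion_free (h : TwoHyp A W s₁ s₂) (n : ℕ) (hn : A.valuation (n : K) = 1)
    {P : W.toAffine.Point} (hP : InE1 A P) (hnP : n • P = 0) : P = 0 := by
  rcases P with _ | ⟨x, y, hxy⟩
  · rfl
  exfalso
  have hx : 1 < A.valuation x := by
    have : ¬ A.valuation x ≤ 1 := fun hle => hP ((A.valuation_le_one_iff x).1 hle)
    exact not_le.1 this
  have hF : Far A (Affine.Point.some x y hxy) := hx.le
  set P := Affine.Point.some x y hxy with hPdef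
  have ht := h.v_wOf_sub_one hxy hx.le
  rw [← hPdef] at ht
  set t := wOf W s₁ s₂ P - 1 with htdef
  have ht1 : A.valuation t < 1 := by
    by_contra hge
    rw [not_lt] at hge
    have : 1 < A.valuation t ^ 2 * A.valuation x := by
      calc (1 : A.ValueGroup) < A.valuation x := hx
        _ = 1 * A.valuation x := (one_mul _).symm
        _ ≤ A.valuation t ^ 2 * A.valuation x := mul_le_mul' (one_le_pow₀ hge) le_rfl
    rw [ht] at this
    exact lt_irrefl _ this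
  have ht0 : 0 < A.valuation t := by
    rw [zero_lt_iff]
    intro h0
    rw [h0] at ht
    simp at ht
  have key : ∀ k : ℕ, A.valuation (wOf W s₁ s₂ (k • P) - wOf W s₁ s₂ P ^ k) < A.valuation t := by
    intro k
    induction k with
    | zero => simpa using ht0
    | succ k ih =>
      have e : wOf W s₁ s₂ ((k + 1) • P) - wOf W s₁ s₂ P ^ (k + 1) =
          (wOf W s₁ s₂ (P + k • P) - wOf W s₁ s₂ P * wOf W s₁ s₂ (k • P)) +
            wOf W s₁ s₂ P * (wOf W s₁ s₂ (k • P) - wOf W s₁ s₂ P ^ k) := by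
        rw [succ_nsmul']; ring
      rw [e]
      refine Fermat.Agent.S05.Vieta.v_add_lt _ (h.wOf_add_lt hxy hx.le (h.far_nsmul hF k)) ?_
      rw [map_mul, h.v_wOf hF, one_mul]
      exact ih
  have h1 := key n
  rw [hnP, wOf_zero, ← Valuation.map_neg, neg_sub,
    v_pow_sub_one_eq (show A.valuation (wOf W s₁ s₂ P - 1) < 1 from ht1) hn] at h1
  exact lt_irrefl _ h1

end Fermat.Agent.S13.K2
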