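import Fermat.Agent.S13.K2Add
import Fermat.Agent.S05.Inertia
import Fermat.Agent.S05.Transfer

/-!
# S13 (K2): the action of inertia on the torsion of a two-slope model
-/

set_option autoImplicit false
set_option linter.unusedSectionVars false
set_option linter.unusedVariables false

namespace Fermat.Agent.S13.K2

open WeierstrassCurve WeierstrassCurve.Affine.Point

section Decomp

variable {F K : Type*} [Field F] [Field K] [Algebra F K] (A : ValuationSubring K)

lemma decomposition_le {σ : K ≃ₐ[F] K} (hσ : σ ∈ A.decompositionSubgroup F) {a b : K}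
    (h : A.valuation a ≤ A.valuation b) : A.valuation (σ a) ≤ A.valuation (σ b) := by
  by_cases hb : b = 0
  · have ha : a = 0 := by
      rw [hb, Valuation.map_zero] at h
      exact (Valuation.zero_iff _).1 (le_antisymm h zero_le)
    rw [ha, hb]
  · have hvb : A.valuation b ≠ 0 := (Valuation.ne_zero_iff _).2 hb
    have hσb : σ b ≠ 0 := fun h0 => hb (by simpa using h0)
    have hvσb : A.valuation (σ b) ≠ 0 := (Valuation.ne_zero_iff _).2 hσb
    have h1 : a / b ∈ A := by
      rw [← A.valuation_le_one_iff, map_div₀]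
      exact (div_le_one₀ (zero_lt_iff.2 hvb)).2 h
    have h2 := Fermat.Agent.S05.mem_of_mem_decomposition A hσ h1
    rw [map_div₀, ← A.valuation_le_one_iff, map_div₀] at h2
    exact (div_le_one₀ (zero_lt_iff.2 hvσb)).1 h2

lemma decomposition_lt {σ : K ≃ₐ[F] K} (hσ : σ ∈ A.decompositionSubgroup F) {a b : K}
    (h : A.valuation a < A.valuation b) : A.valuation (σ a) < A.valuation (σ b) := by
  by_contra hle
  rw [not_lt] at hle
  have := decomposition_le A (inv_mem hσ) hle
  have ea : σ⁻¹ (σ a) = a := σ.symm_apply_apply a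
  have eb : σ⁻¹ (σ b) = b := σ.symm_apply_apply b
  rw [ea, eb] at this
  exact absurd h (not_lt.2 this)

lemma exists_pow_fix [Algebra.IsAlgebraic F K] (σ : K ≃ₐ[F] K) (z : K) :
    ∃ m : ℕ, 0 < m ∧ (σ ^ m) z = z := by
  have hz : IsIntegral F z := (Algebra.IsAlgebraic.isAlgebraic z).isIntegral
  have hfin : ((minpoly F z).rootSet K).Finite := Polynomial.rootSet_finite _ _
  have hmem : ∀ k : ℕ, (σ ^ k) z ∈ (minpoly F z).rootSet K := by
    intro k
    rw [Polynomial.mem_rootSet_of_ne (minpoly.ne_zero hz)]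
    have := minpoly.aeval F ((σ ^ k) z)
    rwa [minpoly.algEquiv_eq] at this
  have : Finite ((minpoly F z).rootSet K) := hfin
  obtain ⟨i, j, hij, e⟩ := Finite.exists_ne_map_eq_of_infinite
    (fun k : ℕ => (⟨(σ ^ k) z, hmem k⟩ : (minpoly F z).rootSet K))
  have e' : (σ ^ i) z = (σ ^ j) z := congrArg Subtype.val e
  have aux : ∀ i j : ℕ, i < j → (σ ^ i) z = (σ ^ j) z → ∃ m : ℕ, 0 < m ∧ (σ ^ m) z = z := by
    intro i j hlt e
    refine ⟨j - i, by omega, ?_⟩
    have hj : σ ^ j = σ ^ i * σ ^ (j - i) := by rw [← pow_add]; congr 1; omega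
    rw [hj, AlgEquiv.mul_apply] at e
    exact ((σ ^ i).injective e).symm
  rcases lt_or_gt_of_ne hij with h | h
  · exact aux i j h e'
  · exact aux j i h e'.symm

/-- the decomposition group preserves the valuation (algebraic case) -/
theorem val_map_eq [Algebra.IsAlgebraic F K] {σ : K ≃ₐ[F] K}
    (hσ : σ ∈ A.decompositionSubgroup F) (z : K) : A.valuation (σ z) = A.valuation z := by
  obtain ⟨m, hm, e⟩ := exists_pow_fix σ z
  have hpow : ∀ k : ℕ, σ ^ k ∈ A.decompositionSubgroup F := fun k => pow_mem hσ k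
  have step : ∀ k : ℕ, (σ ^ (k + 1)) z = (σ ^ k) (σ z) := by
    intro k
    rw [pow_succ, AlgEquiv.mul_apply]
  rcases lt_trichotomy (A.valuation (σ z)) (A.valuation z) with h | h | h
  · exfalso
    have key : ∀ k : ℕ, A.valuation ((σ ^ (k + 1)) z) < A.valuation z := by
      intro k
      induction k with
      | zero => simpa using h
      | succ k ih =>
        have h1 := decomposition_lt A (hpow (k + 1)) h
        rw [← step (k + 1)] at h1
        exact h1.trans ih
    have := key (m - 1)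
    rw [show m - 1 + 1 = m by omega, e] at this
    exact lt_irrefl _ this
  · exact h
  · exfalso
    have key : ∀ k : ℕ, A.valuation z < A.valuation ((σ ^ (k + 1)) z) := by
      intro k
      induction k with
      | zero => simpa using h
      | succ k ih =>
        have h1 := decomposition_lt A (hpow (k + 1)) h
        rw [← step (k + 1)] at h1
        exact ih.trans h1
    have := key (m - 1)
    rw [show m - 1 + 1 = m by omega, e] at this
    exact lt_irrefl _ this

end Decomp

section Main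

variable {R S K : Type*} [CommRing R] [Field S] [Field K] [DecidableEq K]
  [Algebra R S] [Algebra R K] [Algebra S K] [IsScalarTower R S K] [Algebra.IsAlgebraic S K]
  {W₀ : WeierstrassCurve R} (A : ValuationSubring K) {σ : K ≃ₐ[S] K} {s₁ s₂ : K}

lemma far_smul (hσ : σ ∈ A.decompositionSubgroup S) {P : (W₀⁄K).toAffine.Point}
    (hP : Far A P) : Far A (σ • P) := by
  rcases P with _ | ⟨x, y, h⟩
  · exact hP
  · obtain ⟨h', e⟩ := Fermat.Agent.S05.algEquiv_smul_some (S := S) (E₀ := W₀) σ h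
    rw [e]
    show 1 ≤ A.valuation (σ x)
    rw [val_map_eq A hσ]
    exact hP

lemma comp2_smul (hσ : σ ∈ A.decompositionSubgroup S) (hσ₂ : σ s₂ = s₂)
    (P : (W₀⁄K).toAffine.Point) :
    comp2 A (W₀⁄K) s₂ (σ • P) = comp2 A (W₀⁄K) s₂ P := by
  rcases P with _ | ⟨x, y, h⟩
  · rfl
  · obtain ⟨h', e⟩ := Fermat.Agent.S05.algEquiv_smul_some (S := S) (E₀ := W₀) σ h
    rw [e, comp2_some, comp2_some]
    have e₂ : σ y - s₂ * σ x = σ (y - s₂ * x) := by
      rw [map_sub, map_mul, hσ₂]
    rw [e₂]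
    unfold cmp2
    rw [val_map_eq A hσ, val_map_eq A hσ]

lemma wOf_smul (hσ₁ : σ s₁ = s₁) (hσ₂ : σ s₂ = s₂) (P : (W₀⁄K).toAffine.Point) :
    wOf (W₀⁄K) s₁ s₂ (σ • P) = σ (wOf (W₀⁄K) s₁ s₂ P) := by
  rcases P with _ | ⟨x, y, h⟩
  · show (1 : K) = σ 1
    rw [map_one]
  · obtain ⟨h', e⟩ := Fermat.Agent.S05.algEquiv_smul_some (S := S) (E₀ := W₀) σ h
    rw [e, wOf_some, wOf_some, map_div₀, map_sub, map_sub, map_mul, map_mul, hσ₁, hσ₂]

lemma smul_nsmul_point (n : ℕ) (P : (W₀⁄K).toAffine.Point) : σ • (n • P) = n • (σ • P) := by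
  have := algEquiv_smul_zsmul (W' := W₀) σ (n : ℤ) P
  rwa [natCast_zsmul, natCast_zsmul] at this

/-- **N1 + N2**: inertia acts unipotently on the `n`-torsion of a two-slope model, `n` a unit -/
theorem inertia_unipotent (hσ : σ ∈ A.inertiaSubgroupIn S) (h : TwoHyp A (W₀⁄K) s₁ s₂)
    (hσ₁ : σ s₁ = s₁) (hσ₂ : σ s₂ = s₂) (n : ℕ) (hn : A.valuation (n : K) = 1)
    {P : (W₀⁄K).toAffine.Point} (hP : n • P = 0) :
    σ • (σ • P - P) = σ • P - P := by
  have hd := Fermat.Agent.S05.inertiaSubgroupIn_le_decomposition A hσ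
  -- N1
  have hQ : Far A (σ • P - P) := h.far_sub_of_comp2_eq (comp2_smul A hd hσ₂ P)
  set Q := σ • P - P with hQdef
  have hnQ : n • Q = 0 := by
    rw [hQdef, nsmul_sub, ← smul_nsmul_point, hP, smul_zero, sub_zero]
  -- N2
  have hσQ : Far A (σ • Q) := far_smul A hd hQ
  have hw : A.valuation (wOf (W₀⁄K) s₁ s₂ (σ • Q) - wOf (W₀⁄K) s₁ s₂ Q) < 1 := by
    rw [wOf_smul hσ₁ hσ₂]
    have hwA : wOf (W₀⁄K) s₁ s₂ Q ∈ A := by
      rw [← A.valuation_le_one_iff]; exact (h.v_wOf hQ).le
    have := Fermat.Agent.S05.inertia_sub_mem_nonunits A hσ hwA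
    exact (A.mem_nonunits_iff).1 this
  have hE := h.sub_inE1 hσQ hQ hw
  have hn' : n • (σ • Q - Q) = 0 := by
    rw [nsmul_sub, ← smul_nsmul_point, hnQ, smul_zero, sub_zero]
  exact sub_eq_zero.1 (h.e1_torsion_free n hn hE hn')

end Main

end Fermat.Agent.S13.K2
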