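import Fermat.Agent.S05.Kernel
import Fermat.Agent.S05.Transfer
import Fermat.Agent.S05.Arith
import Fermat.Prelude.Def_FLTPrelim_GaloisRep

/-!
# S13 (Kp): elementary facts on the model curve used by the norm argument
-/

set_option autoImplicit false
set_option linter.unusedSectionVars false

namespace Fermat.Agent.S13.Kp

open WeierstrassCurve WeierstrassCurve.Affine.Point Fermat.Agent.S05

section Model

variable {K : Type*} [Field K] [DecidableEq K] {W : WeierstrassCurve K}

/-- The `x`-coordinate (`0` at the origin). -/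
def xOf : W.toAffine.Point → K
  | .zero => 0
  | .some x _ _ => x

@[simp] lemma xOf_zero : xOf (0 : W.toAffine.Point) = 0 := rfl

@[simp] lemma xOf_some {x y : K} (h : W.toAffine.Nonsingular x y) :
    xOf (Affine.Point.some x y h) = x := rfl

lemma xOf_neg (P : W.toAffine.Point) : xOf (-P) = xOf P := by
  cases P with
  | zero => rfl
  | some x y h => rfl

/-- Two affine points of the model with the same abscissa are equal or opposite. -/
lemma eq_or_eq_neg_of_xOf_eq (hW : IsModel W) {P Q : W.toAffine.Point} (hP : P ≠ 0) (hQ : Q ≠ 0)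
    (h : xOf P = xOf Q) : Q = P ∨ Q = -P := by
  rcases P with _ | ⟨x, y, hxy⟩
  · exact absurd rfl hP
  rcases Q with _ | ⟨x', y', hxy'⟩
  · exact absurd rfl hQ
  simp only [xOf_some] at h
  subst h
  have e := hW.eq_of_nonsingular hxy
  have e' := hW.eq_of_nonsingular hxy'
  have h0 : (y' - y) * (y' + y) = 0 := by linear_combination e' - e
  rcases mul_eq_zero.1 h0 with h1 | h1
  · left
    have : y' = y := sub_eq_zero.1 h1
    subst this
    rfl
  · right
    obtain ⟨h', en⟩ := hW.neg_some hxy
    rw [en]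
    have : y' = -y := eq_neg_of_add_eq_zero_left h1
    subst this
    rfl

/-- For a nonzero point of `E₁`: `v(z)² · v(x) = 1` and `x` is not integral. -/
lemma val_zOf_sq_mul_val_xOf (A : ValuationSubring K) (hW : IsModel W) (h2 : W.a₂ ∈ A)
    (h4 : W.a₄ ∈ A) {P : W.toAffine.Point} (hP : InE1 A P) (hP0 : P ≠ 0) :
    A.valuation (zOf P) ^ 2 * A.valuation (xOf P) = 1 ∧ xOf P ∉ A := by
  rcases P with _ | ⟨x, y, hxy⟩
  · exact absurd rfl hP0
  have hx : x ∉ A := hP
  obtain ⟨hx0, hy0, -, hu, hz, -⟩ := E1_point_facts A h2 h4 (hW.eq_of_nonsingular hxy) hx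
  refine ⟨?_, hx⟩
  simp only [zOf_some, xOf_some]
  have := congrArg A.valuation hz
  rw [map_mul, map_pow, hu, mul_one, map_inv₀] at this
  rw [this]
  exact inv_mul_cancel₀ ((Valuation.ne_zero_iff _).2 hx0)

end Model

section Galois

variable {R S K : Type*} [CommRing R] [Field S] [Field K] [DecidableEq K]
  [Algebra R S] [Algebra R K] [Algebra S K] [IsScalarTower R S K]
  {W₀ : WeierstrassCurve R}

lemma xOf_smul (σ : K ≃ₐ[S] K) (P : (W₀⁄K).toAffine.Point) : xOf (σ • P) = σ (xOf P) := by
  rcases P with _ | ⟨x, y, h⟩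
  · change xOf (0 : (W₀⁄K).toAffine.Point) = σ 0
    rw [xOf_zero, _root_.map_zero]
  · obtain ⟨h', e⟩ := algEquiv_smul_some σ h
    rw [e]
    rfl

lemma zOf_smul (σ : K ≃ₐ[S] K) (P : (W₀⁄K).toAffine.Point) : zOf (σ • P) = σ (zOf P) := by
  rcases P with _ | ⟨x, y, h⟩
  · change zOf (0 : (W₀⁄K).toAffine.Point) = σ 0
    rw [zOf_zero, _root_.map_zero]
  · obtain ⟨h', e⟩ := algEquiv_smul_some σ h
    rw [e, zOf_some, zOf_some, map_div₀]

end Galois

section Rat

variable {K : Type*} [Field K] [CharZero K] (A : ValuationSubring K)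

/-- A rational number of valuation `< 1` at a valuation ring over `p` has valuation `≤ v(p)`. -/
lemma val_ratCast_le_of_lt_one {p : ℕ} (hp : p.Prime) (hA : A.LiesOverPrime p) (t : ℚ)
    (ht : A.valuation (t : K) < 1) : A.valuation (t : K) ≤ A.valuation (p : K) := by
  have hden0 : ((t.den : ℕ) : K) ≠ 0 := by exact_mod_cast t.den_ne_zero
  have hvden0 : A.valuation ((t.den : ℕ) : K) ≠ 0 := (Valuation.ne_zero_iff _).2 hden0
  have hvden : A.valuation ((t.den : ℕ) : K) ≤ 1 := by
    have := val_intCast_le_one A (t.den : ℤ)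
    simpa using this
  have hcast : (t : K) = (t.num : K) / (t.den : K) := Rat.cast_def t
  have hpnum : (p : ℤ) ∣ t.num := by
    by_contra hn
    have h1 : A.valuation ((t.num : ℤ) : K) = 1 := val_intCast_eq_one A hp hA hn
    rw [hcast, map_div₀, h1] at ht
    have : (1 : A.ValueGroup) ≤ 1 / A.valuation ((t.den : ℕ) : K) := by
      rw [le_div_iff₀ (lt_of_le_of_ne zero_le hvden0.symm), one_mul]
      exact hvden
    exact absurd ht (not_lt.2 this)
  have hpden : ¬ p ∣ t.den := by
    intro hd
    have hcop : t.num.natAbs.Coprime t.den := t.reduced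
    have h1 : p ∣ t.num.natAbs := Int.natCast_dvd.1 hpnum
    have := Nat.dvd_gcd h1 hd
    rw [hcop] at this
    exact hp.one_lt.ne' (Nat.dvd_one.1 this)
  have hvden1 : A.valuation ((t.den : ℕ) : K) = 1 := val_natCast_eq_one A hp hA hpden
  obtain ⟨m, hm⟩ := hpnum
  rw [hcast, map_div₀, hvden1, div_one, hm, Int.cast_mul, map_mul, Int.cast_natCast]
  exact mul_le_of_le_one_right zero_le (val_intCast_le_one A m)

end Rat

end Fermat.Agent.S13.Kp
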