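import Mathlib

/-!
# S13 (Kp): a Newton-polygon bound

For a polynomial `H` with coefficients in a valuation ring `A` and a finite set `T` of distinct
non-integral roots of `H`, `v (leadingCoeff H) * ∏_{ρ ∈ T} v ρ ≤ 1`.
-/

set_option autoImplicit false
set_option linter.unusedSectionVars false

namespace Fermat.Agent.S13.Kp

open Polynomial

variable {K : Type*} [Field K]

/-- One step: if `H = (X - ρ) G` has integral coefficients and `ρ` is not integral, then `ρ G` has
integral coefficients. -/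
lemma coeff_mul_mem_of_root (A : ValuationSubring K) {H G : K[X]} {ρ : K}
    (hH : ∀ i, H.coeff i ∈ A) (hρ : ρ ∉ A) (hG : H = (X - C ρ) * G) (i : ℕ) :
    ρ * G.coeff i ∈ A := by
  have hρinv : ρ⁻¹ ∈ A := by
    rcases A.mem_or_inv_mem ρ with h | h
    · exact absurd h hρ
    · exact h
  have hρ0 : ρ ≠ 0 := by rintro rfl; exact hρ A.zero_mem
  induction i with
  | zero =>
    have h0 := hH 0
    rw [hG, sub_mul, coeff_sub, coeff_X_mul_zero, coeff_C_mul, zero_sub] at h0
    simpa using A.neg_mem _ h0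
  | succ i ih =>
    have h1 := hH (i + 1)
    rw [hG, sub_mul, coeff_sub, coeff_X_mul, coeff_C_mul] at h1
    have hgi : G.coeff i ∈ A := by
      have : G.coeff i = ρ⁻¹ * (ρ * G.coeff i) := by field_simp
      rw [this]
      exact A.mul_mem _ _ hρinv ih
    have : ρ * G.coeff (i + 1) = G.coeff i - (G.coeff i - ρ * G.coeff (i + 1)) := by ring
    rw [this]
    exact sub_mem hgi h1

/-- **Newton bound.** -/
theorem newton_bound (A : ValuationSubring K) (T : Finset K) :
    ∀ H : K[X], (∀ i, H.coeff i ∈ A) → (∀ ρ ∈ T, H.IsRoot ρ) → (∀ ρ ∈ T, ρ ∉ A) →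
      A.valuation H.leadingCoeff * ∏ ρ ∈ T, A.valuation ρ ≤ 1 := by
  classical
  induction T using Finset.induction_on with
  | empty =>
    intro H hH _ _
    rw [Finset.prod_empty, mul_one]
    exact (A.valuation_le_one_iff _).2 (hH _)
  | insert ρ T hρT ih =>
    intro H hH hroot hnon
    have hρ : ρ ∉ A := hnon ρ (Finset.mem_insert_self _ _)
    obtain ⟨G, hG⟩ := dvd_iff_isRoot.2 (hroot ρ (Finset.mem_insert_self _ _))
    have hlc : H.leadingCoeff = G.leadingCoeff := by
      rw [hG, leadingCoeff_mul, leadingCoeff_X_sub_C, one_mul]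
    have hG1 : ∀ i, (C ρ * G).coeff i ∈ A := by
      intro i
      rw [coeff_C_mul]
      exact coeff_mul_mem_of_root A hH hρ hG i
    have hroot1 : ∀ ρ' ∈ T, (C ρ * G).IsRoot ρ' := by
      intro ρ' hρ'
      have h1 := hroot ρ' (Finset.mem_insert_of_mem hρ')
      rw [IsRoot.def, hG, eval_mul, eval_sub, eval_X, eval_C] at h1
      have hne : ρ' - ρ ≠ 0 := sub_ne_zero.2 (fun e => hρT (e ▸ hρ'))
      have h2 : G.eval ρ' = 0 := (mul_eq_zero.1 h1).resolve_left hne
      rw [IsRoot.def, eval_mul, h2, mul_zero]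
    have h := ih (C ρ * G) hG1 hroot1 (fun ρ' hρ' => hnon ρ' (Finset.mem_insert_of_mem hρ'))
    rw [leadingCoeff_mul, leadingCoeff_C, map_mul] at h
    rw [Finset.prod_insert hρT, hlc]
    calc A.valuation G.leadingCoeff * (A.valuation ρ * ∏ x ∈ T, A.valuation x)
        = A.valuation ρ * A.valuation G.leadingCoeff * ∏ ρ ∈ T, A.valuation ρ := by
          rw [mul_comm (A.valuation ρ) (A.valuation G.leadingCoeff), mul_assoc]
      _ ≤ 1 := h

end Fermat.Agent.S13.Kp
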