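import Fermat.Agent.S13.KpModel
import Fermat.Agent.S13.KpNewton
import Fermat.Agent.S13.Glue
import Fermat.Agent.S13.FreyCard
import Fermat.Agent.S05.Final

/-!
# S13 (Kp), step (i): the `p`-torsion is not contained in the kernel of reduction

If a Galois-stable line `N` exists in the `p`-torsion `V` of the Frey curve, then for a valuation
ring `A` over `p` not all of `V` reduces to the origin.  Norm argument: `∏_{x ∈ N∖0} z_x` is
rational of valuation `< 1`, hence `≤ v(p)`; the Newton bound for the ladder polynomial (leading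
coefficient `p`) applied to the abscissas of `N∖0` and of one further point gives the opposite
strict inequality.
-/

set_option autoImplicit false
set_option linter.unusedSectionVars false

namespace Fermat.Agent.S13.Kp

open WeierstrassCurve WeierstrassCurve.Affine.Point Fermat.Agent.S05 Polynomial

local notation "Qb" => AlgebraicClosure ℚ
local notation "GQ" => (AlgebraicClosure ℚ ≃ₐ[ℚ] AlgebraicClosure ℚ)

/-- The `p`-torsion of the Frey curve over `ℚ̄`. -/
abbrev TorV (P : FreyPackage) : Type :=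
  Submodule.torsionBy ℤ (P.freyCurve⁄Qb).toAffine.Point P.p

variable (P : FreyPackage) (r : ℤ)
  (hT : IsTransfer (P.freyCurve⁄Qb) ((freyModel P r)⁄Qb) (algebraMap ℚ Qb (r : ℚ)))

/-- The formal parameter of the image on the model. -/
noncomputable def zt (x : TorV P) : Qb := zOf (transfer hT x.1)

/-- The abscissa of the image on the model. -/
noncomputable def xt (x : TorV P) : Qb := xOf (transfer hT x.1)

variable {P r}

lemma transfer_ne_zero {x : TorV P} (hx : x ≠ 0) : transfer hT x.1 ≠ 0 := by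
  intro h
  apply hx
  apply Subtype.ext
  apply transfer_injective hT
  rw [h]
  rfl

lemma transfer_neg (Q : (P.freyCurve⁄Qb).toAffine.Point) :
    transfer hT (-Q) = -transfer hT Q :=
  map_neg (transferHom hT) Q

lemma transfer_nsmul (n : ℕ) (Q : (P.freyCurve⁄Qb).toAffine.Point) :
    transfer hT (n • Q) = n • transfer hT Q :=
  map_nsmul (transferHom hT) n Q

lemma transfer_sub (Q Q' : (P.freyCurve⁄Qb).toAffine.Point) :
    transfer hT (Q - Q') = transfer hT Q - transfer hT Q' :=
  map_sub (transferHom hT) Q Q'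

lemma transfer_torsion (x : TorV P) : P.p • transfer hT x.1 = 0 := by
  have hx : (P.p : ℤ) • x.1 = 0 := by
    have := x.2
    rwa [Submodule.mem_torsionBy_iff] at this
  have hxn : P.p • x.1 = 0 := by rwa [natCast_zsmul] at hx
  rw [← transfer_nsmul, hxn]
  rfl

lemma zt_smul (σ : GQ) (x : TorV P) : zt P r hT (σ • x) = σ (zt P r hT x) := by
  unfold zt
  have e : (σ • x).1 = σ • x.1 := rfl
  rw [e, transfer_smul hT σ x.1, zOf_smul]

lemma xt_neg (x : TorV P) : xt P r hT (-x) = xt P r hT x := by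
  unfold xt
  have e : (-x).1 = -x.1 := rfl
  rw [e, transfer_neg, xOf_neg]

lemma eq_or_eq_neg_of_xt_eq {x x' : TorV P} (hx : x ≠ 0) (hx' : x' ≠ 0)
    (h : xt P r hT x = xt P r hT x') : x' = x ∨ x' = -x := by
  rcases eq_or_eq_neg_of_xOf_eq hT.W_model (transfer_ne_zero hT hx) (transfer_ne_zero hT hx') h
    with h1 | h1
  · left
    exact Subtype.ext (transfer_injective hT h1)
  · right
    apply Subtype.ext
    apply transfer_injective hT
    rw [h1, ← transfer_neg]
    rfl

lemma two_nsmul_ne_zero {x : TorV P} (hx : x ≠ 0) : x ≠ -x := by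
  intro h
  apply hx
  have h2 : (2 : ℤ) • x = 0 := by
    rw [two_smul]
    nth_rewrite 1 [h]
    exact neg_add_cancel x
  have hp : (P.p : ℤ) • x = 0 := by
    apply Subtype.ext
    have := x.2
    rw [Submodule.mem_torsionBy_iff] at this
    exact this
  have hodd : Odd P.p := P.pp.odd_of_ne_two (by have := P.hp5; omega)
  obtain ⟨k, hk⟩ := hodd
  have h1 : ((P.p : ℤ) - (k : ℤ) * 2) = 1 := by
    rw [hk]; push_cast; ring
  have : x = (P.p : ℤ) • x - (k : ℤ) • ((2 : ℤ) • x) := by
    rw [smul_smul, ← sub_smul, h1, one_smul]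
  rw [this, hp, h2, smul_zero, sub_zero]

section Main

variable (A : ValuationSubring Qb) (hA : A.LiesOverPrime P.p)

include hA in
/-- **Step (i).** Not all of the `p`-torsion lies in the kernel of reduction. -/
theorem exists_not_InE1
    (N : Submodule (ZMod P.p) (TorV P)) (hN : IsGaloisStable ℚ N) (hbot : N ≠ ⊥) (htop : N ≠ ⊤) :
    ∃ x : TorV P, ¬ InE1 A (transfer hT x.1) := by
  classical
  by_contra hall
  rw [not_exists] at hall
  have hall' : ∀ x : TorV P, InE1 A (transfer hT x.1) := fun x => not_not.1 (hall x)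
  have : Fact P.p.Prime := ⟨P.pp⟩
  have hfin : Finite (TorV P) := frey_torsion_finite P
  let _ : Fintype (TorV P) := Fintype.ofFinite _
  have hcard : Nat.card (TorV P) ≤ P.p ^ 2 := frey_torsion_card_le P
  obtain ⟨x₀, hx₀N, y, hy, hx₀, -⟩ := exists_basis_of_card_le hcard N hbot htop
  have hy0 : y ≠ 0 := fun h => hy (h ▸ N.zero_mem)
  -- the model
  have hW : IsModel ((freyModel P r)⁄Qb) := hT.W_model
  have ha₂ : ((freyModel P r)⁄Qb).a₂ ∈ A := by
    have : ((freyModel P r)⁄Qb).a₂ = ((3 * r + (P.b ^ P.p - P.a ^ P.p) : ℤ) : Qb) := by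
      simp [WeierstrassCurve.baseChange, freyModel]
    rw [this]; exact intCast_mem A _
  have ha₄ : ((freyModel P r)⁄Qb).a₄ ∈ A := by
    have : ((freyModel P r)⁄Qb).a₄ =
        ((3 * r ^ 2 + 2 * r * (P.b ^ P.p - P.a ^ P.p) - P.a ^ P.p * P.b ^ P.p : ℤ) : Qb) := by
      simp [WeierstrassCurve.baseChange, freyModel]
    rw [this]; exact intCast_mem A _
  have hint : ∃ a₂ a₄ : ℤ, ((freyModel P r)⁄Qb).a₂ = a₂ ∧ ((freyModel P r)⁄Qb).a₄ = a₄ :=
    ⟨3 * r + (P.b ^ P.p - P.a ^ P.p),
      3 * r ^ 2 + 2 * r * (P.b ^ P.p - P.a ^ P.p) - P.a ^ P.p * P.b ^ P.p,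
      by simp [WeierstrassCurve.baseChange, freyModel],
      by simp [WeierstrassCurve.baseChange, freyModel]⟩
  obtain ⟨H, hHlc, hHroot⟩ := frey_hH P _ hW hT.hΔ hint
  -- valuations of the coordinates
  have hval : ∀ x : TorV P, x ≠ 0 →
      A.valuation (zt P r hT x) ^ 2 * A.valuation (xt P r hT x) = 1 ∧ xt P r hT x ∉ A :=
    fun x hx => val_zOf_sq_mul_val_xOf A hW ha₂ ha₄ (hall' x) (transfer_ne_zero hT hx)
  have hzlt : ∀ x : TorV P, A.valuation (zt P r hT x) < 1 := fun x =>
    (A.mem_nonunits_iff).1 (zOf_mem_nonunits A hW ha₂ ha₄ (hall' x))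
  -- the set `N ∖ 0`
  set s : Finset (TorV P) := Finset.univ.filter (fun x => x ∈ N ∧ x ≠ 0) with hs
  have hmem : ∀ x, x ∈ s ↔ x ∈ N ∧ x ≠ 0 := fun x => by simp [hs]
  have hx₀s : x₀ ∈ s := (hmem x₀).2 ⟨hx₀N, hx₀⟩
  -- the norm
  set NL : Qb := ∏ x ∈ s, zt P r hT x with hNL
  have hfix : ∀ σ : GQ, σ NL = NL := by
    intro σ
    rw [hNL, map_prod]
    refine Finset.prod_bij (fun x _ => σ • x) ?_ ?_ ?_ ?_
    · intro x hx
      rw [hmem] at hx ⊢
      refine ⟨hN σ x hx.1, fun h => hx.2 ?_⟩
      have := congrArg (fun z => σ⁻¹ • z) h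
      simpa using this
    · intro x _ x' _ h
      have := congrArg (fun z => σ⁻¹ • z) h
      simpa using this
    · intro x hx
      rw [hmem] at hx
      refine ⟨σ⁻¹ • x, ?_, by simp⟩
      rw [hmem]
      refine ⟨hN σ⁻¹ x hx.1, fun h => hx.2 ?_⟩
      have := congrArg (fun z => σ • z) h
      simpa using this
    · intro x _
      exact (zt_smul hT σ x).symm
  have halg : Algebra.IsAlgebraic ℚ Qb := AlgebraicClosure.isAlgebraic ℚ
  have hcl : IsAlgClosure ℚ Qb := ⟨inferInstance, inferInstance⟩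
  have hgal : IsGalois ℚ Qb := IsAlgClosure.isGalois ℚ Qb
  obtain ⟨t, ht⟩ := (InfiniteGalois.mem_range_algebraMap_iff_fixed (k := ℚ) (K := Qb) NL).2 hfix
  have ht' : ((t : ℚ) : Qb) = NL := by rw [← ht]; exact (eq_ratCast (algebraMap ℚ Qb) t).symm
  -- `v(NL) < 1`
  have hNLlt : A.valuation NL < 1 := by
    rw [hNL, map_prod, ← Finset.mul_prod_erase s _ hx₀s]
    have h1 : ∏ x ∈ s.erase x₀, A.valuation (zt P r hT x) ≤ 1 :=
      Finset.prod_le_one' (fun x _ => (hzlt x).le)
    calc A.valuation (zt P r hT x₀) * ∏ x ∈ s.erase x₀, A.valuation (zt P r hT x)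
        ≤ A.valuation (zt P r hT x₀) * 1 := mul_le_mul_right h1 _
      _ < 1 := by rw [mul_one]; exact hzlt x₀
  have hNLle : A.valuation NL ≤ A.valuation (P.p : Qb) := by
    rw [← ht'] at hNLlt ⊢
    exact val_ratCast_le_of_lt_one A P.pp hA t hNLlt
  -- the product of the valuations of the abscissas
  set B : A.ValueGroup := ∏ ρ ∈ s.image (xt P r hT), A.valuation ρ with hB
  have hB2 : B ^ 2 = ∏ x ∈ s, A.valuation (xt P r hT x) := by
    rw [hB, ← Finset.prod_pow]
    apply Finset.prod_image'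
    intro c hc
    have hc' := (hmem c).1 hc
    have hfilt : s.filter (fun j => xt P r hT j = xt P r hT c) = {c, -c} := by
      ext j
      simp only [Finset.mem_filter, Finset.mem_insert, Finset.mem_singleton, hmem]
      constructor
      · rintro ⟨⟨-, hj0⟩, hj⟩
        exact eq_or_eq_neg_of_xt_eq hT hc'.2 hj0 hj.symm
      · rintro (rfl | rfl)
        · exact ⟨hc', rfl⟩
        · exact ⟨⟨N.neg_mem hc'.1, neg_ne_zero.2 hc'.2⟩, xt_neg hT c⟩
    rw [hfilt, Finset.prod_pair (two_nsmul_ne_zero hc'.2), xt_neg, sq]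
  have hprod : A.valuation NL ^ 2 * B ^ 2 = 1 := by
    rw [hB2, hNL, map_prod, ← Finset.prod_pow, ← Finset.prod_mul_distrib]
    exact Finset.prod_eq_one (fun x hx => (hval x ((hmem x).1 hx).2).1)
  have hNB : A.valuation NL * B = 1 := by
    rw [← mul_pow] at hprod
    exact (pow_eq_one_iff_of_nonneg zero_le (by norm_num)).1 hprod
  -- the Newton bound
  have hynot : xt P r hT y ∉ s.image (xt P r hT) := by
    intro h
    obtain ⟨x, hx, hxy⟩ := Finset.mem_image.1 h
    have hx' := (hmem x).1 hx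
    rcases eq_or_eq_neg_of_xt_eq hT hx'.2 hy0 hxy with h1 | h1
    · exact hy (h1 ▸ hx'.1)
    · exact hy (h1 ▸ N.neg_mem hx'.1)
  set Hq : Qb[X] := H.map (Int.castRingHom Qb) with hHq
  have hHqcoeff : ∀ i, Hq.coeff i ∈ A := by
    intro i
    rw [hHq, coeff_map]
    exact intCast_mem A _
  have hHqlc : Hq.leadingCoeff = (P.p : Qb) := by
    rw [hHq, leadingCoeff_map_of_injective (RingHom.injective_int (Int.castRingHom Qb)), hHlc]
    simp
  have hHqroot : ∀ x : TorV P, x ≠ 0 → Hq.IsRoot (xt P r hT x) := by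
    intro x hx
    have h0 := transfer_ne_zero hT hx
    have htor := transfer_torsion hT x
    unfold xt
    rcases hx1 : transfer hT x.1 with _ | ⟨X, Y, hXY⟩
    · exact absurd hx1 h0
    · rw [hx1] at htor
      have := hHroot X Y hXY htor
      rw [IsRoot.def, hHq, xOf_some]
      rw [← this, aeval_def, eval₂_eq_eval_map]
      congr 2
  have hnewton := newton_bound A (insert (xt P r hT y) (s.image (xt P r hT))) Hq hHqcoeff
    (by
      intro ρ hρ
      rcases Finset.mem_insert.1 hρ with rfl | hρ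
      · exact hHqroot y hy0
      · obtain ⟨x, hx, rfl⟩ := Finset.mem_image.1 hρ
        exact hHqroot x ((hmem x).1 hx).2)
    (by
      intro ρ hρ
      rcases Finset.mem_insert.1 hρ with rfl | hρ
      · exact (hval y hy0).2
      · obtain ⟨x, hx, rfl⟩ := Finset.mem_image.1 hρ
        exact (hval x ((hmem x).1 hx).2).2)
  rw [Finset.prod_insert hynot, hHqlc, ← hB] at hnewton
  -- conclusion
  have hvp0 : A.valuation (P.p : Qb) ≠ 0 :=
    (Valuation.ne_zero_iff _).2 (by exact_mod_cast P.pp.ne_zero)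
  have hvy : 1 < A.valuation (xt P r hT y) := val_gt_one_of_not_mem A (hval y hy0).2
  have h1 : A.valuation (P.p : Qb) * A.valuation (xt P r hT y) ≤ A.valuation (P.p : Qb) := by
    calc A.valuation (P.p : Qb) * A.valuation (xt P r hT y)
        = (A.valuation (P.p : Qb) * (A.valuation (xt P r hT y) * B)) * A.valuation NL := by
          rw [mul_assoc, mul_assoc, mul_comm B, hNB, mul_one]
      _ ≤ 1 * A.valuation NL := mul_le_mul_left hnewton _
      _ = A.valuation NL := one_mul _
      _ ≤ A.valuation (P.p : Qb) := hNLle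
  have h2 : A.valuation (xt P r hT y) ≤ 1 := by
    have := (mul_le_iff_le_one_right (lt_of_le_of_ne zero_le hvp0.symm)).1 h1
    exact this
  exact absurd hvy (not_lt.2 h2)

end Main

end Fermat.Agent.S13.Kp
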