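import Fermat.Agent.S13.LadderInt

/-!
# S13 (K0): at most `p²` points are killed by an odd prime `p`
-/

set_option autoImplicit false
set_option linter.unusedSectionVars false
set_option linter.unusedVariables false

namespace Fermat.Agent.S13

open WeierstrassCurve Polynomial Fermat.Agent.S05

variable {K : Type*} [Field K] [DecidableEq K] {W : WeierstrassCurve K}

/-- a point as an optional pair of coordinates -/
def pointToPair : W.toAffine.Point → Option (K × K)
  | .zero => none
  | .some x y _ => some (x, y)

lemma pointToPair_injective : Function.Injective (pointToPair (W := W)) := by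
  intro P Q h
  cases P with
  | zero =>
    cases Q with
    | zero => rfl
    | some x y hxy => simp [pointToPair] at h
  | some x y hxy =>
    cases Q with
    | zero => simp [pointToPair] at h
    | some x' y' hxy' =>
      simp only [pointToPair, Option.some.injEq, Prod.mk.injEq] at h
      obtain ⟨rfl, rfl⟩ := h
      rfl

/-- the finite set of pairs `(x, y)` with `H(x) = 0` and `y² = g(x)` -/
noncomputable def pairSet (H : K[X]) (g : K → K) : Finset (K × K) :=
  H.roots.toFinset.biUnion fun x => ((X ^ 2 - C (g x) : K[X]).roots.toFinset).image (Prod.mk x)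

lemma mem_pairSet {H : K[X]} (hH : H ≠ 0) {g : K → K} {x y : K} (hx : H.eval x = 0)
    (hy : y ^ 2 = g x) : (x, y) ∈ pairSet H g := by
  simp only [pairSet, Finset.mem_biUnion, Multiset.mem_toFinset, Finset.mem_image]
  refine ⟨x, (mem_roots hH).2 hx, y, ?_, rfl⟩
  rw [mem_roots (X_pow_sub_C_ne_zero (by norm_num) _)]
  simp [hy]

lemma card_pairSet_le (H : K[X]) (g : K → K) : (pairSet H g).card ≤ 2 * H.natDegree := by
  refine (Finset.card_biUnion_le).trans ?_
  have h1 : ∀ x ∈ H.roots.toFinset,
      (((X ^ 2 - C (g x) : K[X]).roots.toFinset).image (Prod.mk x)).card ≤ 2 := by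
    intro x _
    refine (Finset.card_image_le).trans ((Multiset.toFinset_card_le _).trans ?_)
    refine (card_roots' _).trans ?_
    rw [natDegree_X_pow_sub_C]
  refine (Finset.sum_le_card_nsmul _ _ 2 h1).trans ?_
  rw [smul_eq_mul, mul_comm]
  exact Nat.mul_le_mul_left 2 ((Multiset.toFinset_card_le _).trans (card_roots' _))

/-- **Card bound**: on the model curve at most `p²` points are killed by the odd prime `p`. -/
theorem card_torsion_le [CharZero K] (hW : IsModel W) {p : ℕ} (hp : p.Prime) (hp2 : p ≠ 2) :
    Set.Finite {Q : W.toAffine.Point | p • Q = 0} ∧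
      Set.ncard {Q : W.toAffine.Point | p • Q = 0} ≤ p ^ 2 := by
  obtain ⟨m, hm, rfl⟩ := exists_half_of_odd_prime hp hp2
  have hne : ((2 * m + 1 : ℕ) : K) ≠ 0 := by exact_mod_cast hp.ne_zero
  have hH := ladderH_ne_zero W.a₂ W.a₄ hm hne
  have hd := ladderH_natDegree_le W.a₂ W.a₄ hm
  set H := ladderH W.a₂ W.a₄ m with hHdef
  set g : K → K := fun x => x ^ 3 + W.a₂ * x ^ 2 + W.a₄ * x with hg
  set S : Set (Option (K × K)) := insert none (some '' (pairSet H g : Set (K × K))) with hS
  have hSfin : S.Finite := (Set.Finite.image _ (Finset.finite_toSet _)).insert _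
  have hsub : pointToPair '' {Q : W.toAffine.Point | (2 * m + 1) • Q = 0} ⊆ S := by
    rintro _ ⟨Q, hQ, rfl⟩
    cases Q with
    | zero => exact Set.mem_insert _ _
    | some x y hxy =>
      refine Set.mem_insert_of_mem _ ⟨(x, y), ?_, rfl⟩
      have h2 : (2 : K) ≠ 0 := two_ne_zero
      exact mem_pairSet hH (ladderH_eval_eq_zero hW h2 hxy hm hp hQ) (hW.eq_of_nonsingular hxy)
  have hfin : Set.Finite {Q : W.toAffine.Point | (2 * m + 1) • Q = 0} :=
    Set.Finite.of_finite_image (hSfin.subset hsub) pointToPair_injective.injOn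
  refine ⟨hfin, ?_⟩
  rw [← Set.ncard_image_of_injective _ pointToPair_injective]
  refine (Set.ncard_le_ncard hsub hSfin).trans ?_
  refine (Set.ncard_insert_le _ _).trans ?_
  have h3 : (some '' (pairSet H g : Set (K × K))).ncard ≤ 2 * (2 * m ^ 2 + 2 * m) := by
    rw [Set.ncard_image_of_injective _ (Option.some_injective _), Set.ncard_coe_finset]
    exact (card_pairSet_le H g).trans (Nat.mul_le_mul_left 2 hd)
  have h4 : (2 * m + 1) ^ 2 = 2 * (2 * m ^ 2 + 2 * m) + 1 := by ring
  omega

end Fermat.Agent.S13
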