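import Mathlib

/-!
# S13 (K0), L1: the (reduced) ladder polynomials

`ladder a₂ a₄ n = (Xₙ, Zₙ)` are polynomials in `x` with `x(nP) = Xₙ(x)/Zₙ(x)` on the curve
`Y² = X³ + a₂X² + a₄X`.  `Xₙ` has degree `n²` and top coefficient `1`, `Zₙ` has degree `n² - 1`
and top coefficient `n²`; `x ∣ Xₙ` for odd `n` and `x ∣ Zₙ` for even `n`.
`ladderH a₂ a₄ m = X_m Z_{m+1} - X_{m+1} Z_m` has degree `2m² + 2m` and top coefficient `2m + 1`.
-/

set_option autoImplicit false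

namespace Fermat.Agent.S13

open Polynomial

variable {R : Type*} [CommRing R]

/-- doubling on projective `x`-coordinates -/
noncomputable def ladderDbl (a₂ a₄ : R) (p : R[X] × R[X]) : R[X] × R[X] :=
  ((p.1 ^ 2 - C a₄ * p.2 ^ 2) ^ 2,
    4 * p.1 * p.2 * (p.1 ^ 2 + C a₂ * p.1 * p.2 + C a₄ * p.2 ^ 2))

/-- differential addition on projective `x`-coordinates, the difference being `(X : 1)`, with
the common factor `X` removed -/
noncomputable def ladderAdd (a₄ : R) (p q : R[X] × R[X]) : R[X] × R[X] :=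
  (X * (p.1 * q.1 - C a₄ * p.2 * q.2).divX ^ 2, (p.1 * q.2 - q.1 * p.2) ^ 2)

/-- the ladder polynomials `(Xₙ, Zₙ)` -/
noncomputable def ladder (a₂ a₄ : R) : ℕ → R[X] × R[X]
  | 0 => (1, 0)
  | 1 => (X, 1)
  | (n + 2) =>
    if n % 2 = 0 then ladderDbl a₂ a₄ (ladder a₂ a₄ (n / 2 + 1))
    else ladderAdd a₄ (ladder a₂ a₄ ((n + 1) / 2)) (ladder a₂ a₄ ((n + 1) / 2 + 1))
termination_by n => n
decreasing_by all_goals omega

lemma ladder_one (a₂ a₄ : R) : ladder a₂ a₄ 1 = (X, 1) := by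
  rw [ladder]

lemma ladder_two_mul (a₂ a₄ : R) {n : ℕ} (hn : 1 ≤ n) :
    ladder a₂ a₄ (2 * n) = ladderDbl a₂ a₄ (ladder a₂ a₄ n) := by
  obtain ⟨m, rfl⟩ : ∃ m, n = m + 1 := ⟨n - 1, by omega⟩
  have e : 2 * (m + 1) = 2 * m + 2 := by ring
  rw [e, ladder]
  have h1 : (2 * m) % 2 = 0 := by omega
  have h2 : (2 * m) / 2 + 1 = m + 1 := by omega
  rw [if_pos h1, h2]

lemma ladder_two_mul_add_one (a₂ a₄ : R) {k : ℕ} (hk : 1 ≤ k) :
    ladder a₂ a₄ (2 * k + 1) =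
      ladderAdd a₄ (ladder a₂ a₄ k) (ladder a₂ a₄ (k + 1)) := by
  obtain ⟨m, rfl⟩ : ∃ m, k = m + 1 := ⟨k - 1, by omega⟩
  have e : 2 * (m + 1) + 1 = (2 * m + 1) + 2 := by ring
  rw [e, ladder]
  have h1 : ¬ (2 * m + 1) % 2 = 0 := by omega
  have h2 : (2 * m + 1 + 1) / 2 = m + 1 := by omega
  rw [if_neg h1, h2]

lemma divX_map' {S : Type*} [CommRing S] (f : R →+* S) (p : R[X]) :
    (p.map f).divX = p.divX.map f := by
  ext n
  simp [coeff_divX]

/-- the ladder commutes with ring homomorphisms -/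
lemma ladder_map {S : Type*} [CommRing S] (f : R →+* S) (a₂ a₄ : R) (n : ℕ) (hn : 1 ≤ n) :
    ladder (f a₂) (f a₄) n = ((ladder a₂ a₄ n).1.map f, (ladder a₂ a₄ n).2.map f) := by
  induction n using Nat.strong_induction_on with
  | _ n ih =>
    rcases Nat.even_or_odd' n with ⟨k, rfl | rfl⟩
    · have hk : 1 ≤ k := by omega
      rw [ladder_two_mul _ _ hk, ladder_two_mul _ _ hk, ih k (by omega) hk]
      simp [ladderDbl]
    · rcases Nat.eq_zero_or_pos k with rfl | hk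
      · simp [ladder_one]
      · rw [ladder_two_mul_add_one _ _ hk, ladder_two_mul_add_one _ _ hk, ih k (by omega) hk,
          ih (k + 1) (by omega) (by omega)]
        simp only [ladderAdd, Polynomial.map_mul, Polynomial.map_pow, Polynomial.map_sub,
          Polynomial.map_X, Polynomial.map_C, ← divX_map']

/-- `p` has degree at most `m` and its coefficient of degree `m` is `a`. -/
def HasTop (p : R[X]) (m : ℕ) (a : R) : Prop := p.natDegree ≤ m ∧ p.coeff m = a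

lemma HasTop.mul {p q : R[X]} {m n : ℕ} {a b : R} (hp : HasTop p m a) (hq : HasTop q n b) :
    HasTop (p * q) (m + n) (a * b) :=
  ⟨natDegree_mul_le_of_le hp.1 hq.1, by
    rw [coeff_mul_add_eq_of_natDegree_le hp.1 hq.1, hp.2, hq.2]⟩

lemma HasTop.pow {p : R[X]} {m : ℕ} {a : R} (hp : HasTop p m a) (k : ℕ) :
    HasTop (p ^ k) (k * m) (a ^ k) :=
  ⟨natDegree_pow_le_of_le k hp.1, by rw [coeff_pow_of_natDegree_le hp.1, hp.2]⟩

lemma HasTop.add {p q : R[X]} {m : ℕ} {a b : R} (hp : HasTop p m a) (hq : HasTop q m b) :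
    HasTop (p + q) m (a + b) :=
  ⟨natDegree_add_le_of_degree_le hp.1 hq.1, by rw [coeff_add, hp.2, hq.2]⟩

lemma HasTop.sub {p q : R[X]} {m : ℕ} {a b : R} (hp : HasTop p m a) (hq : HasTop q m b) :
    HasTop (p - q) m (a - b) :=
  ⟨(natDegree_sub_le_of_le hp.1 hq.1).trans (by simp), by rw [coeff_sub, hp.2, hq.2]⟩

lemma HasTop.of_lt {p : R[X]} {m n : ℕ} {a : R} (hp : HasTop p m a) (h : m < n) :
    HasTop p n 0 :=
  ⟨hp.1.trans h.le, coeff_eq_zero_of_natDegree_lt (lt_of_le_of_lt hp.1 h)⟩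

lemma HasTop.C_mul {p : R[X]} {m : ℕ} {a : R} (c : R) (hp : HasTop p m a) :
    HasTop (C c * p) m (c * a) :=
  ⟨(natDegree_C_mul_le c p).trans hp.1, by rw [coeff_C_mul, hp.2]⟩

lemma HasTop.congr {p : R[X]} {m n : ℕ} {a b : R} (hp : HasTop p m a) (h : m = n) (h' : a = b) :
    HasTop p n b := by
  subst h; subst h'; exact hp

lemma hasTop_X : HasTop (X : R[X]) 1 1 := ⟨natDegree_X_le, coeff_X_one⟩

lemma hasTop_one : HasTop (1 : R[X]) 0 1 := ⟨by simp, by simp⟩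

lemma hasTop_zero (m : ℕ) : HasTop (0 : R[X]) m 0 := ⟨by simp, by simp⟩

lemma HasTop.divX {p : R[X]} {m : ℕ} {a : R} (hp : HasTop p (m + 1) a) :
    HasTop p.divX m a := by
  refine ⟨?_, by rw [coeff_divX, hp.2]⟩
  rw [natDegree_divX_eq_natDegree_tsub_one]
  have := hp.1
  omega

/-- Shape of the pair `(Xₙ, Zₙ)`. -/
structure LadderShape (n : ℕ) (p : R[X] × R[X]) : Prop where
  topX : HasTop p.1 (n ^ 2) 1
  topZ : HasTop p.2 (n ^ 2 - 1) ((n : R) ^ 2)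
  zeroX : Odd n → p.1.coeff 0 = 0
  zeroZ : Even n → p.2.coeff 0 = 0

lemma ladderShape_one (a₂ a₄ : R) : LadderShape 1 (ladder a₂ a₄ 1) := by
  rw [ladder_one]
  refine ⟨hasTop_X.congr (by norm_num) rfl, hasTop_one.congr (by norm_num) (by simp), ?_, ?_⟩
  · intro _; simp
  · intro h; exact absurd h (by decide)

lemma ladderShape_dbl (a₂ a₄ : R) {n : ℕ} (hn : 1 ≤ n) {p : R[X] × R[X]}
    (h : LadderShape n p) : LadderShape (2 * n) (ladderDbl a₂ a₄ p) := by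
  obtain ⟨hX, hZ, zX, zZ⟩ := h
  have hn2 : 1 ≤ n ^ 2 := Nat.one_le_pow _ _ hn
  -- `X² - a₄ Z²`
  have hX2 := hX.pow 2
  have hZ2 := (hZ.pow 2).C_mul a₄
  have hZ2' := hZ2.of_lt (n := 2 * n ^ 2) (by omega)
  have hA := hX2.sub hZ2'
  -- `X² + a₂ X Z + a₄ Z²`
  have hXZ := ((hX.mul hZ).C_mul a₂).of_lt (n := 2 * n ^ 2) (by omega)
  have hB := (hX2.add hXZ).add hZ2'
  have h4 : HasTop (4 : R[X]) 0 4 := by
    have e : (4 : R[X]) = C 4 := (map_ofNat C 4).symm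
    rw [e]
    exact ⟨natDegree_C _ |>.le, by simp⟩
  have hC := ((h4.mul hX).mul hZ).mul hB
  refine ⟨(hA.pow 2).congr (by ring) (by simp), ?_, ?_, ?_⟩
  · simp only [ladderDbl]
    have e : (C a₂ * p.1 * p.2 : R[X]) = C a₂ * (p.1 * p.2) := by ring
    rw [e]
    refine hC.congr ?_ ?_
    · have : (2 * n) ^ 2 = 4 * n ^ 2 := by ring
      omega
    · push_cast; ring
  · intro h
    exact absurd h (by simp)
  · intro _
    simp only [ladderDbl]
    rcases Nat.even_or_odd n with he | ho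
    · simp [mul_coeff_zero, zZ he]
    · simp [mul_coeff_zero, zX ho]

/-- shape of the cross term `X_k Z_{k+1} - X_{k+1} Z_k` -/
lemma hasTop_cross {k : ℕ} (hk : 1 ≤ k) {p q : R[X] × R[X]}
    (hp : LadderShape k p) (hq : LadderShape (k + 1) q) :
    HasTop (p.1 * q.2 - q.1 * p.2) (2 * k ^ 2 + 2 * k) ((2 * k + 1 : ℕ) : R) := by
  have hk2 : 1 ≤ k ^ 2 := Nat.one_le_pow _ _ hk
  have e1 : k ^ 2 + ((k + 1) ^ 2 - 1) = 2 * k ^ 2 + 2 * k := by
    have : (k + 1) ^ 2 = k ^ 2 + 2 * k + 1 := by ring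
    omega
  have e2 : (k + 1) ^ 2 + (k ^ 2 - 1) = 2 * k ^ 2 + 2 * k := by
    have : (k + 1) ^ 2 = k ^ 2 + 2 * k + 1 := by ring
    omega
  have h1 := (hp.topX.mul hq.topZ).congr e1 rfl
  have h2 := (hq.topX.mul hp.topZ).congr e2 rfl
  refine (h1.sub h2).congr rfl ?_
  push_cast
  ring

lemma ladderShape_add (a₄ : R) {k : ℕ} (hk : 1 ≤ k) {p q : R[X] × R[X]}
    (hp : LadderShape k p) (hq : LadderShape (k + 1) q) :
    LadderShape (2 * k + 1) (ladderAdd a₄ p q) := by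
  have hk2 : 1 ≤ k ^ 2 := Nat.one_le_pow _ _ hk
  have hsq : (k + 1) ^ 2 = k ^ 2 + 2 * k + 1 := by ring
  have hcross := hasTop_cross hk hp hq
  -- `U = X_k X_{k+1} - a₄ Z_k Z_{k+1}`
  have h1 := (hp.topX.mul hq.topX).congr (n := 2 * k ^ 2 + 2 * k + 1) (by omega) rfl
  have h2 := ((hp.topZ.mul hq.topZ).C_mul a₄).of_lt (n := 2 * k ^ 2 + 2 * k + 1) (by omega)
  have hU := (h1.sub h2).divX
  have hX' := hasTop_X.mul (hU.pow 2)
  refine ⟨?_, ?_, ?_, ?_⟩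
  · simp only [ladderAdd]
    have e : (C a₄ * p.2 * q.2 : R[X]) = C a₄ * (p.2 * q.2) := by ring
    rw [e]
    refine hX'.congr ?_ (by simp)
    ring
  · simp only [ladderAdd]
    refine (hcross.pow 2).congr ?_ ?_
    · have : (2 * k + 1) ^ 2 = 4 * k ^ 2 + 4 * k + 1 := by ring
      omega
    · rfl
  · intro _
    simp [ladderAdd, mul_coeff_zero]
  · intro h
    exact absurd h (by simp [parity_simps])

/-- The shape of the ladder polynomials. -/
theorem ladder_shape (a₂ a₄ : R) (n : ℕ) (hn : 1 ≤ n) : LadderShape n (ladder a₂ a₄ n) := by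
  induction n using Nat.strong_induction_on with
  | _ n ih =>
    rcases Nat.even_or_odd' n with ⟨k, rfl | rfl⟩
    · have hk : 1 ≤ k := by omega
      rw [ladder_two_mul _ _ hk]
      exact ladderShape_dbl a₂ a₄ hk (ih k (by omega) hk)
    · rcases Nat.eq_zero_or_pos k with rfl | hk
      · exact ladderShape_one a₂ a₄
      · rw [ladder_two_mul_add_one _ _ hk]
        exact ladderShape_add a₄ hk (ih k (by omega) hk) (ih (k + 1) (by omega) (by omega))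

/-- the polynomial `H_m = X_m Z_{m+1} - X_{m+1} Z_m`, whose roots are the `x`-coordinates of the
points of order `2m + 1` -/
noncomputable def ladderH (a₂ a₄ : R) (m : ℕ) : R[X] :=
  (ladder a₂ a₄ m).1 * (ladder a₂ a₄ (m + 1)).2 - (ladder a₂ a₄ (m + 1)).1 * (ladder a₂ a₄ m).2

lemma ladderH_hasTop (a₂ a₄ : R) {m : ℕ} (hm : 1 ≤ m) :
    HasTop (ladderH a₂ a₄ m) (2 * m ^ 2 + 2 * m) ((2 * m + 1 : ℕ) : R) :=
  hasTop_cross hm (ladder_shape a₂ a₄ m hm) (ladder_shape a₂ a₄ (m + 1) (by omega))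

lemma ladderH_map {S : Type*} [CommRing S] (f : R →+* S) (a₂ a₄ : R) {m : ℕ} (hm : 1 ≤ m) :
    ladderH (f a₂) (f a₄) m = (ladderH a₂ a₄ m).map f := by
  simp only [ladderH, ladder_map f a₂ a₄ m hm, ladder_map f a₂ a₄ (m + 1) (by omega),
    Polynomial.map_sub, Polynomial.map_mul]

lemma ladderH_natDegree_le (a₂ a₄ : R) {m : ℕ} (hm : 1 ≤ m) :
    (ladderH a₂ a₄ m).natDegree ≤ 2 * m ^ 2 + 2 * m := (ladderH_hasTop a₂ a₄ hm).1

lemma ladderH_coeff_top (a₂ a₄ : R) {m : ℕ} (hm : 1 ≤ m) :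
    (ladderH a₂ a₄ m).coeff (2 * m ^ 2 + 2 * m) = ((2 * m + 1 : ℕ) : R) :=
  (ladderH_hasTop a₂ a₄ hm).2

lemma ladderH_ne_zero (a₂ a₄ : R) {m : ℕ} (hm : 1 ≤ m) (h : ((2 * m + 1 : ℕ) : R) ≠ 0) :
    ladderH a₂ a₄ m ≠ 0 := by
  intro e
  apply h
  rw [← ladderH_coeff_top a₂ a₄ hm, e, coeff_zero]

lemma ladderH_leadingCoeff (a₂ a₄ : R) {m : ℕ} (hm : 1 ≤ m) (h : ((2 * m + 1 : ℕ) : R) ≠ 0) :
    (ladderH a₂ a₄ m).leadingCoeff = ((2 * m + 1 : ℕ) : R) ∧
      (ladderH a₂ a₄ m).natDegree = 2 * m ^ 2 + 2 * m := by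
  have hd : (ladderH a₂ a₄ m).natDegree = 2 * m ^ 2 + 2 * m := by
    refine le_antisymm (ladderH_natDegree_le a₂ a₄ hm) ?_
    apply le_natDegree_of_ne_zero
    rw [ladderH_coeff_top a₂ a₄ hm]
    exact h
  exact ⟨by rw [leadingCoeff, hd, ladderH_coeff_top a₂ a₄ hm], hd⟩

/-- the coefficients of `H_m` lie in any subring containing `a₂` and `a₄` -/
lemma ladderH_coeff_mem {S : Type*} [CommRing S] (A : Subring S) {a₂ a₄ : S} (h₂ : a₂ ∈ A)
    (h₄ : a₄ ∈ A) {m : ℕ} (hm : 1 ≤ m) (i : ℕ) : (ladderH a₂ a₄ m).coeff i ∈ A := by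
  have := ladderH_map A.subtype ⟨a₂, h₂⟩ ⟨a₄, h₄⟩ hm
  simp only [Subring.coe_subtype] at this
  rw [this, coeff_map]
  exact SetLike.coe_mem _

end Fermat.Agent.S13
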