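import Fermat.Agent.S13.LadderFormulas
import Fermat.Agent.S13.LadderPoly

/-!
# S13 (K0), L2: correctness of the ladder

On the model curve `Y² = X³ + a₂X² + a₄X` over a field with `2 ≠ 0`, if no even multiple `2j • Q`
(`1 ≤ j ≤ n`) of the affine point `Q = (x₀, y₀)` vanishes, then `n • Q` is affine with
`x(n • Q) = Xₙ(x₀) / Zₙ(x₀)`.  Consequently the `x`-coordinate of a point of odd prime order
`p = 2m + 1` is a root of `ladderH m`.
-/

set_option autoImplicit false
set_option linter.unusedSectionVars false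
set_option linter.unusedVariables false

namespace Fermat.Agent.S13

open WeierstrassCurve Polynomial Fermat.Agent.S05

variable {K : Type*} [Field K] [DecidableEq K] {W : WeierstrassCurve K}

/-- `2 • (x, y) = 0` forces `y = 0`. -/
lemma y_ne_zero_of_two_nsmul_ne_zero (hW : IsModel W) {x y : K}
    (h : W.toAffine.Nonsingular x y) (hne : 2 • Affine.Point.some x y h ≠ 0) : y ≠ 0 := by
  rintro rfl
  apply hne
  rw [two_nsmul]
  exact Affine.Point.add_of_Y_eq rfl (by rw [hW.negY_eq]; simp)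

/-- two affine points with the same `x`-coordinate are equal or opposite -/
lemma eq_or_eq_neg_of_x_eq (hW : IsModel W) {x y y' : K}
    (h : W.toAffine.Nonsingular x y) (h' : W.toAffine.Nonsingular x y') :
    Affine.Point.some x y h = Affine.Point.some x y' h' ∨
      Affine.Point.some x y h = -Affine.Point.some x y' h' := by
  have e := hW.eq_of_nonsingular h
  have e' := hW.eq_of_nonsingular h'
  have : (y - y') * (y + y') = 0 := by linear_combination e - e'
  rcases mul_eq_zero.1 this with h1 | h1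
  · left
    have : y = y' := sub_eq_zero.1 h1
    subst this
    rfl
  · right
    have : y = -y' := eq_neg_of_add_eq_zero_left h1
    subst this
    rw [Affine.Point.neg_some]
    congr 1
    rw [hW.negY_eq]

/-- evaluation of the doubling step -/
lemma eval_ladderDbl (a₂ a₄ t : K) (p : K[X] × K[X]) :
    (ladderDbl a₂ a₄ p).1.eval t = ((p.1.eval t) ^ 2 - a₄ * (p.2.eval t) ^ 2) ^ 2 ∧
    (ladderDbl a₂ a₄ p).2.eval t = 4 * p.1.eval t * p.2.eval t *
      ((p.1.eval t) ^ 2 + a₂ * p.1.eval t * p.2.eval t + a₄ * (p.2.eval t) ^ 2) := by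
  constructor <;> simp [ladderDbl]

/-- evaluation of the differential addition step -/
lemma eval_ladderAdd (a₄ t : K) (p q : K[X] × K[X])
    (h0 : (p.1 * q.1 - C a₄ * p.2 * q.2).coeff 0 = 0) :
    t * (ladderAdd a₄ p q).1.eval t =
      (p.1.eval t * q.1.eval t - a₄ * p.2.eval t * q.2.eval t) ^ 2 ∧
    (ladderAdd a₄ p q).2.eval t = (p.1.eval t * q.2.eval t - q.1.eval t * p.2.eval t) ^ 2 := by
  constructor
  · have e := divX_mul_X_add (p.1 * q.1 - C a₄ * p.2 * q.2)
    rw [h0, C_0, add_zero] at e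
    have e' := congrArg (fun f => f.eval t) e
    simp only [eval_mul, eval_X, eval_sub, eval_C] at e'
    simp only [ladderAdd, eval_mul, eval_X, eval_pow]
    rw [← e']
    ring
  · simp [ladderAdd]

/-- the constant coefficient of `X_k X_{k+1} - a₄ Z_k Z_{k+1}` vanishes -/
lemma ladder_cross_coeff_zero (a₂ a₄ : K) {k : ℕ} (hk : 1 ≤ k) :
    ((ladder a₂ a₄ k).1 * (ladder a₂ a₄ (k + 1)).1 -
      C a₄ * (ladder a₂ a₄ k).2 * (ladder a₂ a₄ (k + 1)).2).coeff 0 = 0 := by
  have s1 := ladder_shape a₂ a₄ k hk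
  have s2 := ladder_shape a₂ a₄ (k + 1) (by omega)
  rcases Nat.even_or_odd k with he | ho
  · have h1 := s1.zeroZ he
    have h2 := s2.zeroX he.add_one
    simp [mul_coeff_zero, h1, h2]
  · have h1 := s1.zeroX ho
    have h2 := s2.zeroZ ho.add_one
    simp [mul_coeff_zero, h1, h2]

/-- **Correctness of the ladder.** -/
theorem ladder_correct (hW : IsModel W) (h2 : (2 : K) ≠ 0) {x₀ y₀ : K}
    (h₀ : W.toAffine.Nonsingular x₀ y₀) (n : ℕ) (hn : 1 ≤ n)
    (hyp : ∀ j, 1 ≤ j → j ≤ n → (2 * j) • Affine.Point.some x₀ y₀ h₀ ≠ 0) :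
    ∃ (x y : K) (h : W.toAffine.Nonsingular x y),
      n • Affine.Point.some x₀ y₀ h₀ = Affine.Point.some x y h ∧
      (ladder W.a₂ W.a₄ n).2.eval x₀ ≠ 0 ∧
      x * (ladder W.a₂ W.a₄ n).2.eval x₀ = (ladder W.a₂ W.a₄ n).1.eval x₀ := by
  induction n using Nat.strong_induction_on with
  | _ n ih =>
    rcases Nat.even_or_odd' n with ⟨k, rfl | rfl⟩
    · -- even step
      have hk : 1 ≤ k := by omega
      obtain ⟨xk, yk, hk', ek, hZ, hX⟩ :=
        ih k (by omega) hk (fun j h1 h2 => hyp j h1 (by omega))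
      have hyk : yk ≠ 0 := by
        apply y_ne_zero_of_two_nsmul_ne_zero hW hk'
        rw [← ek, ← mul_nsmul']
        exact hyp k hk (by omega)
      obtain ⟨y', h', e', hD⟩ := x_two_nsmul hW hk' hyk h2
      refine ⟨_, y', h', ?_, ?_, ?_⟩
      · rw [mul_nsmul', ek, two_nsmul, e']
      · rw [ladder_two_mul _ _ hk, (eval_ladderDbl _ _ _ _).2, ← hX]
        have : 4 * (xk * eval x₀ (ladder W.a₂ W.a₄ k).2) * eval x₀ (ladder W.a₂ W.a₄ k).2 *
            ((xk * eval x₀ (ladder W.a₂ W.a₄ k).2) ^ 2 +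
              W.a₂ * (xk * eval x₀ (ladder W.a₂ W.a₄ k).2) * eval x₀ (ladder W.a₂ W.a₄ k).2 +
              W.a₄ * eval x₀ (ladder W.a₂ W.a₄ k).2 ^ 2) =
            (eval x₀ (ladder W.a₂ W.a₄ k).2) ^ 4 * (4 * xk * (xk ^ 2 + W.a₂ * xk + W.a₄)) := by
          ring
        rw [this]
        exact mul_ne_zero (pow_ne_zero _ hZ) hD
      · rw [ladder_two_mul _ _ hk, (eval_ladderDbl _ _ _ _).2, (eval_ladderDbl _ _ _ _).1, ← hX,
          div_mul_eq_mul_div, div_eq_iff hD]
        ring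
    · rcases Nat.eq_zero_or_pos k with rfl | hk
      · -- n = 1
        refine ⟨x₀, y₀, h₀, by simp, ?_, ?_⟩
        · simp [ladder_one]
        · simp [ladder_one]
      · -- odd step
        obtain ⟨x₂, y₂, hh₂, e₂, hZ₂, hX₂⟩ :=
          ih k (by omega) hk (fun j h1 h2 => hyp j h1 (by omega))
        obtain ⟨x₁, y₁, hh₁, e₁, hZ₁, hX₁⟩ :=
          ih (k + 1) (by omega) (by omega) (fun j h1 h2 => hyp j h1 (by omega))
        have hy₀ : y₀ ≠ 0 := by
          apply y_ne_zero_of_two_nsmul_ne_zero hW h₀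
          have := hyp 1 le_rfl (by omega)
          simpa using this
        have hx₀ : x₀ ≠ 0 := x_ne_zero_of_y_ne_zero hW h₀ hy₀
        have hy₂ : y₂ ≠ 0 := by
          apply y_ne_zero_of_two_nsmul_ne_zero hW hh₂
          rw [← e₂, ← mul_nsmul']
          exact hyp k hk (by omega)
        have hy₁ : y₁ ≠ 0 := by
          apply y_ne_zero_of_two_nsmul_ne_zero hW hh₁
          rw [← e₁, ← mul_nsmul']
          exact hyp (k + 1) (by omega) (by omega)
        have hx₂ : x₂ ≠ 0 := x_ne_zero_of_y_ne_zero hW hh₂ hy₂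
        have hx₁ : x₁ ≠ 0 := x_ne_zero_of_y_ne_zero hW hh₁ hy₁
        have hodd : (2 * k + 1) • Affine.Point.some x₀ y₀ h₀ ≠ 0 := by
          intro h
          apply hyp (2 * k + 1) (by omega) le_rfl
          rw [mul_nsmul', h, smul_zero]
        have hx : x₁ ≠ x₂ := by
          rintro rfl
          rcases eq_or_eq_neg_of_x_eq hW hh₁ hh₂ with h | h
          · rw [← e₁, ← e₂, succ_nsmul] at h
            exact Affine.Point.some_ne_zero _ (add_eq_left.1 h)
          · rw [← e₁, ← e₂] at h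
            apply hodd
            have e : 2 * k + 1 = (k + 1) + k := by ring
            rw [e, add_nsmul, h, neg_add_cancel]
        obtain ⟨Xp, Yp, Xm, Ym, hp, hm, ep, em, hprod⟩ := x_add_mul_x_sub hW hh₁ hh₂ hx₁ hx₂ hx
        have hXm : Xm = x₀ := by
          have : Affine.Point.some Xm Ym hm = Affine.Point.some x₀ y₀ h₀ := by
            rw [← em, ← e₁, ← e₂, succ_nsmul]
            abel
          simp only [Affine.Point.some.injEq] at this
          exact this.1
        subst hXm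
        have h0 := ladder_cross_coeff_zero W.a₂ W.a₄ hk
        obtain ⟨E1, E2⟩ := eval_ladderAdd W.a₄ Xm _ _ h0
        refine ⟨Xp, Yp, hp, ?_, ?_, ?_⟩
        · have e : 2 * k + 1 = (k + 1) + k := by ring
          rw [e, add_nsmul, e₁, e₂, ep]
        · rw [ladder_two_mul_add_one _ _ hk, E2, ← hX₁, ← hX₂]
          have : x₂ * eval Xm (ladder W.a₂ W.a₄ k).2 * eval Xm (ladder W.a₂ W.a₄ (k + 1)).2 -
              x₁ * eval Xm (ladder W.a₂ W.a₄ (k + 1)).2 * eval Xm (ladder W.a₂ W.a₄ k).2 =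
              (x₂ - x₁) * (eval Xm (ladder W.a₂ W.a₄ k).2 *
                eval Xm (ladder W.a₂ W.a₄ (k + 1)).2) := by ring
          rw [this]
          exact pow_ne_zero _ (mul_ne_zero (sub_ne_zero.2 hx.symm) (mul_ne_zero hZ₂ hZ₁))
        · rw [ladder_two_mul_add_one _ _ hk]
          apply mul_left_cancel₀ hx₀
          rw [E1, E2, ← hX₁, ← hX₂]
          linear_combination (eval Xm (ladder W.a₂ W.a₄ k).2 *
                eval Xm (ladder W.a₂ W.a₄ (k + 1)).2) ^ 2 * hprod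

/-- no small even multiple of a point of odd prime order vanishes -/
lemma even_nsmul_ne_zero_of_prime {G : Type*} [AddGroup G] {Q : G} (hQ0 : Q ≠ 0) {m : ℕ}
    (hm : 1 ≤ m) (hp : (2 * m + 1).Prime) (hQ : (2 * m + 1) • Q = 0) {j : ℕ} (h1 : 1 ≤ j)
    (h2 : j ≤ m + 1) : (2 * j) • Q ≠ 0 := by
  intro h
  apply hQ0
  have d1 : addOrderOf Q ∣ 2 * m + 1 := addOrderOf_dvd_iff_nsmul_eq_zero.2 hQ
  have d2 : addOrderOf Q ∣ 2 * j := addOrderOf_dvd_iff_nsmul_eq_zero.2 h
  rcases (Nat.dvd_prime hp).1 d1 with e | e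
  · exact AddMonoid.addOrderOf_eq_one_iff.1 e
  · exfalso
    rw [e] at d2
    rcases (Nat.Prime.dvd_mul hp).1 d2 with d | d
    · have := Nat.le_of_dvd (by norm_num) d
      omega
    · have := Nat.le_of_dvd (by omega) d
      omega

/-- **DP1'**: the `x`-coordinate of a point of odd prime order `p = 2m + 1` is a root of
`ladderH m`. -/
theorem ladderH_eval_eq_zero (hW : IsModel W) (h2 : (2 : K) ≠ 0) {x₀ y₀ : K}
    (h₀ : W.toAffine.Nonsingular x₀ y₀) {m : ℕ} (hm : 1 ≤ m) (hp : (2 * m + 1).Prime)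
    (hQ : (2 * m + 1) • Affine.Point.some x₀ y₀ h₀ = 0) :
    (ladderH W.a₂ W.a₄ m).eval x₀ = 0 := by
  have hyp : ∀ j, 1 ≤ j → j ≤ m + 1 → (2 * j) • Affine.Point.some x₀ y₀ h₀ ≠ 0 :=
    fun j h1 h2 => even_nsmul_ne_zero_of_prime (Affine.Point.some_ne_zero _) hm hp hQ h1 h2
  obtain ⟨x₂, y₂, hh₂, e₂, hZ₂, hX₂⟩ :=
    ladder_correct hW h2 h₀ m hm (fun j h1 h2 => hyp j h1 (by omega))
  obtain ⟨x₁, y₁, hh₁, e₁, hZ₁, hX₁⟩ :=
    ladder_correct hW h2 h₀ (m + 1) (by omega) hyp
  have hneg : Affine.Point.some x₁ y₁ hh₁ = -Affine.Point.some x₂ y₂ hh₂ := by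
    rw [← e₁, ← e₂, eq_neg_iff_add_eq_zero, ← add_nsmul]
    have e : m + 1 + m = 2 * m + 1 := by ring
    rw [e, hQ]
  have hx : x₁ = x₂ := by
    rw [Affine.Point.neg_some] at hneg
    simp only [Affine.Point.some.injEq] at hneg
    exact hneg.1
  subst hx
  simp only [ladderH, eval_sub, eval_mul]
  rw [← hX₁, ← hX₂]
  ring

end Fermat.Agent.S13
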