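import Fermat.Agent.S13.LadderCorrect

/-!
# S13 (K0): the integral ladder polynomial of an odd prime `p`

For a model curve `Y² = X³ + a₂X² + a₄X` with integral `a₂, a₄` over a field of characteristic
zero there is `H ∈ ℤ[X]` of degree `(p² - 1)/2` and leading coefficient `p` vanishing at the
`x`-coordinate of every affine point killed by `p`.
-/

set_option autoImplicit false
set_option linter.unusedSectionVars false
set_option linter.unusedVariables false

namespace Fermat.Agent.S13

open WeierstrassCurve Polynomial Fermat.Agent.S05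

variable {K : Type*} [Field K] [DecidableEq K] {W : WeierstrassCurve K}

/-- an odd prime is `2m + 1` with `1 ≤ m` -/
lemma exists_half_of_odd_prime {p : ℕ} (hp : p.Prime) (hp2 : p ≠ 2) :
    ∃ m, 1 ≤ m ∧ p = 2 * m + 1 := by
  rcases hp.eq_two_or_odd' with h | h
  · exact absurd h hp2
  · obtain ⟨m, rfl⟩ := h
    refine ⟨m, ?_, rfl⟩
    rcases Nat.eq_zero_or_pos m with rfl | h
    · exact absurd hp (by norm_num)
    · exact h

/-- **The integral ladder polynomial.** -/
theorem exists_int_ladderH [CharZero K] (hW : IsModel W) {p : ℕ} (hp : p.Prime) (hp2 : p ≠ 2)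
    (h : ∃ a₂ a₄ : ℤ, W.a₂ = a₂ ∧ W.a₄ = a₄) :
    ∃ H : Polynomial ℤ, H.leadingCoeff = (p : ℤ) ∧ 2 * H.natDegree + 1 = p ^ 2 ∧
      ∀ (x y : K) (h : W.toAffine.Nonsingular x y),
        p • (Affine.Point.some x y h : W.toAffine.Point) = 0 → Polynomial.aeval x H = 0 := by
  obtain ⟨a₂, a₄, h₂, h₄⟩ := h
  obtain ⟨m, hm, rfl⟩ := exists_half_of_odd_prime hp hp2
  have hne : ((2 * m + 1 : ℕ) : ℤ) ≠ 0 := by exact_mod_cast hp.ne_zero
  obtain ⟨hl, hd⟩ := ladderH_leadingCoeff a₂ a₄ hm hne
  refine ⟨ladderH a₂ a₄ m, hl, ?_, ?_⟩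
  · rw [hd]; ring
  · intro x y h hQ
    have h2 : (2 : K) ≠ 0 := two_ne_zero
    have := ladderH_eval_eq_zero hW h2 h hm hp hQ
    rw [h₂, h₄] at this
    have e := ladderH_map (Int.castRingHom K) a₂ a₄ hm
    simp only [eq_intCast] at e
    rw [e, eval_map] at this
    rw [aeval_def, algebraMap_int_eq]
    exact this

end Fermat.Agent.S13
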