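import Mathlib

/-!
# S13 (K0, existence): the generic point and places of the function field

For a Weierstrass curve `W` over a field `K` we use Mathlib's function field
`F = W.toAffine.FunctionField = Frac (K[X,Y]/(W))`.  We provide

* the generic point `(gx W, gy W)` on `W⁄F`, with `gx W` transcendental over `K`;
* a valuation subring of `F` containing `K` but not `gx W` (a place at infinity);
* for every `K`-point `(x₀, y₀)` of `W` a valuation subring of `F` containing `K` in which
  `gx W - x₀` and `gy W - y₀` are non-units (a place centred at `(x₀, y₀)`).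
-/

set_option autoImplicit false

namespace Fermat.Agent.S13.Places

open WeierstrassCurve Polynomial

variable {K : Type*} [Field K] (W : WeierstrassCurve K)

/-- The function field of `W`. -/
abbrev FF : Type _ := W.toAffine.FunctionField

/-- The coordinate function `x` of the generic point. -/
noncomputable def gx : FF W :=
  algebraMap W.toAffine.CoordinateRing (FF W) (Affine.CoordinateRing.mk W.toAffine (C X))

/-- The coordinate function `y` of the generic point. -/
noncomputable def gy : FF W :=
  algebraMap W.toAffine.CoordinateRing (FF W) (Affine.CoordinateRing.mk W.toAffine X)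

theorem algebraMap_eq (c : K) :
    algebraMap K (FF W) c =
      algebraMap W.toAffine.CoordinateRing (FF W)
        (Affine.CoordinateRing.mk W.toAffine (C (C c))) := by
  rw [IsScalarTower.algebraMap_apply K W.toAffine.CoordinateRing (FF W)]
  rfl

theorem gen_equation : (W⁄(FF W)).toAffine.Equation (gx W) (gy W) := by
  rw [Affine.equation_iff]
  have h0 : Affine.CoordinateRing.mk W.toAffine W.toAffine.polynomial = 0 :=
    AdjoinRoot.mk_self
  have h1 := congrArg (algebraMap W.toAffine.CoordinateRing (FF W)) h0
  simp only [Affine.polynomial, map_sub, map_add, map_mul, map_pow, map_zero] at h1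
  change (gy W) ^ 2 + algebraMap K (FF W) W.a₁ * gx W * gy W + algebraMap K (FF W) W.a₃ * gy W =
    (gx W) ^ 3 + algebraMap K (FF W) W.a₂ * (gx W) ^ 2 + algebraMap K (FF W) W.a₄ * gx W +
      algebraMap K (FF W) W.a₆
  simp only [algebraMap_eq]
  rw [gx, gy]
  linear_combination h1

theorem gen_nonsingular (hΔ : W.Δ ≠ 0) : (W⁄(FF W)).toAffine.Nonsingular (gx W) (gy W) := by
  refine (Affine.equation_iff_nonsingular_of_Δ_ne_zero ?_).1 (gen_equation W)
  change (W.map (algebraMap K (FF W))).Δ ≠ 0
  rw [WeierstrassCurve.map_Δ]
  exact (map_ne_zero_iff _ (FaithfulSMul.algebraMap_injective K (FF W))).2 hΔ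

theorem aeval_gx (q : K[X]) :
    aeval (gx W) q =
      algebraMap W.toAffine.CoordinateRing (FF W) (Affine.CoordinateRing.mk W.toAffine (C q)) := by
  induction q using Polynomial.induction_on' with
  | add p q hp hq => simp only [map_add, hp, hq]
  | monomial n a =>
    rw [aeval_monomial, algebraMap_eq, gx, ← map_pow, ← map_mul, ← map_pow, ← map_mul,
      ← map_pow, ← map_mul, ← C_mul_X_pow_eq_monomial]

theorem gx_transcendental : Transcendental K (gx W) := by
  rw [transcendental_iff_injective, injective_iff_map_eq_zero]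
  intro q hq
  rw [aeval_gx] at hq
  have h1 : Affine.CoordinateRing.mk W.toAffine (C q) = 0 :=
    (map_eq_zero_iff _ (IsFractionRing.injective W.toAffine.CoordinateRing (FF W))).1 hq
  have h2 : (algebraMap K[X] W.toAffine.CoordinateRing) q = 0 := h1
  exact (map_eq_zero_iff _ (FaithfulSMul.algebraMap_injective K[X] W.toAffine.CoordinateRing)).1 h2

/-- A proper ideal of a subring-like source of a field is contained in the non-units of some
valuation subring containing the whole image. -/
theorem exists_valuationSubring_of_injective {S F : Type*} [CommRing S] [Field F] (φ : S →+* F)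
    (hφ : Function.Injective φ) (J : Ideal S) (hJ : J ≠ ⊤) :
    ∃ A : ValuationSubring F, (∀ s : S, φ s ∈ A) ∧ ∀ s ∈ J, φ s ∈ A.nonunits := by
  have hI : Ideal.map φ.rangeRestrict J ≠ ⊤ := by
    intro h
    apply hJ
    rw [Ideal.eq_top_iff_one] at h ⊢
    obtain ⟨a, ha, h1⟩ := (Ideal.mem_map_iff_of_surjective φ.rangeRestrict
      φ.rangeRestrict_surjective).1 h
    have h2 : φ a = 1 := congrArg Subtype.val h1
    have h3 : a = 1 := hφ (by rw [h2, map_one])
    rwa [h3] at ha
  obtain ⟨A, hRA, hIA⟩ := Ideal.image_subset_nonunits_valuationSubring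
    (Ideal.map φ.rangeRestrict J) hI
  refine ⟨A, fun s => hRA ⟨s, rfl⟩, fun s hs => ?_⟩
  exact hIA ⟨φ.rangeRestrict s, Ideal.mem_map_of_mem _ hs, rfl⟩

/-- A place of the function field centred at the `K`-point `(x₀, y₀)`. -/
theorem exists_place_at {x₀ y₀ : K} (h : W.toAffine.Equation x₀ y₀) :
    ∃ A : ValuationSubring (FF W), (∀ c : K, algebraMap K (FF W) c ∈ A) ∧
      gx W - algebraMap K (FF W) x₀ ∈ A.nonunits ∧
      gy W - algebraMap K (FF W) y₀ ∈ A.nonunits := by
  have hJ : Affine.CoordinateRing.XYIdeal W.toAffine x₀ (C y₀) ≠ ⊤ := by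
    rw [← Ideal.Quotient.nontrivial_iff]
    have h' : eval x₀ (eval (C y₀) W.toAffine.polynomial) = 0 := by
      have := h
      rw [Affine.Equation, evalEval] at this
      exact this
    exact (Affine.CoordinateRing.quotientXYIdealEquiv h').toRingEquiv.toEquiv.nontrivial
  obtain ⟨A, hA, hJA⟩ := exists_valuationSubring_of_injective
    (algebraMap W.toAffine.CoordinateRing (FF W))
    (IsFractionRing.injective W.toAffine.CoordinateRing (FF W)) _ hJ
  refine ⟨A, fun c => ?_, ?_, ?_⟩
  · rw [algebraMap_eq]
    exact hA _
  · have h1 := hJA (Affine.CoordinateRing.XClass W.toAffine x₀)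
      (Ideal.subset_span (Set.mem_insert _ _))
    have h2 : algebraMap W.toAffine.CoordinateRing (FF W)
        (Affine.CoordinateRing.XClass W.toAffine x₀) = gx W - algebraMap K (FF W) x₀ := by
      rw [Affine.CoordinateRing.XClass, algebraMap_eq, gx, ← map_sub, ← map_sub, ← map_sub]
    rwa [h2] at h1
  · have h1 := hJA (Affine.CoordinateRing.YClass W.toAffine (C y₀))
      (Ideal.subset_span (Set.mem_insert_of_mem _ (Set.mem_singleton _)))
    have h2 : algebraMap W.toAffine.CoordinateRing (FF W)
        (Affine.CoordinateRing.YClass W.toAffine (C y₀)) = gy W - algebraMap K (FF W) y₀ := by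
      rw [Affine.CoordinateRing.YClass, algebraMap_eq, gy, ← map_sub, ← map_sub]
    rwa [h2] at h1

/-- General form: for any transcendental element `t` of a field extension `F/K` there is a
valuation subring of `F` containing `K` but not `t`. -/
theorem exists_place_not_mem {F : Type*} [Field F] [Algebra K F] {t : F}
    (ht : Transcendental K t) :
    ∃ A : ValuationSubring F, (∀ c : K, algebraMap K F c ∈ A) ∧ t ∉ A := by
  have ht' : Transcendental K t⁻¹ := fun h => ht (IsAlgebraic.inv_iff.1 h)
  have hinj : Function.Injective ((aeval t⁻¹ : K[X] →ₐ[K] F) : K[X] →+* F) :=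
    transcendental_iff_injective.1 ht'
  have hJ : Ideal.span {(X : K[X])} ≠ ⊤ := by
    rw [Ne, Ideal.span_singleton_eq_top]
    exact not_isUnit_X
  obtain ⟨A, hA, hJA⟩ := exists_valuationSubring_of_injective
    ((aeval t⁻¹ : K[X] →ₐ[K] F) : K[X] →+* F) hinj _ hJ
  refine ⟨A, fun c => ?_, fun htA => ?_⟩
  · have := hA (C c)
    simpa using this
  · have h1 := hJA X (Ideal.subset_span (Set.mem_singleton _))
    have h2 : t⁻¹ ∈ A.nonunits := by simpa using h1
    have h3 : A.valuation t⁻¹ < 1 := (ValuationSubring.mem_nonunits_iff A).1 h2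
    have h4 : A.valuation t ≤ 1 := (A.valuation_le_one_iff t).2 htA
    have ht0 : t ≠ 0 := fun h0 => ht (h0 ▸ isAlgebraic_zero)
    have h5 : A.valuation t⁻¹ * A.valuation t = 1 := by
      rw [← map_mul, inv_mul_cancel₀ ht0, map_one]
    have h6 : A.valuation t⁻¹ * A.valuation t < 1 :=
      lt_of_le_of_lt (mul_le_mul_right h4 _) (by rwa [mul_one])
    rw [h5] at h6
    exact lt_irrefl _ h6

/-- A place of the function field at infinity. -/
theorem exists_place_infty :
    ∃ A : ValuationSubring (FF W), (∀ c : K, algebraMap K (FF W) c ∈ A) ∧ gx W ∉ A :=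
  exists_place_not_mem (gx_transcendental W)

end Fermat.Agent.S13.Places
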