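import Fermat.Agent.S13.LadderPole
import Fermat.Agent.S13.LadderInt
import Fermat.Agent.S13.Places
import Fermat.Agent.S05.Kernel
import Fermat.Agent.S05.Congr

/-!
# S13 (K0): existence of a point of order `p`

On the model curve `Y² = X³ + a₂X² + a₄X` with `Δ ≠ 0` over an algebraically closed field of
characteristic zero there is a nonzero point killed by any odd prime `p`.
-/

set_option autoImplicit false
set_option linter.unusedSectionVars false
set_option linter.unusedVariables false

namespace Fermat.Agent.S13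

open WeierstrassCurve Polynomial Fermat.Agent.S05

section places

variable {K F : Type*} [Field K] [Field F] [Algebra K F] (A : ValuationSubring F)
  (hK : ∀ c : K, algebraMap K F c ∈ A)

include hK

lemma val_algebraMap_eq_one {c : K} (hc : c ≠ 0) : A.valuation (algebraMap K F c) = 1 := by
  have h1 : A.valuation (algebraMap K F c) ≤ 1 := (A.valuation_le_one_iff _).2 (hK c)
  have h2 : A.valuation (algebraMap K F c⁻¹) ≤ 1 := (A.valuation_le_one_iff _).2 (hK c⁻¹)
  rw [map_inv₀, map_inv₀] at h2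
  have h0 : A.valuation (algebraMap K F c) ≠ 0 :=
    (Valuation.ne_zero_iff _).2 ((_root_.map_ne_zero _).2 hc)
  exact le_antisymm h1 (by rwa [inv_le_one₀ (zero_lt_iff.2 h0)] at h2)

lemma val_natCast_eq_one' [CharZero K] {n : ℕ} (hn : n ≠ 0) : A.valuation (n : F) = 1 := by
  have : (n : F) = algebraMap K F (n : K) := (map_natCast (algebraMap K F) n).symm
  rw [this]
  exact val_algebraMap_eq_one A hK (Nat.cast_ne_zero.2 hn)

lemma aeval_mem_of_mem {x : F} (hx : x ∈ A) (q : K[X]) : aeval x q ∈ A := by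
  rw [aeval_eq_sum_range]
  refine sum_mem fun i _ => ?_
  rw [Algebra.smul_def]
  exact A.mul_mem _ _ (hK _) (pow_mem hx i)

lemma aeval_sub_mem_nonunits {x : F} {x₀ : K} (hx : x - algebraMap K F x₀ ∈ A.nonunits)
    (q : K[X]) : aeval x q - algebraMap K F (q.eval x₀) ∈ A.nonunits := by
  obtain ⟨r, hr⟩ := X_sub_C_dvd_sub_C_eval (a := x₀) (p := q)
  have hxA : x ∈ A := by
    have := A.add_mem _ _ (mem_of_mem_nonunits A hx) (hK x₀)
    simpa using this
  have e : aeval x q - algebraMap K F (q.eval x₀) = (x - algebraMap K F x₀) * aeval x r := by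
    have := congrArg (aeval x) hr
    simpa using this
  rw [e]
  exact mul_mem_nonunits_of_mem_right A hx (aeval_mem_of_mem A hK hxA r)

end places

section wiring

variable {K F : Type*} [Field K] [DecidableEq K] [Field F] [DecidableEq F] [Algebra K F]
  {W : WeierstrassCurve K}

/-- the map from `K`-points to `F`-points -/
noncomputable def pointIota (W : WeierstrassCurve K) :
    W.toAffine.Point →+ (W⁄F).toAffine.Point :=
  (Affine.Point.map (W' := W) (Algebra.ofId K F) :
    (W⁄K).toAffine.Point →+ (W⁄F).toAffine.Point)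

lemma pointIota_some {x y : K} (h : W.toAffine.Nonsingular x y) :
    ∃ h' : (W⁄F).toAffine.Nonsingular (algebraMap K F x) (algebraMap K F y),
      pointIota (F := F) W (.some x y h) = .some (algebraMap K F x) (algebraMap K F y) h' :=
  ⟨_, rfl⟩

/-- the generic point has no vanishing multiple, by a place at infinity -/
lemma gen_nsmul_ne_zero [CharZero K] (hW : IsModel W) (A : ValuationSubring F)
    (hK : ∀ c : K, algebraMap K F c ∈ A) {x y : F} (h : (W⁄F).toAffine.Nonsingular x y)
    (hx : x ∉ A) (n : ℕ) (hn : 1 ≤ n) :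
    n • (Affine.Point.some x y h : (W⁄F).toAffine.Point) ≠ 0 := by
  intro h0
  have hWF := isModel_baseChange (F := F) hW
  have h2 : (W⁄F).a₂ ∈ A := by rw [baseChange_a₂_eq]; exact hK _
  have h4 : (W⁄F).a₄ ∈ A := by rw [baseChange_a₄_eq]; exact hK _
  have := InE1_torsion_free A hWF h2 h4 n (val_natCast_eq_one' A hK (by omega))
    (P := .some x y h) ((InE1_some A h).2 hx) h0
  exact Affine.Point.some_ne_zero _ this

/-- **Existence of a point of order `p`**, given the places. -/
theorem exists_torsion_of_places [IsAlgClosed K] [CharZero K] (hW : IsModel W) (hΔ : W.Δ ≠ 0)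
    {p : ℕ} (hp : p.Prime) (hp2 : p ≠ 2) {x y : F} (hx : Transcendental K x)
    (h : (W⁄F).toAffine.Nonsingular x y)
    (hinf : ∃ A : ValuationSubring F, (∀ c : K, algebraMap K F c ∈ A) ∧ x ∉ A)
    (hat : ∀ x₀ y₀ : K, W.toAffine.Equation x₀ y₀ →
      ∃ A : ValuationSubring F, (∀ c : K, algebraMap K F c ∈ A) ∧
        x - algebraMap K F x₀ ∈ A.nonunits ∧ y - algebraMap K F y₀ ∈ A.nonunits) :
    ∃ R : W.toAffine.Point, R ≠ 0 ∧ p • R = 0 := by
  obtain ⟨Ai, hKi, hxi⟩ := hinf
  have hgen := fun n hn => gen_nsmul_ne_zero hW Ai hKi h hxi n hn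
  obtain ⟨x₀, PA, PB, ξ, η, hξ, hB0, hA0, e, hBx, hξB⟩ := exists_pole hW hΔ hp hp2 hx h hgen
  obtain ⟨y₀, hy₀⟩ : ∃ y₀ : K, y₀ ^ 2 = x₀ ^ 3 + W.a₂ * x₀ ^ 2 + W.a₄ * x₀ :=
    IsAlgClosed.exists_pow_nat_eq _ (by norm_num)
  have heq : W.toAffine.Equation x₀ y₀ := (hW.equation_iff _ _).2 hy₀
  have hns : W.toAffine.Nonsingular x₀ y₀ :=
    (Affine.equation_iff_nonsingular_of_Δ_ne_zero hΔ).1 heq
  obtain ⟨A, hK, hxx, hyy⟩ := hat x₀ y₀ heq
  -- `ξ ∉ A`
  have hvB : aeval x PB ∈ A.nonunits := by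
    have := aeval_sub_mem_nonunits A hK hxx PB
    rwa [hB0, map_zero, sub_zero] at this
  have hvA : A.valuation (aeval x PA) = 1 := by
    have h1 := aeval_sub_mem_nonunits A hK hxx PA
    have h2 := val_algebraMap_eq_one A hK hA0
    have : aeval x PA =
        algebraMap K F (PA.eval x₀) + (aeval x PA - algebraMap K F (PA.eval x₀)) := by ring
    rw [this, Valuation.map_add_eq_of_lt_left _ (by rw [h2]; exact (A.mem_nonunits_iff).1 h1),
      h2]
  have hξA : ξ ∉ A := by
    intro hmem
    have : aeval x PA ∈ A.nonunits := by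
      rw [← hξB]
      exact mul_mem_nonunits_of_mem_left A hmem hvB
    exact not_mem_nonunits_of_val_eq_one A hvA this
  -- the model over `F`
  have hWF := isModel_baseChange (F := F) hW
  have h2A : (W⁄F).a₂ ∈ A := by rw [baseChange_a₂_eq]; exact hK _
  have h4A : (W⁄F).a₄ ∈ A := by rw [baseChange_a₄_eq]; exact hK _
  have hΔ' := hΔ
  rw [hW.Δ_eq] at hΔ'
  have h4 : W.a₄ ≠ 0 := by
    rintro h0
    apply hΔ'
    rw [h0]
    ring
  have hd : W.a₂ ^ 2 - 4 * W.a₄ ≠ 0 := right_ne_zero_of_mul hΔ'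
  have h4F : (W⁄F).a₄ ≠ 0 := by
    rw [baseChange_a₄_eq]
    exact (_root_.map_ne_zero _).2 h4
  have hdv : A.valuation ((W⁄F).a₂ ^ 2 - 4 * (W⁄F).a₄) = 1 := by
    have := val_algebraMap_eq_one A hK hd
    rw [map_sub, map_pow, map_mul, map_ofNat] at this
    rw [baseChange_a₂_eq, baseChange_a₄_eq]
    exact this
  have htwo : A.valuation (2 : F) = 1 := by
    have := val_natCast_eq_one' (K := K) A hK (n := 2) (by norm_num)
    simpa using this
  have hpE1 : InE1 A (p • (Affine.Point.some x y h : (W⁄F).toAffine.Point)) := by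
    rw [e]
    exact hξA
  obtain ⟨m, hm, rfl⟩ := exists_half_of_odd_prime hp hp2
  have hx0 : x ≠ 0 := by
    rintro rfl
    exact hx isAlgebraic_zero
  -- `x₀ ≠ 0`
  have hx₀ : x₀ ≠ 0 := by
    rintro rfl
    rw [map_zero, sub_zero] at hxx
    obtain ⟨hQ, eQ⟩ := hWF.add_T0 h4F h hx0
    have hQE1 : InE1 A ((Affine.Point.some x y h : (W⁄F).toAffine.Point) +
        Affine.Point.some 0 0 (hWF.nonsingular_zero h4F)) := by
      rw [eQ]
      show (W⁄F).a₄ / x ∉ A
      intro hmem
      have hv4 : A.valuation (W⁄F).a₄ = 1 := by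
        rw [baseChange_a₄_eq]
        exact val_algebraMap_eq_one A hK h4
      have : (W⁄F).a₄ ∈ A.nonunits := by
        have e : (W⁄F).a₄ = (W⁄F).a₄ / x * x := by field_simp
        rw [e]
        exact mul_mem_nonunits_of_mem_left A hmem hxx
      exact not_mem_nonunits_of_val_eq_one A hv4 this
    have h1 := InE1_nsmul A hWF h2A h4A hQE1 (2 * m + 1)
    rw [nsmul_add, odd_nsmul_T0 hWF h4F] at h1
    have h2 := InE1_sub A hWF h2A h4A h1 hpE1
    rw [add_sub_cancel_left] at h2
    exact h2 A.zero_mem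
  -- T2
  have hvx : A.valuation x = 1 := by
    have h2 := val_algebraMap_eq_one A hK hx₀
    have : x = algebraMap K F x₀ + (x - algebraMap K F x₀) := by ring
    rw [this, Valuation.map_add_eq_of_lt_left _ (by rw [h2]; exact (A.mem_nonunits_iff).1 hxx),
      h2]
  obtain ⟨hnsF, eι⟩ := pointIota_some (F := F) hns
  have hT2 := InE1_sub_of_congr A hWF h2A h4A hdv htwo h hnsF hvx hxx hyy
  have h3 := InE1_nsmul A hWF h2A h4A hT2 (2 * m + 1)
  have h4' := InE1_sub A hWF h2A h4A hpE1 h3
  have e5 : (2 * m + 1) • (Affine.Point.some x y h : (W⁄F).toAffine.Point) -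
      (2 * m + 1) • (Affine.Point.some x y h - Affine.Point.some _ _ hnsF) =
      (2 * m + 1) • Affine.Point.some _ _ hnsF := by
    rw [nsmul_sub]
    abel
  rw [e5, ← eι, ← map_nsmul] at h4'
  refine ⟨.some x₀ y₀ hns, Affine.Point.some_ne_zero _, ?_⟩
  cases hR : (2 * m + 1) • (Affine.Point.some x₀ y₀ hns : W.toAffine.Point) with
  | zero => rfl
  | some x₁ y₁ h₁ =>
    exfalso
    rw [hR] at h4'
    obtain ⟨h₁', e₁⟩ := pointIota_some (F := F) h₁
    rw [e₁] at h4'
    exact h4' (hK x₁)

/-- **Existence of a point of order `p`** on the model curve. -/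
theorem exists_torsion_point [IsAlgClosed K] [CharZero K] (hW : IsModel W) (hΔ : W.Δ ≠ 0)
    {p : ℕ} (hp : p.Prime) (hp2 : p ≠ 2) :
    ∃ R : W.toAffine.Point, R ≠ 0 ∧ p • R = 0 := by
  classical
  exact exists_torsion_of_places (F := Places.FF W) hW hΔ hp hp2 (Places.gx_transcendental W)
    (Places.gen_nonsingular W hΔ) (Places.exists_place_infty W)
    (fun x₀ y₀ h => Places.exists_place_at W h)

end wiring

end Fermat.Agent.S13
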