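import Fermat.Agent.S05.Formulas

/-!
# S13 (K0), L0: `x`-only addition formulas on the model curve `Y² = X³ + a₂X² + a₄X`

* `x_two_nsmul`: `x(2P) = (x² - a₄)² / (4 x (x² + a₂ x + a₄))` when `y(P) ≠ 0`;
* `x_add_mul_x_sub`: `x(P+Q) x(P-Q) (x_P - x_Q)² = (x_P x_Q - a₄)²` when `x_P ≠ x_Q`, both nonzero.
-/

set_option autoImplicit false
set_option linter.unusedSectionVars false
set_option linter.unusedVariables false

namespace Fermat.Agent.S13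

open WeierstrassCurve Fermat.Agent.S05

variable {K : Type*} [Field K] [DecidableEq K] {W : WeierstrassCurve K}

/-- On the model curve `y ≠ 0` forces `x ≠ 0`. -/
lemma x_ne_zero_of_y_ne_zero (hW : IsModel W) {x y : K} (h : W.toAffine.Nonsingular x y)
    (hy : y ≠ 0) : x ≠ 0 := by
  rintro rfl
  have e := hW.eq_of_nonsingular h
  apply hy
  have : y ^ 2 = 0 := by rw [e]; ring
  exact pow_eq_zero_iff (by norm_num) |>.1 this

/-- Duplication formula for the `x`-coordinate. -/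
theorem x_two_nsmul (hW : IsModel W) {x y : K} (h : W.toAffine.Nonsingular x y) (hy : y ≠ 0)
    (h2 : (2 : K) ≠ 0) :
    ∃ (y' : K) (h' : W.toAffine.Nonsingular
        ((x ^ 2 - W.a₄) ^ 2 / (4 * x * (x ^ 2 + W.a₂ * x + W.a₄))) y'),
      Affine.Point.some x y h + Affine.Point.some x y h = Affine.Point.some _ _ h' ∧
      4 * x * (x ^ 2 + W.a₂ * x + W.a₄) ≠ 0 := by
  have hx : x ≠ 0 := x_ne_zero_of_y_ne_zero hW h hy
  have e := hW.eq_of_nonsingular h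
  have hN : y * x + y * x ≠ 0 := by
    have : y * x + y * x = 2 * (x * y) := by ring
    rw [this]
    exact mul_ne_zero h2 (mul_ne_zero hx hy)
  have hDe : 4 * x * (x ^ 2 + W.a₂ * x + W.a₄) = (2 * y) ^ 2 := by
    linear_combination (-4 : K) * e
  have hD : 4 * x * (x ^ 2 + W.a₂ * x + W.a₄) ≠ 0 := by
    rw [hDe]
    exact pow_ne_zero _ (mul_ne_zero h2 hy)
  obtain ⟨h₃, e₃⟩ := hW.add_eq_II h h hx hx hN
  have hX : sumX x x (betaII W x y x y) =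
      (x ^ 2 - W.a₄) ^ 2 / (4 * x * (x ^ 2 + W.a₂ * x + W.a₄)) := by
    rw [hDe, sumX, betaII, div_pow, div_div,
      div_eq_div_iff (mul_ne_zero (pow_ne_zero _ hN) (mul_ne_zero hx hx))
        (pow_ne_zero _ (mul_ne_zero h2 hy))]
    ring
  refine ⟨sumY x y x (betaII W x y x y), hX ▸ h₃, ?_, hD⟩
  rw [e₃]
  congr 1

/-- Product formula for the `x`-coordinates of `P + Q` and `P - Q`. -/
theorem x_add_mul_x_sub (hW : IsModel W) {x₁ y₁ x₂ y₂ : K}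
    (h₁ : W.toAffine.Nonsingular x₁ y₁) (h₂ : W.toAffine.Nonsingular x₂ y₂)
    (hx₁ : x₁ ≠ 0) (hx₂ : x₂ ≠ 0) (hx : x₁ ≠ x₂) :
    ∃ (Xp Yp Xm Ym : K) (hp : W.toAffine.Nonsingular Xp Yp) (hm : W.toAffine.Nonsingular Xm Ym),
      Affine.Point.some x₁ y₁ h₁ + Affine.Point.some x₂ y₂ h₂ = Affine.Point.some Xp Yp hp ∧
      Affine.Point.some x₁ y₁ h₁ - Affine.Point.some x₂ y₂ h₂ = Affine.Point.some Xm Ym hm ∧
      Xp * Xm * (x₁ - x₂) ^ 2 = (x₁ * x₂ - W.a₄) ^ 2 := by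
  obtain ⟨h₂', e₂'⟩ := hW.neg_some h₂
  obtain ⟨hp, ep⟩ := hW.add_eq_I h₁ h₂ hx₁ hx₂ hx
  obtain ⟨hm, em⟩ := hW.add_eq_I h₁ h₂' hx₁ hx₂ hx
  have e₁ := hW.eq_of_nonsingular h₁
  have e₂ := hW.eq_of_nonsingular h₂
  refine ⟨_, _, _, _, hp, hm, ep, ?_, ?_⟩
  · rw [sub_eq_add_neg, e₂', em]
  · have hd : x₁ - x₂ ≠ 0 := sub_ne_zero.2 hx
    simp only [sumX, betaI]
    field_simp
    have c := hW.chord_identity h₁ h₂
    linear_combination ((x₁ * y₂ - x₂ * y₁) * (y₁ * x₂ + y₂ * x₁) +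
      -((x₁ * x₂ - W.a₄) * (x₁ * x₂)) * (x₁ - x₂)) * c

end Fermat.Agent.S13
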