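import Fermat.Agent.S13.LadderCorrect

/-!
# S13 (K0), existence, algebraic part: the pole lemma

Let `K` be algebraically closed of characteristic zero, `W : Y² = X³ + a₂X² + a₄X` over `K` with
`Δ ≠ 0`, and `(x, y)` a point of `W` over an extension `F` with `x` transcendental and no nonzero
multiple of which vanishes.  Then the `x`-coordinate of `p • (x, y)` is `A(x)/B(x)` with
`A, B ∈ K[X]` and `B(x₀) = 0 ≠ A(x₀)` for some `x₀ ∈ K`.
-/

set_option autoImplicit false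
set_option linter.unusedSectionVars false
set_option linter.unusedVariables false

namespace Fermat.Agent.S13

open WeierstrassCurve Polynomial Fermat.Agent.S05

variable {K F : Type*} [Field K] [Field F] [DecidableEq F] [Algebra K F]
  {W : WeierstrassCurve K}

lemma isModel_baseChange (hW : IsModel W) : IsModel (W⁄F) :=
  ⟨by simp [WeierstrassCurve.baseChange, hW.a₁], by simp [WeierstrassCurve.baseChange, hW.a₃],
    by simp [WeierstrassCurve.baseChange, hW.a₆]⟩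

lemma baseChange_a₂_eq : (W⁄F).a₂ = algebraMap K F W.a₂ := by
  simp [WeierstrassCurve.baseChange]

lemma baseChange_a₄_eq : (W⁄F).a₄ = algebraMap K F W.a₄ := by
  simp [WeierstrassCurve.baseChange]

/-- the ladder at a point over `F`, in terms of the ladder polynomials over `K` -/
lemma ladder_correct_base (hW : IsModel W) (h2 : (2 : F) ≠ 0) {xQ yQ : F}
    (hQ : (W⁄F).toAffine.Nonsingular xQ yQ) (n : ℕ) (hn : 1 ≤ n)
    (hyp : ∀ j, 1 ≤ j → j • (Affine.Point.some xQ yQ hQ : (W⁄F).toAffine.Point) ≠ 0) :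
    ∃ (ξ η : F) (hξ : (W⁄F).toAffine.Nonsingular ξ η),
      n • (Affine.Point.some xQ yQ hQ : (W⁄F).toAffine.Point) = Affine.Point.some ξ η hξ ∧
      aeval xQ (ladder W.a₂ W.a₄ n).2 ≠ 0 ∧
      ξ * aeval xQ (ladder W.a₂ W.a₄ n).2 = aeval xQ (ladder W.a₂ W.a₄ n).1 := by
  obtain ⟨ξ, η, hξ, e, hZ, hX⟩ := ladder_correct (isModel_baseChange hW) h2 hQ n hn
    (fun j h1 _ => hyp (2 * j) (by omega))
  rw [baseChange_a₂_eq, baseChange_a₄_eq, ladder_map (algebraMap K F) W.a₂ W.a₄ n hn] at hZ hX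
  simp only [eval_map_algebraMap] at hZ hX
  exact ⟨ξ, η, hξ, e, hZ, hX⟩

/-- twice the point `T₀ = (0, 0)` vanishes -/
lemma T0_add_T0 {L : Type*} [Field L] [DecidableEq L] {V : WeierstrassCurve L} (hV : IsModel V)
    (h4 : V.a₄ ≠ 0) :
    (Affine.Point.some 0 0 (hV.nonsingular_zero h4) : V.toAffine.Point) +
      Affine.Point.some 0 0 (hV.nonsingular_zero h4) = 0 :=
  Affine.Point.add_of_Y_eq rfl (by rw [hV.negY_eq]; simp)

lemma odd_nsmul_T0 {L : Type*} [Field L] [DecidableEq L] {V : WeierstrassCurve L}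
    (hV : IsModel V) (h4 : V.a₄ ≠ 0) (m : ℕ) :
    (2 * m + 1) • (Affine.Point.some 0 0 (hV.nonsingular_zero h4) : V.toAffine.Point) =
      Affine.Point.some 0 0 (hV.nonsingular_zero h4) := by
  rw [add_nsmul, mul_nsmul, two_nsmul, T0_add_T0 hV h4, smul_zero, zero_add, one_nsmul]

lemma even_nsmul_T0 {L : Type*} [Field L] [DecidableEq L] {V : WeierstrassCurve L}
    (hV : IsModel V) (h4 : V.a₄ ≠ 0) (m : ℕ) :
    (2 * m) • (Affine.Point.some 0 0 (hV.nonsingular_zero h4) : V.toAffine.Point) = 0 := by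
  rw [mul_nsmul, two_nsmul, T0_add_T0 hV h4, smul_zero]

/-- translating by `T₀` a point without vanishing multiples gives such a point -/
lemma nsmul_add_T0_ne_zero {L : Type*} [Field L] [DecidableEq L] {V : WeierstrassCurve L}
    (hV : IsModel V) (h4 : V.a₄ ≠ 0) {P : V.toAffine.Point}
    (hP : ∀ n : ℕ, 1 ≤ n → n • P ≠ 0) (n : ℕ) (hn : 1 ≤ n) :
    n • (P + Affine.Point.some 0 0 (hV.nonsingular_zero h4)) ≠ 0 := by
  intro h0
  apply hP (2 * n) (by omega)
  have e : (2 * n) • (P + Affine.Point.some 0 0 (hV.nonsingular_zero h4)) =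
      (2 * n) • P + (2 * n) • Affine.Point.some 0 0 (hV.nonsingular_zero h4) := nsmul_add _ _ _
  rw [even_nsmul_T0 hV h4, add_zero, mul_nsmul', h0, smul_zero] at e
  exact e.symm

/-- a rational function `A/B` in lowest terms -/
lemma exists_coprime_factors {k : Type*} [Field k] (X₁ Z₁ : k[X]) (hZ : Z₁ ≠ 0) :
    ∃ g A B : k[X], g ≠ 0 ∧ X₁ = g * A ∧ Z₁ = g * B ∧ IsCoprime A B := by
  classical
  obtain ⟨A, hA⟩ := EuclideanDomain.gcd_dvd_left X₁ Z₁
  obtain ⟨B, hB⟩ := EuclideanDomain.gcd_dvd_right X₁ Z₁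
  have hg0 : EuclideanDomain.gcd X₁ Z₁ ≠ 0 := by
    intro h0
    rw [h0, zero_mul] at hB
    exact hZ hB
  refine ⟨_, A, B, hg0, hA, hB, ?_⟩
  have e := EuclideanDomain.gcd_eq_gcd_ab X₁ Z₁
  refine ⟨EuclideanDomain.gcdA X₁ Z₁, EuclideanDomain.gcdB X₁ Z₁, ?_⟩
  apply mul_left_cancel₀ hg0
  generalize EuclideanDomain.gcdA X₁ Z₁ = u at e ⊢
  generalize EuclideanDomain.gcdB X₁ Z₁ = v at e ⊢
  generalize EuclideanDomain.gcd X₁ Z₁ = g at e hA hB ⊢
  linear_combination -e - u * hA - v * hB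

/-- shape of the cofactors when the reduced denominator is a constant `b`:
`A = a₁ X + a₀` with `b = p² a₁` and `a₁ ≠ 0` -/
lemma const_denominator_shape [CharZero K] {p : ℕ} (hp1 : 1 ≤ p)
    {g A : K[X]} {b : K} (hb : b ≠ 0) (hA : (ladder W.a₂ W.a₄ p).1 = g * A)
    (hB : (ladder W.a₂ W.a₄ p).2 = g * C b) :
    ∃ a₁ a₀ : K, A = C a₁ * X + C a₀ ∧ a₁ ≠ 0 ∧ b = (p : K) ^ 2 * a₁ := by
  have sh := ladder_shape W.a₂ W.a₄ p hp1
  have hp0 : (p : K) ≠ 0 := by
    have : p ≠ 0 := by omega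
    exact_mod_cast this
  have hp21 : p ^ 2 - 1 + 1 = p ^ 2 := by
    have : 1 ≤ p ^ 2 := Nat.one_le_pow _ _ hp1
    omega
  -- degree of `g`
  have hZtop : (g * C b).coeff (p ^ 2 - 1) = (p : K) ^ 2 := by rw [← hB]; exact sh.topZ.2
  have hgd : g.natDegree ≤ p ^ 2 - 1 := by
    have := sh.topZ.1
    rw [hB, natDegree_mul_C hb] at this
    exact this
  have hγ : g.coeff (p ^ 2 - 1) * b = (p : K) ^ 2 := by
    rw [← hZtop, coeff_mul_C]
  have hγ0 : g.coeff (p ^ 2 - 1) ≠ 0 := by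
    intro h0
    rw [h0, zero_mul] at hγ
    exact pow_ne_zero 2 hp0 hγ.symm
  have hg0 : g ≠ 0 := by
    intro h0
    apply hγ0
    rw [h0, coeff_zero]
  have hgd' : g.natDegree = p ^ 2 - 1 := le_antisymm hgd (le_natDegree_of_ne_zero hγ0)
  -- degree of `A`
  have hX0 : (ladder W.a₂ W.a₄ p).1 ≠ 0 := by
    intro h0
    have := sh.topX.2
    rw [h0, coeff_zero] at this
    exact zero_ne_one this
  have hA0 : A ≠ 0 := by
    intro h0
    apply hX0
    rw [hA, h0, mul_zero]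
  have hAd : A.natDegree ≤ 1 := by
    have := sh.topX.1
    rw [hA, natDegree_mul hg0 hA0, hgd'] at this
    omega
  have hXtop : g.coeff (p ^ 2 - 1) * A.coeff 1 = 1 := by
    rw [← coeff_mul_add_eq_of_natDegree_le hgd hAd, hp21, ← hA]
    exact sh.topX.2
  refine ⟨A.coeff 1, A.coeff 0, eq_X_add_C_of_natDegree_le_one hAd, ?_, ?_⟩
  · intro h0
    rw [h0, mul_zero] at hXtop
    exact zero_ne_one hXtop
  · have : b = b * (g.coeff (p ^ 2 - 1) * A.coeff 1) := by rw [hXtop, mul_one]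
    rw [this]
    linear_combination A.coeff 1 * hγ

/-- with a constant reduced denominator, multiplication by `p` is affine-linear on
`x`-coordinates -/
lemma linear_of_const_denominator (hW : IsModel W) (h2 : (2 : F) ≠ 0) {p : ℕ} (hp1 : 1 ≤ p)
    {g : K[X]} {a₁ a₀ b : K} (hA : (ladder W.a₂ W.a₄ p).1 = g * (C a₁ * X + C a₀))
    (hB : (ladder W.a₂ W.a₄ p).2 = g * C b) {xQ yQ : F}
    (hQ : (W⁄F).toAffine.Nonsingular xQ yQ)
    (hyp : ∀ j, 1 ≤ j → j • (Affine.Point.some xQ yQ hQ : (W⁄F).toAffine.Point) ≠ 0) :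
    ∃ (ξ η : F) (hξ : (W⁄F).toAffine.Nonsingular ξ η),
      p • (Affine.Point.some xQ yQ hQ : (W⁄F).toAffine.Point) = Affine.Point.some ξ η hξ ∧
      ξ * algebraMap K F b = algebraMap K F a₁ * xQ + algebraMap K F a₀ := by
  obtain ⟨ξ, η, hξ, e, hZ, hX⟩ := ladder_correct_base hW h2 hQ p hp1 hyp
  refine ⟨ξ, η, hξ, e, ?_⟩
  rw [hB] at hZ hX
  rw [hA] at hX
  simp only [map_mul, map_add, aeval_C, aeval_X] at hZ hX
  have hg : aeval xQ g ≠ 0 := left_ne_zero_of_mul hZ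
  apply mul_left_cancel₀ hg
  linear_combination hX

/-- **No constant denominator.** -/
lemma not_const_denominator [CharZero K] (hW : IsModel W) (h4 : W.a₄ ≠ 0) {p : ℕ}
    (hp : p.Prime) (hp2 : p ≠ 2) {x y : F} (hx : Transcendental K x)
    (h : (W⁄F).toAffine.Nonsingular x y)
    (hgen : ∀ n : ℕ, 1 ≤ n → n • (Affine.Point.some x y h : (W⁄F).toAffine.Point) ≠ 0)
    {g A : K[X]} {b : K} (hb : b ≠ 0) (hA : (ladder W.a₂ W.a₄ p).1 = g * A)
    (hB : (ladder W.a₂ W.a₄ p).2 = g * C b) : False := by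
  have hp1 : 1 ≤ p := hp.one_le
  have h2F : (2 : F) ≠ 0 := by
    have : (2 : F) = algebraMap K F 2 := (map_ofNat (algebraMap K F) 2).symm
    rw [this]
    exact (_root_.map_ne_zero _).2 two_ne_zero
  obtain ⟨a₁, a₀, rfl, ha₁, hba⟩ := const_denominator_shape hp1 hb hA hB
  have hWF : IsModel (W⁄F) := isModel_baseChange hW
  have h4F : (W⁄F).a₄ ≠ 0 := by
    rw [baseChange_a₄_eq]
    exact (_root_.map_ne_zero _).2 h4
  have hx0 : x ≠ 0 := by
    rintro rfl
    exact hx (isAlgebraic_zero)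
  -- the generic point
  obtain ⟨ξ, η, hξ, e, hlin⟩ := linear_of_const_denominator hW h2F hp1 hA hB h hgen
  have hη : η ≠ 0 := by
    apply y_ne_zero_of_two_nsmul_ne_zero hWF hξ
    rw [← e, ← mul_nsmul']
    exact hgen _ (by omega)
  have hξ0 : ξ ≠ 0 := x_ne_zero_of_y_ne_zero hWF hξ hη
  -- its translate by `T₀`
  obtain ⟨hQ, eQ⟩ := hWF.add_T0 h4F h hx0
  obtain ⟨hQ', eQ'⟩ := hWF.add_T0 h4F hξ hξ0
  have hypQ : ∀ j, 1 ≤ j → j • (Affine.Point.some _ _ hQ : (W⁄F).toAffine.Point) ≠ 0 := by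
    intro j hj
    rw [← eQ]
    exact nsmul_add_T0_ne_zero hWF h4F hgen j hj
  obtain ⟨ξ', η', hξ', e', hlin'⟩ := linear_of_const_denominator hW h2F hp1 hA hB hQ hypQ
  obtain ⟨m, hm, rfl⟩ : ∃ m, 1 ≤ m ∧ p = 2 * m + 1 := by
    rcases hp.eq_two_or_odd' with h | h
    · exact absurd h hp2
    · obtain ⟨m, rfl⟩ := h
      exact ⟨m, by
        rcases Nat.eq_zero_or_pos m with rfl | h
        · exact absurd hp (by norm_num)
        · exact h, rfl⟩
  have hξ'eq : ξ' = (W⁄F).a₄ / ξ := by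
    have : (Affine.Point.some ξ' η' hξ' : (W⁄F).toAffine.Point) = Affine.Point.some _ _ hQ' := by
      rw [← e', ← eQ', ← eQ, nsmul_add, e, odd_nsmul_T0 hWF h4F]
    simp only [Affine.Point.some.injEq] at this
    exact this.1
  rw [hξ'eq, baseChange_a₄_eq] at hlin'
  -- the polynomial identity
  have key : aeval x (C (W.a₄ * b ^ 2) * X - (C a₁ * X + C a₀) * (C (a₁ * W.a₄) + C a₀ * X)) =
      0 := by
    simp only [map_sub, map_mul, map_add, aeval_C, aeval_X, map_pow]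
    have hbF : algebraMap K F b ≠ 0 := (_root_.map_ne_zero _).2 hb
    field_simp at hlin'
    have e1 : ξ = (algebraMap K F a₁ * x + algebraMap K F a₀) / algebraMap K F b := by
      rw [eq_div_iff hbF, hlin]
    rw [e1] at hlin'
    field_simp at hlin'
    linear_combination hlin'
  have hR := (transcendental_iff.1 hx) _ key
  have h0 := congrArg (eval 0) hR
  have h1 := congrArg (eval 1) hR
  simp only [eval_sub, eval_mul, eval_add, eval_C, eval_X, eval_zero, mul_zero, add_zero,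
    zero_sub, neg_eq_zero, mul_one, zero_add] at h0 h1
  have ha₀ : a₀ = 0 := by
    rcases mul_eq_zero.1 h0 with h | h
    · exact h
    · exact absurd h (mul_ne_zero ha₁ h4)
  rw [ha₀] at h1
  have hsq : b ^ 2 = a₁ ^ 2 := by
    apply mul_left_cancel₀ h4
    linear_combination h1
  rw [hba] at hsq
  have hp4 : ((2 * m + 1 : ℕ) : K) ^ 4 = 1 := by
    apply mul_right_cancel₀ (pow_ne_zero 2 ha₁)
    linear_combination hsq
  have : (2 * m + 1) ^ 4 = 1 := by exact_mod_cast hp4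
  have h3 : 3 ≤ 2 * m + 1 := by omega
  have : 3 ^ 4 ≤ (2 * m + 1) ^ 4 := Nat.pow_le_pow_left h3 4
  omega

/-- **The pole lemma.**  The `x`-coordinate `ξ` of `p • (x, y)` is `A(x)/B(x)` with
`B(x₀) = 0 ≠ A(x₀)` for some `x₀ ∈ K`. -/
theorem exists_pole [IsAlgClosed K] [CharZero K] (hW : IsModel W) (hΔ : W.Δ ≠ 0) {p : ℕ}
    (hp : p.Prime) (hp2 : p ≠ 2) {x y : F} (hx : Transcendental K x)
    (h : (W⁄F).toAffine.Nonsingular x y)
    (hgen : ∀ n : ℕ, 1 ≤ n → n • (Affine.Point.some x y h : (W⁄F).toAffine.Point) ≠ 0) :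
    ∃ (x₀ : K) (A B : K[X]) (ξ η : F) (hξ : (W⁄F).toAffine.Nonsingular ξ η),
      B.eval x₀ = 0 ∧ A.eval x₀ ≠ 0 ∧
      p • (Affine.Point.some x y h : (W⁄F).toAffine.Point) = Affine.Point.some ξ η hξ ∧
      aeval x B ≠ 0 ∧ ξ * aeval x B = aeval x A := by
  have hp1 : 1 ≤ p := hp.one_le
  have h2F : (2 : F) ≠ 0 := by
    have : (2 : F) = algebraMap K F 2 := (map_ofNat (algebraMap K F) 2).symm
    rw [this]
    exact (_root_.map_ne_zero _).2 two_ne_zero
  have h4 : W.a₄ ≠ 0 := by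
    classical
    rintro h0
    apply hΔ
    rw [hW.Δ_eq, h0]
    ring
  obtain ⟨ξ, η, hξ, e, hZ, hX⟩ := ladder_correct_base hW h2F h p hp1 hgen
  have hZ0 : (ladder W.a₂ W.a₄ p).2 ≠ 0 := by
    intro h0
    apply hZ
    rw [h0, map_zero]
  obtain ⟨g, A, B, hg0, hA, hB, hcop⟩ :=
    exists_coprime_factors (ladder W.a₂ W.a₄ p).1 (ladder W.a₂ W.a₄ p).2 hZ0
  have hB0 : B ≠ 0 := by
    rintro rfl
    apply hZ0
    rw [hB, mul_zero]
  have hgx : aeval x g ≠ 0 := by
    intro h0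
    apply hZ
    rw [hB, map_mul, h0, zero_mul]
  have hBx : aeval x B ≠ 0 := by
    intro h0
    apply hZ
    rw [hB, map_mul, h0, mul_zero]
  have hξB : ξ * aeval x B = aeval x A := by
    rw [hA, hB, map_mul, map_mul] at hX
    apply mul_left_cancel₀ hgx
    linear_combination hX
  by_cases hroot : ∃ x₀, B.eval x₀ = 0
  · obtain ⟨x₀, hx₀⟩ := hroot
    refine ⟨x₀, A, B, ξ, η, hξ, hx₀, ?_, e, hBx, hξB⟩
    obtain ⟨u, v, huv⟩ := hcop
    intro hA0
    have := congrArg (eval x₀) huv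
    simp [hA0, hx₀] at this
  · exfalso
    have hdeg : B.degree = 0 := by
      by_contra hd
      obtain ⟨x₀, hx₀⟩ := IsAlgClosed.exists_root B hd
      exact hroot ⟨x₀, hx₀⟩
    have hBC := eq_C_of_degree_eq_zero hdeg
    have hb : B.coeff 0 ≠ 0 := by
      intro h0
      apply hB0
      rw [hBC, h0, C_0]
    rw [hBC] at hB
    exact not_const_denominator hW h4 hp hp2 hx h hgen hb hA hB

end Fermat.Agent.S13
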